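import Mathlib
import Fermat.Agent.RTLift.Modules.Identities

/-!
Normal forms of integral matrices of prime determinant in `Δ₀(N)`.
-/

set_option autoImplicit false

namespace FermatAgent.RTLift.Old

open scoped MatrixGroups
open CongruenceSubgroup FermatAgent.RTLift.Modules

theorem exists_tRep_form {N l : ℕ} (hl : l.Prime) {A B C D : ℤ} (hdet : A * D - B * C = l)
    (hC : (N : ℤ) ∣ C) (hA : ¬ l ∣ N ∨ ¬ (l : ℤ) ∣ A) :
    ∃ (j : Option (ZMod l)) (u : Gamma0 N), !![A, B; C, D] = coeMat u * Periods.tRep l j ∧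
      (l ∣ N → j ≠ none) := by
  have : NeZero l := ⟨hl.ne_zero⟩
  have hl0 : (l : ℤ) ≠ 0 := Int.natCast_ne_zero.mpr hl.ne_zero
  obtain ⟨C', rfl⟩ := hC
  by_cases hdiv : (l : ℤ) ∣ A ∧ (l : ℤ) ∣ C'
  · obtain ⟨⟨a, rfl⟩, ⟨c, rfl⟩⟩ := hdiv
    have hN : ¬ l ∣ N := hA.resolve_right fun h ↦ h (dvd_mul_right _ _)
    have h1 : a * D - B * ((N : ℤ) * c) = 1 := mul_left_cancel₀ hl0 (by linear_combination hdet)
    refine ⟨none, ⟨⟨!![a, B; N * c, D], by rw [Matrix.det_fin_two_of]; exact h1⟩,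
      Gamma0_mem.mpr (by simp)⟩, ?_, fun h ↦ absurd h hN⟩
    rw [tRep_none_eq]
    ext i j
    fin_cases i <;> fin_cases j <;> simp [coeMat, Matrix.mul_apply, Fin.sum_univ_two] <;> ring
  · have hcop : IsCoprime A ((N : ℤ) * C') := by
      rw [Int.isCoprime_iff_gcd_eq_one]
      by_contra hg
      obtain ⟨r, hr, hrg⟩ := Nat.exists_prime_and_dvd hg
      have hrA : (r : ℤ) ∣ A := (Int.natCast_dvd_natCast.mpr hrg).trans (Int.gcd_dvd_left _ _)
      have hrC : (r : ℤ) ∣ (N : ℤ) * C' :=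
        (Int.natCast_dvd_natCast.mpr hrg).trans (Int.gcd_dvd_right _ _)
      have hrl : r ∣ l := Int.natCast_dvd_natCast.mp
        (hdet ▸ dvd_sub (hrA.mul_right D) (hrC.mul_left B))
      obtain rfl := (Nat.prime_dvd_prime_iff_eq hr hl).mp hrl
      rcases (Nat.prime_iff_prime_int.mp hr).dvd_or_dvd hrC with h | h
      · exact (hA.resolve_left (not_not.mpr (Int.natCast_dvd_natCast.mp h))) hrA
      · exact hdiv ⟨hrA, h⟩
    obtain ⟨s, t, hst⟩ := hcop
    set b := s * B + t * D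
    obtain ⟨e, he⟩ : (l : ℤ) ∣ b - ((b : ZMod l).val : ℤ) := by
      rw [← ZMod.intCast_zmod_eq_zero_iff_dvd]
      simp
    refine ⟨some (b : ZMod l),
      ⟨⟨!![A, A * e - t; N * C', N * C' * e + s], by
        rw [Matrix.det_fin_two_of]; linear_combination hst⟩, Gamma0_mem.mpr (by simp)⟩, ?_,
      fun _ ↦ by simp⟩
    rw [tRep_some_eq]
    ext i j
    fin_cases i <;> fin_cases j <;>
      simp [coeMat, Matrix.mul_apply, Fin.sum_univ_two, -ZMod.natCast_val]
    · linear_combination (-(B : ℤ)) * hst + A * he - t * hdet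
    · linear_combination (-(D : ℤ)) * hst + (N * C') * he + s * hdet

end FermatAgent.RTLift.Old
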