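import Mathlib
import Fermat.Agent.RTLift.Modules.SamePrime
import Fermat.Agent.RTLift.Old.Normal

/-!
Sums of correspondences and scalar correspondences.
-/

set_option autoImplicit false

namespace FermatAgent.RTLift.Old

open scoped MatrixGroups
open CongruenceSubgroup FermatAgent.RTLift.Modules

variable {Λ : Type*} [CommRing Λ]

section Sum

variable {Γ Γ' : Subgroup SL(2, ℤ)} {χ : Γ →* Λ} {χ' : Γ' →* Λ} {ι κ : Type*}

/-- The disjoint union of two correspondences. -/
def sumCross (D : CrossCorr χ χ' ι) (E : CrossCorr χ χ' κ) : CrossCorr χ χ' (ι ⊕ κ) where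
  rep := Sum.elim D.rep E.rep
  det_ne := by rintro (i | i) <;> simp [D.det_ne, E.det_ne]
  weight := Sum.elim D.weight E.weight
  target γ := Sum.map (D.target γ) (E.target γ)
  target_one := by rintro (i | i) <;> simp [D.target_one, E.target_one]
  target_mul γ η := by rintro (i | i) <;> simp [D.target_mul, E.target_mul]
  move γ := Sum.elim (D.move γ) (E.move γ)
  move_spec γ := by rintro (i | i) <;> simp [D.move_spec, E.move_spec]
  weight_move γ := by rintro (i | i) <;> simp [D.weight_move, E.weight_move]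

theorem sumCross_onH1 [Fintype ι] [Fintype κ] {A : Type*} [AddCommGroup A] [Module Λ A]
    (D : CrossCorr χ χ' ι) (E : CrossCorr χ χ' κ) (x : H1 χ A) :
    (sumCross D E).onH1 A x = D.onH1 A x + E.onH1 A x := by
  induction x using Submodule.Quotient.induction_on with
  | H f =>
    simp only [CrossCorr.onH1_mk, ← Submodule.Quotient.mk_add]
    congr 1
    refine Subtype.ext (funext fun γ ↦ ?_)
    simp [CrossCorr.apply_apply, sumCross]

end Sum

variable {M₀ M q : ℕ}

theorem isDelta_sumCross {θ : (ZMod M₀)ˣ →* Λ} {Γ' : Subgroup SL(2, ℤ)} {χ' : Γ' →* Λ} {h : M₀ ∣ M} {ι κ : Type*}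
    {D : CrossCorr (levelChar h θ) χ' ι} (hD : D.IsDelta θ)
    {E : CrossCorr (levelChar h θ) χ' κ} (hE : E.IsDelta θ) : (sumCross D E).IsDelta θ := by
  rintro (i | i)
  exacts [hD i, hE i]

variable (h : M₀ ∣ M) (θ : (ZMod M₀)ˣ →* Λ)

/-- The scalar matrix `q`. -/
noncomputable def scalarCross [NeZero q] (hc : q.Coprime M₀) :
    CrossCorr (levelChar h θ) (levelChar h θ) Unit :=
  CrossCorr.ofDelta (h := h) (h' := h) (θ := θ) (fun _ ↦ (q : ℤ) • 1)
    (fun _ ↦ by rw [Matrix.det_smul]; simp [NeZero.ne q])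
    (fun _ ↦ by rw [Matrix.smul_apply, Matrix.one_apply_ne (by decide)]; simp)
    (fun _ ↦ ZMod.unitOfCoprime q hc) (fun _ ↦ by simp) (fun _ i ↦ i) (fun _ ↦ rfl)
    (fun _ _ _ ↦ rfl) (fun γ _ ↦ γ) (fun γ _ ↦ by rw [smul_mul_assoc, one_mul, mul_smul_comm,
      mul_one])

theorem isDelta_scalarCross [NeZero q] (hc : q.Coprime M₀) : (scalarCross h θ hc).IsDelta θ :=
  fun _ ↦ ⟨by simp [scalarCross, CrossCorr.ofDelta, Matrix.natCast_apply], ZMod.unitOfCoprime q hc,
    by simp [scalarCross, CrossCorr.ofDelta, Matrix.natCast_apply], rfl⟩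

theorem scalarCross_onH1 [NeZero q] (hc : q.Coprime M₀) {A : Type*} [AddCommGroup A] [Module Λ A]
    (x : H1 (levelChar h θ) A) :
    (scalarCross h θ hc).onH1 A x = θ (ZMod.unitOfCoprime q hc)⁻¹ • x := by
  induction x using Submodule.Quotient.induction_on with
  | H f =>
    rw [CrossCorr.onH1_mk, ← Submodule.Quotient.mk_smul]
    congr 1
    refine Subtype.ext (funext fun γ ↦ ?_)
    simp [CrossCorr.apply_apply, scalarCross, CrossCorr.ofDelta]

theorem sep_of_subsingleton {Γ Γ' : Subgroup SL(2, ℤ)} {χ : Γ →* Λ} {χ' : Γ' →* Λ} {ι : Type*}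
    [Subsingleton ι] (D : CrossCorr χ χ' ι) : D.Sep :=
  fun _ i j _ ↦ Subsingleton.elim i j

end FermatAgent.RTLift.Old
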