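import Mathlib
import Fermat.Agent.RTLift.Old.Corr

/-!
The Atkin–Lehner operator at a prime `q` from level `M` to level `M q`: its composites with the
degeneracy maps and itself, its relation with the trace and `U_q`, and its commutation, and that
of the trace, with the Hecke operators away from `q`.
-/

set_option autoImplicit false

namespace FermatAgent.RTLift.Old

open scoped MatrixGroups
open CongruenceSubgroup FermatAgent.RTLift.Modules FermatAgent.RTLift.Modules.CrossCorr

variable {Λ : Type*} [CommRing Λ] {M₀ M q : ℕ} [NeZero q] (h : M₀ ∣ M) (θ : (ZMod M₀)ˣ →* Λ)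
  {A : Type*} [AddCommGroup A] [Module Λ A]

omit [NeZero q] in
theorem coprime_of_bezout {x y : ℤ} (hxy : x * q - y * M = 1) (h : M₀ ∣ M) : q.Coprime M₀ := by
  refine Nat.Coprime.coprime_dvd_right h ?_
  rw [Nat.coprime_iff_gcd_eq_one]
  have : IsCoprime (q : ℤ) (M : ℤ) := ⟨x, -y, by linear_combination hxy⟩
  simpa [Int.gcd] using Int.isCoprime_iff_gcd_eq_one.mp this

omit [NeZero q] in
theorem mul_cast_eq_one {x y : ℤ} (hxy : x * q - y * M = 1) (h : M₀ ∣ M) :
    (q : ZMod M₀) * (x : ZMod M₀) = 1 := by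
  have := congrArg (Int.cast : ℤ → ZMod M₀) hxy
  push_cast at this
  rw [(ZMod.natCast_eq_zero_iff _ _).mpr h, mul_zero, sub_zero] at this
  linear_combination this

variable {x y : ℤ} (hxy : x * q - y * M = 1)

variable (A) in
/-- The Atkin–Lehner operator at `q` in level `M q`. -/
noncomputable def atkin : H1 (levelChar (h.mul_right q) θ) A →ₗ[Λ] H1 (levelChar (h.mul_right q) θ) A :=
  (alCross θ h hxy (h.mul_right q)).onH1 A

theorem isDelta_alCross : (alCross θ h hxy (h.mul_right q)).IsDelta θ :=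
  fun _ ↦ ⟨by
    show (((M * q : ℤ)) : ZMod M₀) = 0
    rw [ZMod.intCast_zmod_eq_zero_iff_dvd]
    exact (Int.natCast_dvd_natCast.mpr h).trans (dvd_mul_right _ _),
    1, by
    show (((q : ℤ) * x : ℤ) : ZMod M₀) = _
    push_cast
    simpa using mul_cast_eq_one hxy h, rfl⟩

/-- The inverse of the value at `q` of the character. -/
noncomputable def alScalar : Λ := θ (ZMod.unitOfCoprime q (coprime_of_bezout hxy h))⁻¹

omit [NeZero q] in
theorem isUnit_alScalar : IsUnit (alScalar h θ hxy) :=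
  (Group.isUnit _).map θ

/-- The element `!![x, y; M, q]` of `Γ₀(M)`. -/
def alGamma (hxy : x * q - y * M = 1) : Gamma0 M :=
  ⟨⟨!![x, y; M, q], by rw [Matrix.det_fin_two_of]; exact hxy⟩, Gamma0_mem.mpr (by simp)⟩

omit [NeZero q] in
theorem alMatZ_eq : alMatZ M q x y = coeMat (alGamma hxy) * !![(q : ℤ), 0; 0, 1] := by
  ext i j
  fin_cases i <;> fin_cases j <;> simp [alMatZ, alGamma, coeMat, Matrix.mul_apply, Fin.sum_univ_two, mul_comm]

theorem atkin_degI (x₁ : H1 (levelChar h θ) A) :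
    atkin h θ A hxy (degI h (h.mul_right q) θ A (dvd_mul_right M q) x₁) =
      degD h (h.mul_right q) θ A (coprime_of_bezout hxy h) dvd_rfl x₁ := by
  rw [atkin, degI, degD, ← comp_onH1]
  refine LinearMap.congr_fun (IsDelta.onH1_eq
    (isDelta_degCross h (h.mul_right q) θ (coprime_of_bezout hxy h) dvd_rfl) (sep_of_subsingleton _)
    (IsDelta.comp (isDelta_alCross h θ hxy) (isDelta_inclCross h (h.mul_right q) θ (dvd_mul_right M q)))
    (Equiv.punitProd _) (fun _ ↦ alGamma hxy) fun i ↦ ?_) x₁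
  show 1 * alMatZ M q x y = _
  rw [one_mul, alMatZ_eq hxy]
  rfl

theorem atkin_degD (x₁ : H1 (levelChar h θ) A) :
    atkin h θ A hxy (degD h (h.mul_right q) θ A (coprime_of_bezout hxy h) dvd_rfl x₁) =
      alScalar h θ hxy • degI h (h.mul_right q) θ A (dvd_mul_right M q) x₁ := by
  rw [atkin, degI, degD, alScalar, ← scalarCross_onH1 (h.mul_right q) θ (coprime_of_bezout hxy h),
    ← comp_onH1, ← comp_onH1]
  refine LinearMap.congr_fun (IsDelta.onH1_eq
    (IsDelta.comp (isDelta_scalarCross (h.mul_right q) θ (coprime_of_bezout hxy h))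
      (isDelta_inclCross h (h.mul_right q) θ (dvd_mul_right M q)))
    (sep_of_subsingleton _)
    (IsDelta.comp (isDelta_alCross h θ hxy)
      (isDelta_degCross h (h.mul_right q) θ (coprime_of_bezout hxy h) dvd_rfl))
    (Equiv.refl _)
    (fun _ ↦ ⟨⟨!![(q : ℤ) * x, y; M, 1], by rw [Matrix.det_fin_two_of]; linear_combination hxy⟩,
      Gamma0_mem.mpr (by simp)⟩) fun i ↦ ?_) x₁
  show !![(q : ℤ), 0; 0, 1] * alMatZ M q x y = _ * (1 * ((q : ℤ) • 1))
  rw [one_mul, mul_smul_comm, mul_one]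
  ext i j
  fin_cases i <;> fin_cases j <;> simp [alMatZ, coeMat, Matrix.mul_apply, Fin.sum_univ_two, mul_comm]

theorem atkin_atkin (z : H1 (levelChar (h.mul_right q) θ) A) :
    atkin h θ A hxy (atkin h θ A hxy z) = alScalar h θ hxy • z := by
  rw [atkin, alScalar, ← scalarCross_onH1 (h.mul_right q) θ (coprime_of_bezout hxy h), ← comp_onH1]
  refine LinearMap.congr_fun (IsDelta.onH1_eq
    (isDelta_scalarCross (h.mul_right q) θ (coprime_of_bezout hxy h)) (sep_of_subsingleton _)
    (IsDelta.comp (isDelta_alCross h θ hxy) (isDelta_alCross h θ hxy))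
    (Equiv.punitProd _)
    (fun _ ↦ ⟨⟨!![(q : ℤ) * x * x + y * M, y * (x + 1); M * q * (x + 1), M * y + q], by
      rw [Matrix.det_fin_two_of]; linear_combination (x * q - y * M + 1) * hxy⟩,
      Gamma0_mem.mpr ((ZMod.intCast_zmod_eq_zero_iff_dvd _ _).mpr ⟨x + 1, by simp⟩)⟩)
    fun i ↦ ?_) z
  show alMatZ M q x y * alMatZ M q x y = _ * ((q : ℤ) • 1)
  rw [mul_smul_comm, mul_one]
  ext i j
  fin_cases i <;> fin_cases j <;> simp [alMatZ, coeMat, Matrix.mul_apply, Fin.sum_univ_two] <;> ring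

/-- `!![x, x j + y; M, M j + q]` in `Γ₀(M)`. -/
def alShift (hxy : x * q - y * M = 1) (j : ℤ) : Gamma0 M :=
  ⟨⟨!![x, x * j + y; M, M * j + q], by rw [Matrix.det_fin_two_of]; linear_combination hxy⟩,
    Gamma0_mem.mpr (by simp)⟩

/-- The trace followed by the first degeneracy map, in terms of `U_q` and Atkin–Lehner. -/
theorem degI_trace [NeZero (M * q)] (hq : q.Prime) (hqM : ¬ q ∣ M)
    (z : H1 (levelChar (h.mul_right q) θ) A) :
    alScalar h θ hxy • degI h (h.mul_right q) θ A (dvd_mul_right M q)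
        (trace h (h.mul_right q) θ A z) =
      alScalar h θ hxy • z +
        heckeU (h.mul_right q) θ A (dvd_mul_left q M) (atkin h θ A hxy z) := by
  let : Fintype (TrPts M (M * q)) := Fintype.ofFinite _
  set S := scalarCross (h.mul_right q) θ (coprime_of_bezout hxy h)
  rw [atkin, alScalar, ← scalarCross_onH1 (h.mul_right q) θ (coprime_of_bezout hxy h),
    ← scalarCross_onH1 (h.mul_right q) θ (coprime_of_bezout hxy h), degI, trace, heckeU, ← comp_onH1,
    ← comp_onH1, ← comp_onH1, ← sumCross_onH1]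
  have hdet : ∀ m : Matrix (Fin 2) (Fin 2) ℤ, ∀ m', (q : ℤ) • m = (q : ℤ) • m' → m = m' := fun m m' e ↦
    smul_right_injective _ (Int.natCast_ne_zero.mpr (NeZero.ne q)) e
  have hUA : ∀ i : Unit × ZMod q,
      alMatZ M q x y * Periods.upperRep q (i.2.val : ℤ) =
        (q : ℤ) • coeMat (alShift hxy (i.2.val : ℤ)) := fun i ↦ by
    ext a b
    fin_cases a <;> fin_cases b <;>
      simp [alMatZ, alShift, coeMat, Periods.upperRep, Matrix.mul_apply, Fin.sum_univ_two,
        -ZMod.natCast_val] <;> ring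
  symm
  refine LinearMap.congr_fun (IsDelta.onH1_eq_of_exists
    (IsDelta.comp (IsDelta.comp
      (isDelta_scalarCross (h.mul_right q) θ (coprime_of_bezout hxy h))
      (isDelta_inclCross h (h.mul_right q) θ (dvd_mul_right M q)))
      (isDelta_trCross h (h.mul_right q) θ))
    (fun δ i j hd ↦ ?_)
    (isDelta_sumCross (isDelta_scalarCross (h.mul_right q) θ (coprime_of_bezout hxy h))
      (IsDelta.comp (isDelta_uCross (h.mul_right q) θ (dvd_mul_left q M)) (isDelta_alCross h θ hxy)))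
    (fun δ i j hd ↦ ?_) ?_ fun i ↦ ?_) z
  · obtain ⟨a, ⟨⟩, ⟨⟩⟩ := i
    obtain ⟨b, ⟨⟩, ⟨⟩⟩ := j
    have hd' : coeMat ((a.out)⁻¹) * (1 * ((q : ℤ) • 1)) =
        coeMat δ * (coeMat ((b.out)⁻¹) * (1 * ((q : ℤ) • 1))) := hd
    simp only [mul_one, mul_smul_comm] at hd'
    have hd'' := hdet _ _ hd'
    suffices hab : a = b by rw [hab]
    refine out_inv_mul_mem ?_
    have h3 : (a.out)⁻¹ * b.out = Subgroup.inclusion (gamma0_le_of_dvd (dvd_mul_right M q)) δ :=
      coeMat_injective (by
        rw [coeMat_mul, hd'', mul_assoc, ← coeMat_mul, inv_mul_cancel, coeMat_one, mul_one]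
        rfl)
    rw [h3]
    exact δ.2
  · have hgood : ∀ (g g' : Gamma0 M), coeMat g = coeMat δ * coeMat g' →
        (M : ℤ) * q ∣ coeMat g 1 0 * coeMat g' 1 1 - coeMat g 1 1 * coeMat g' 1 0 := fun g g' e ↦ by
      have hd := (g' : SL(2, ℤ)).2
      rw [Matrix.det_fin_two] at hd
      have h0 := (ZMod.intCast_zmod_eq_zero_iff_dvd _ _).mp (Gamma0_mem.mp δ.2)
      rw [e]
      simp only [Matrix.mul_apply, Fin.sum_univ_two]
      refine (?_ : (M : ℤ) * q ∣ coeMat δ 1 0).trans (dvd_of_eq ?_)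
      · exact_mod_cast h0
      · simp only [coeMat]
        linear_combination (-(((δ : SL(2, ℤ)) : Matrix (Fin 2) (Fin 2) ℤ) 1 0)) * hd
    have hM0 : (M : ℤ) ≠ 0 := Int.natCast_ne_zero.mpr fun h0 ↦ hqM (h0 ▸ dvd_zero q)
    have hq1 : ¬ (q : ℤ) ∣ 1 := fun e ↦ hq.ne_one (Nat.dvd_one.mp (by exact_mod_cast e))
    rcases i with i | i <;> rcases j with j | j
    · rfl
    · exfalso
      have e := hgood 1 (alShift hxy (j.2.val : ℤ)) (by
        refine hdet _ _ ?_
        rw [coeMat_one, ← mul_smul_comm, ← hUA]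
        exact hd)
      simp [alShift, coeMat] at e
      exact hq1 ((mul_dvd_mul_iff_left hM0).mp (by simpa using e))
    · exfalso
      have e := hgood (alShift hxy (i.2.val : ℤ)) 1 (by
        refine hdet _ _ ?_
        rw [coeMat_one, ← mul_smul_comm, ← hUA]
        exact hd)
      simp [alShift, coeMat] at e
      exact hq1 ((mul_dvd_mul_iff_left hM0).mp (by simpa using e))
    · have e := hgood (alShift hxy (i.2.val : ℤ)) (alShift hxy (j.2.val : ℤ)) (by
        refine hdet _ _ ?_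
        rw [← hUA, ← mul_smul_comm, ← hUA]
        exact hd)
      simp [alShift, coeMat, -ZMod.natCast_val] at e
      have e' : (M : ℤ) * q ∣ (M : ℤ) * ((M : ℤ) * ((j.2.val : ℤ) - i.2.val)) := by
        convert e using 1
        ring
      have e'' := ((Nat.prime_iff_prime_int.mp hq).dvd_or_dvd
        ((mul_dvd_mul_iff_left hM0).mp e')).resolve_left fun hc ↦
          hqM (Int.natCast_dvd_natCast.mp hc)
      have hij := (ZMod.intCast_zmod_eq_zero_iff_dvd _ _).mpr e''
      simp [sub_eq_zero, -ZMod.natCast_val] at hij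
      exact congrArg Sum.inr (Prod.ext rfl (by simpa using hij.symm))
  · simp [card_trPts hq hqM]
    ring
  · obtain ⟨g, hg⟩ : ∃ g : Gamma0 M,
        (sumCross S (comp (uCross (h.mul_right q) θ (dvd_mul_left q M))
          (alCross θ h hxy (h.mul_right q)))).rep i = (q : ℤ) • coeMat g := by
      rcases i with i | i
      · exact ⟨1, by rw [coeMat_one]; rfl⟩
      · exact ⟨_, hUA i⟩
    obtain ⟨a, u, hu⟩ := exists_trace_decomp (M' := M * q) g
    refine ⟨(a, ((), ())), u, ?_⟩
    rw [hg, hu]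
    show _ = coeMat u * (coeMat ((a.out)⁻¹) * (1 * ((q : ℤ) • 1)))
    simp only [mul_one, mul_smul_comm]

section Away

omit [NeZero q] in
include hxy in
/-- Conjugation of upper triangular matrices by the Atkin–Lehner matrix. -/
theorem exists_alMatZ_mul {l : ℕ} (hl : l.Prime) (t : Option (ZMod l))
    (hlM : ¬ l ∣ M * q ∨ (l ∣ M ∧ t ≠ none)) :
    ∃ (j : Option (ZMod l)) (u : Gamma0 (M * q)),
      alMatZ M q x y * Periods.tRep l t = coeMat u * (Periods.tRep l j * alMatZ M q x y) ∧
        (l ∣ M * q → j ≠ none) := by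
  obtain ⟨a, b, d, ht, -⟩ := exists_tRep_shape t
  have had : a * d = l := by
    have := Periods.det_tRep l t
    rw [ht, Matrix.det_fin_two_of] at this
    linear_combination this
  set A' : ℤ := q * x * a - M * (q * x * b + y * d) with hA'
  set B' : ℤ := -(x * a * y) + x * (q * x * b + y * d) with hB'
  set C' : ℤ := M * q * (a - M * b - d) with hC'
  set D' : ℤ := -(M * a * y) + x * (M * q * b + q * d) with hD'
  have key : !![A', B'; C', D'] * alMatZ M q x y = alMatZ M q x y * Periods.tRep l t := by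
    rw [ht]
    ext i j
    fin_cases i <;> fin_cases j <;>
      simp [alMatZ, A', B', C', D', Matrix.mul_apply, Fin.sum_univ_two]
    · linear_combination (q : ℤ) * x * a * hxy
    · linear_combination ((q : ℤ) * x * b + y * d) * hxy
    · linear_combination (M : ℤ) * q * a * hxy
    · linear_combination ((M : ℤ) * q * b + q * d) * hxy
  obtain ⟨j, u, hju, hj⟩ := exists_tRep_form (N := M * q) hl (A := A') (B := B') (C := C') (D := D')
    (by simp only [A', B', C', D']; linear_combination (x * q - y * M + 1) * (a * d) * hxy + had)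
    (by simp [C']) (hlM.imp id fun ⟨hd, htn⟩ hA ↦ by
      cases t with
      | none => exact htn rfl
      | some j =>
        have ha : a = 1 := by
          have := congrFun (congrFun ht 0) 0
          simpa [Periods.tRep, Periods.upperRep] using this.symm
        have hMl : (l : ℤ) ∣ M := Int.natCast_dvd_natCast.mpr hd
        have h1 : (l : ℤ) ∣ 1 := by
          have hx : (q : ℤ) * x = A' + M * (q * x * b + y * d) := by rw [hA', ha]; ring
          have : (l : ℤ) ∣ q * x := hx ▸ dvd_add hA (hMl.mul_right _)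
          have h2 : (1 : ℤ) = q * x - y * M := by linear_combination -hxy
          exact h2 ▸ dvd_sub this (hMl.mul_left _)
        exact hl.ne_one (Nat.dvd_one.mp (by exact_mod_cast h1)))
  exact ⟨j, u, by rw [← mul_assoc, ← hju, key], hj⟩

omit [NeZero q] in
theorem alMatZ_mul_sep {l : ℕ} (hl : l.Prime) (hlq : l ≠ q) (hq : q.Prime)
    (hxy : x * q - y * M = 1) {δ : Gamma0 (M * q)} {t t' : Option (ZMod l)}
    (hd : alMatZ M q x y * Periods.tRep l t =
      coeMat δ * (alMatZ M q x y * Periods.tRep l t')) : t = t' := by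
  rw [alMatZ_eq hxy, mul_assoc] at hd
  set δ' : SL(2, ℤ) := (alGamma hxy : SL(2, ℤ))⁻¹ * (δ : SL(2, ℤ)) * (alGamma hxy : SL(2, ℤ))
  refine (mul_tRep_sep hq hl hlq.symm δ' none none t t' ?_).2
  rw [tRep_none_eq]
  have := congrArg (((alGamma hxy : SL(2, ℤ))⁻¹ : SL(2, ℤ)).1 * ·) hd
  simp only [← mul_assoc, ← Matrix.SpecialLinearGroup.coe_mul, coeMat, inv_mul_cancel,
    Matrix.SpecialLinearGroup.coe_one, one_mul] at this
  rw [this]
  simp [δ', mul_assoc]

theorem atkin_heckeT (hq : q.Prime) {l : ℕ} (hl : l.Prime) (hlM : ¬ l ∣ M * q)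
    (z : H1 (levelChar (h.mul_right q) θ) A) :
    heckeT (h.mul_right q) θ A hl hlM (atkin h θ A hxy z) =
      atkin h θ A hxy (heckeT (h.mul_right q) θ A hl hlM z) := by
  have : NeZero l := ⟨hl.ne_zero⟩
  have hlq : l ≠ q := fun e ↦ hlM (e ▸ dvd_mul_left q M)
  rw [atkin, heckeT, ← comp_onH1, ← comp_onH1]
  refine LinearMap.congr_fun (IsDelta.onH1_eq_of_exists
    (IsDelta.comp (isDelta_alCross h θ hxy) (isDelta_tCross _ θ hl hlM)) (fun δ i j hd ↦ ?_)
    (IsDelta.comp (isDelta_tCross _ θ hl hlM) (isDelta_alCross h θ hxy)) (fun δ i j hd ↦ ?_)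
    (by simp) fun i ↦ ?_) z
  · refine Prod.ext ?_ rfl
    refine Periods.tRep_sep hl (δ : SL(2, ℤ)) _ _ (Periods.matrix_mul_right_cancel
      (C := alMatZ M q x y) (by rw [alMatZ_det hxy]; exact_mod_cast hq.ne_zero) ?_)
    rw [mul_assoc]
    exact hd
  · exact Prod.ext rfl (alMatZ_mul_sep hl hlq hq hxy hd)
  · obtain ⟨j, u, hu, -⟩ := exists_alMatZ_mul hxy hl i.2 (Or.inl hlM)
    exact ⟨(j, ()), u, hu⟩

theorem atkin_heckeU (hq : q.Prime) {r : ℕ} [NeZero r] (hr : r.Prime) (hrq : r ≠ q) (hrM : r ∣ M)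
    (z : H1 (levelChar (h.mul_right q) θ) A) :
    heckeU (h.mul_right q) θ A (hrM.mul_right q) (atkin h θ A hxy z) =
      atkin h θ A hxy (heckeU (h.mul_right q) θ A (hrM.mul_right q) z) := by
  rw [atkin, heckeU, ← comp_onH1, ← comp_onH1]
  refine LinearMap.congr_fun (IsDelta.onH1_eq_of_exists
    (IsDelta.comp (isDelta_alCross h θ hxy) (isDelta_uCross _ θ _)) (fun δ i j hd ↦ ?_)
    (IsDelta.comp (isDelta_uCross _ θ _) (isDelta_alCross h θ hxy)) (fun δ i j hd ↦ ?_)
    (by simp) fun i ↦ ?_) z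
  · refine Prod.ext ?_ rfl
    refine Periods.upperRep_sep (δ : SL(2, ℤ)) (Periods.matrix_mul_right_cancel
      (C := alMatZ M q x y) (by rw [alMatZ_det hxy]; exact_mod_cast hq.ne_zero) ?_)
    rw [mul_assoc]
    exact hd
  · exact Prod.ext rfl (Option.some_injective _
      (alMatZ_mul_sep (t := some i.2) (t' := some j.2) hr hrq hq hxy hd))
  · obtain ⟨j, u, hu, hj⟩ := exists_alMatZ_mul hxy hr (some i.2) (Or.inr ⟨hrM, by simp⟩)
    cases j with
    | none => exact absurd rfl (hj (hrM.mul_right q))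
    | some j => exact ⟨(j, ()), u, hu⟩

omit [NeZero q] in
/-- The trace commutes with `U_r` for `r` dividing the lower level. -/
theorem trace_heckeU [NeZero (M * q)] (hq : q.Prime) {r : ℕ} [NeZero r] (hr : r.Prime)
    (hrq : r ≠ q) (hrM : r ∣ M) (z : H1 (levelChar (h.mul_right q) θ) A) :
    heckeU h θ A hrM (trace h (h.mul_right q) θ A z) =
      trace h (h.mul_right q) θ A (heckeU (h.mul_right q) θ A (hrM.mul_right q) z) := by
  let : Fintype (TrPts M (M * q)) := Fintype.ofFinite _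
  rw [heckeU, heckeU, trace, ← comp_onH1, ← comp_onH1]
  refine (LinearMap.congr_fun (IsDelta.onH1_eq_of_exists
    (IsDelta.comp (isDelta_uCross h θ hrM) (isDelta_trCross h (h.mul_right q) θ))
    (fun δ i j hd ↦ ?_)
    (IsDelta.comp (isDelta_trCross h (h.mul_right q) θ) (isDelta_uCross _ θ _))
    (fun δ i j hd ↦ ?_) (by simp [mul_comm]) fun i ↦ ?_) z).symm
  · obtain ⟨a, t⟩ := i
    obtain ⟨b, t'⟩ := j
    have hd' : coeMat ((a.out)⁻¹) * Periods.upperRep r (t.val : ℤ) =
        coeMat δ * (coeMat ((b.out)⁻¹) * Periods.upperRep r (t'.val : ℤ)) := hd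
    set δM : Gamma0 M :=
      a.out * Subgroup.inclusion (gamma0_le_of_dvd (dvd_mul_right M q)) δ * (b.out)⁻¹ with hδM
    have he : Periods.upperRep r (t.val : ℤ) = coeMat δM * Periods.upperRep r (t'.val : ℤ) := by
      have := congrArg (coeMat a.out * ·) hd'
      simp only [← mul_assoc, ← coeMat_mul, mul_inv_cancel, coeMat_one, one_mul] at this
      rw [this, hδM, coeMat_mul, coeMat_mul]
      rfl
    obtain rfl := Periods.upperRep_sep (δM : SL(2, ℤ)) he
    have h2 : coeMat ((a.out)⁻¹) = coeMat δ * coeMat ((b.out)⁻¹) :=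
      Periods.matrix_mul_right_cancel (C := Periods.upperRep r (t.val : ℤ))
        (by rw [Periods.det_upperRep]; exact_mod_cast hr.ne_zero)
        (by rw [hd', mul_assoc])
    suffices hab : a = b by rw [hab]
    refine out_inv_mul_mem ?_
    have h3 : (a.out)⁻¹ * b.out = Subgroup.inclusion (gamma0_le_of_dvd (dvd_mul_right M q)) δ :=
      coeMat_injective (by
        rw [coeMat_mul, h2, mul_assoc, ← coeMat_mul, inv_mul_cancel, coeMat_one, mul_one]
        rfl)
    rw [h3]
    exact δ.2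
  · obtain ⟨t, a⟩ := i
    obtain ⟨t', b⟩ := j
    have hd' : Periods.upperRep r (t.val : ℤ) * coeMat ((a.out)⁻¹) =
        coeMat δ * (Periods.upperRep r (t'.val : ℤ) * coeMat ((b.out)⁻¹)) := hd
    have he : Periods.upperRep r (t.val : ℤ) * coeMat ((a.out)⁻¹ * b.out) =
        coeMat δ * Periods.upperRep r (t'.val : ℤ) := by
      rw [coeMat_mul, ← mul_assoc, hd', mul_assoc, mul_assoc, ← coeMat_mul, inv_mul_cancel,
        coeMat_one, mul_one]
    have hη : (((a.out)⁻¹ * b.out : Gamma0 M) : SL(2, ℤ)) ∈ Gamma0 (M * q) := by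
      have h10 := congrFun (congrFun he 1) 0
      simp [Matrix.mul_apply, Fin.sum_univ_two, Periods.upperRep] at h10
      obtain ⟨f, hf⟩ := (ZMod.intCast_zmod_eq_zero_iff_dvd _ _).mp
        (Gamma0_mem.mp ((a.out)⁻¹ * b.out : Gamma0 M).2)
      obtain ⟨e, he'⟩ := (ZMod.intCast_zmod_eq_zero_iff_dvd _ _).mp (Gamma0_mem.mp δ.2)
      push_cast at he'
      have hcop : IsCoprime (q : ℤ) (r : ℤ) := Int.isCoprime_iff_gcd_eq_one.mpr
        (by simpa [Int.gcd] using (Nat.coprime_primes hq hr).mpr hrq.symm)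
      have hM0 : (M : ℤ) ≠ 0 := Int.natCast_ne_zero.mpr fun h0 ↦
        NeZero.ne (M * q) (by rw [h0, zero_mul])
      have hf' : ((((a.out)⁻¹ * b.out : Gamma0 M) : SL(2, ℤ)) : Matrix (Fin 2) (Fin 2) ℤ) 1 0 =
          M * f := hf
      have hqf : (q : ℤ) ∣ f := hcop.dvd_of_dvd_mul_left ⟨e, mul_left_cancel₀ hM0 (by
        have e1 : (r : ℤ) * (M * f) = (M : ℤ) * q * e := by
          rw [← hf', ← he']
          simpa [coeMat, Matrix.mul_apply, Fin.sum_univ_two] using h10
        linear_combination e1)⟩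
      refine Gamma0_mem.mpr ((ZMod.intCast_zmod_eq_zero_iff_dvd _ _).mpr ?_)
      rw [hf']
      push_cast
      exact mul_dvd_mul_left _ hqf
    obtain rfl := out_inv_mul_mem hη
    rw [inv_mul_cancel, coeMat_one, mul_one] at he
    exact Prod.ext (Periods.upperRep_sep (δ : SL(2, ℤ)) he) rfl
  · obtain ⟨t, a⟩ := i
    let T := uCross h θ hrM
    obtain ⟨b, u, hu⟩ := exists_trace_decomp (M' := M * q) (T.move ((a.out)⁻¹) t)
    refine ⟨(b, T.target ((a.out)⁻¹) t), u, ?_⟩
    show Periods.upperRep r (t.val : ℤ) * coeMat ((a.out)⁻¹) =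
      coeMat u * (coeMat ((b.out)⁻¹) * _)
    rw [← mul_assoc, ← hu]
    exact T.move_spec _ _

end Away

end FermatAgent.RTLift.Old
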