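import Mathlib
import Fermat.Agent.RTLift.Modules.HeckeModule
import Fermat.Agent.RTLift.Old.AtkinLehner

/-!
The two degeneracy maps together, the two traces together, and their equivariance for the Hecke
symbols away from `q`.
-/

set_option autoImplicit false

namespace FermatAgent.RTLift.Old

open scoped MatrixGroups
open CongruenceSubgroup FermatAgent.RTLift.Modules

variable {Λ : Type} [CommRing Λ] {M₀ M q : ℕ} (h : M₀ ∣ M) (θ : (ZMod M₀)ˣ →* Λ)
  (A : Type) [AddCommGroup A] [Module Λ A] {x y : ℤ} (hxy : x * q - y * M = 1)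

/-- The sum of the two degeneracy maps. -/
noncomputable def alpha [NeZero q] (hxy : x * q - y * M = 1) :
    H1 (levelChar h θ) A × H1 (levelChar h θ) A →ₗ[Λ] H1 (levelChar (h.mul_right q) θ) A :=
  (degI h (h.mul_right q) θ A (dvd_mul_right M q)).coprod
    (degD h (h.mul_right q) θ A (coprime_of_bezout hxy h) dvd_rfl)

/-- The trace, and the trace after Atkin–Lehner. -/
noncomputable def beta [NeZero (M * q)] [NeZero q] (hxy : x * q - y * M = 1) :
    H1 (levelChar (h.mul_right q) θ) A →ₗ[Λ] H1 (levelChar h θ) A × H1 (levelChar h θ) A :=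
  (trace h (h.mul_right q) θ A).prod ((trace h (h.mul_right q) θ A).comp (atkin h θ A hxy))

variable {A} [NeZero q]

theorem alpha_apply (a b : H1 (levelChar h θ) A) :
    alpha h θ A hxy (a, b) = degI h (h.mul_right q) θ A (dvd_mul_right M q) a +
      degD h (h.mul_right q) θ A (coprime_of_bezout hxy h) dvd_rfl b := rfl

theorem beta_apply [NeZero (M * q)] (z : H1 (levelChar (h.mul_right q) θ) A) :
    beta h θ A hxy z =
      (trace h (h.mul_right q) θ A z, trace h (h.mul_right q) θ A (atkin h θ A hxy z)) := rfl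

/-- The composite of the traces with the degeneracy maps. -/
theorem beta_alpha [NeZero (M * q)] (hq : q.Prime) (hqM : ¬ q ∣ M) (a b : H1 (levelChar h θ) A) :
    beta h θ A hxy (alpha h θ A hxy (a, b)) =
      ((q + 1) • a + heckeT h θ A hq hqM b,
        heckeT h θ A hq hqM a + alScalar h θ hxy • (q + 1) • b) := by
  rw [alpha_apply, beta_apply, map_add, map_add, atkin_degI, atkin_degD, map_add, map_smul,
    trace_degI h θ hq hqM, trace_degI h θ hq hqM, trace_degD h θ hq hqM,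
    trace_degD h θ hq hqM]

variable {R : Type} [CommRing R] [Algebra R Λ] {J : Type} (pr : J → Nat.Primes)
  [Module R A] [IsScalarTower R Λ A]

section

omit [Algebra R Λ]

variable (hq : q.Prime) (hpr : ∀ j, (pr j : ℕ) ≠ q)
include hq hpr

omit [NeZero q] in
theorem degI_heckeOp (j : J) (a : H1 (levelChar h θ) A) :
    degI h (h.mul_right q) θ A (dvd_mul_right M q) (heckeOp h θ A (pr j) a) =
      heckeOp (h.mul_right q) θ A (pr j) (degI h (h.mul_right q) θ A (dvd_mul_right M q) a) := by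
  have : NeZero (pr j : ℕ) := ⟨(pr j).2.ne_zero⟩
  by_cases hj : (pr j : ℕ) ∣ M
  · rw [heckeOp_of_dvd h θ A hj, heckeOp_of_dvd (h.mul_right q) θ A (hj.mul_right q)]
    exact (degI_heckeU h (h.mul_right q) θ (dvd_mul_right M q) hj a).symm
  · have hj' : ¬ (pr j : ℕ) ∣ M * q := fun hd ↦ ((pr j).2.dvd_mul.mp hd).elim hj fun hd' ↦
      hpr j ((Nat.prime_dvd_prime_iff_eq (pr j).2 hq).mp hd')
    rw [heckeOp_of_not_dvd h θ A hj, heckeOp_of_not_dvd (h.mul_right q) θ A hj']
    exact (degI_heckeT h (h.mul_right q) θ (dvd_mul_right M q) (pr j).2 hj' a).symm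

theorem degD_heckeOp (hc : q.Coprime M₀) (j : J) (a : H1 (levelChar h θ) A) :
    degD h (h.mul_right q) θ A hc dvd_rfl (heckeOp h θ A (pr j) a) =
      heckeOp (h.mul_right q) θ A (pr j) (degD h (h.mul_right q) θ A hc dvd_rfl a) := by
  have : NeZero (pr j : ℕ) := ⟨(pr j).2.ne_zero⟩
  by_cases hj : (pr j : ℕ) ∣ M
  · rw [heckeOp_of_dvd h θ A hj, heckeOp_of_dvd (h.mul_right q) θ A (hj.mul_right q)]
    exact (degD_heckeU h (h.mul_right q) θ hq hc dvd_rfl (pr j).2 (hpr j) hj a).symm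
  · have hj' : ¬ (pr j : ℕ) ∣ M * q := fun hd ↦ ((pr j).2.dvd_mul.mp hd).elim hj fun hd' ↦
      hpr j ((Nat.prime_dvd_prime_iff_eq (pr j).2 hq).mp hd')
    rw [heckeOp_of_not_dvd h θ A hj, heckeOp_of_not_dvd (h.mul_right q) θ A hj']
    exact (degD_heckeT h (h.mul_right q) θ hq hc dvd_rfl (pr j).2 hj' a).symm

omit [NeZero q] in
theorem trace_heckeOp [NeZero (M * q)] (j : J) (z : H1 (levelChar (h.mul_right q) θ) A) :
    trace h (h.mul_right q) θ A (heckeOp (h.mul_right q) θ A (pr j) z) =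
      heckeOp h θ A (pr j) (trace h (h.mul_right q) θ A z) := by
  have : NeZero (pr j : ℕ) := ⟨(pr j).2.ne_zero⟩
  by_cases hj : (pr j : ℕ) ∣ M
  · rw [heckeOp_of_dvd h θ A hj, heckeOp_of_dvd (h.mul_right q) θ A (hj.mul_right q)]
    exact (trace_heckeU h θ hq (pr j).2 (hpr j) hj z).symm
  · have hj' : ¬ (pr j : ℕ) ∣ M * q := fun hd ↦ ((pr j).2.dvd_mul.mp hd).elim hj fun hd' ↦
      hpr j ((Nat.prime_dvd_prime_iff_eq (pr j).2 hq).mp hd')
    rw [heckeOp_of_not_dvd h θ A hj, heckeOp_of_not_dvd (h.mul_right q) θ A hj']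
    exact (trace_heckeT h (h.mul_right q) θ (dvd_mul_right M q) (pr j).2 hj' z).symm

theorem atkin_heckeOp (j : J) (z : H1 (levelChar (h.mul_right q) θ) A) :
    atkin h θ A hxy (heckeOp (h.mul_right q) θ A (pr j) z) =
      heckeOp (h.mul_right q) θ A (pr j) (atkin h θ A hxy z) := by
  have : NeZero (pr j : ℕ) := ⟨(pr j).2.ne_zero⟩
  by_cases hj : (pr j : ℕ) ∣ M
  · rw [heckeOp_of_dvd (h.mul_right q) θ A (hj.mul_right q)]
    exact (atkin_heckeU h θ hxy hq (pr j).2 (hpr j) hj z).symm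
  · have hj' : ¬ (pr j : ℕ) ∣ M * q := fun hd ↦ ((pr j).2.dvd_mul.mp hd).elim hj fun hd' ↦
      hpr j ((Nat.prime_dvd_prime_iff_eq (pr j).2 hq).mp hd')
    rw [heckeOp_of_not_dvd (h.mul_right q) θ A hj']
    exact (atkin_heckeT h θ hxy hq (pr j).2 hj' z).symm

end

theorem alpha_heckeHom (hq : q.Prime) (hpr : ∀ j, (pr j : ℕ) ≠ q) (s : MvPolynomial J R)
    (a b : H1 (levelChar h θ) A) :
    alpha h θ A hxy (heckeHom h θ A pr s a, heckeHom h θ A pr s b) =
      heckeHom (h.mul_right q) θ A pr s (alpha h θ A hxy (a, b)) := by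
  rw [alpha_apply, alpha_apply, map_add]
  exact congr (congrArg _ (commAeval_comm _ _ _ _ _ (degI_heckeOp h θ pr hq hpr) s a))
    (commAeval_comm _ _ _ _ _ (degD_heckeOp h θ pr hq hpr _) s b)

set_option maxHeartbeats 2000000 in
theorem beta_heckeHom [NeZero (M * q)] (hq : q.Prime) (hpr : ∀ j, (pr j : ℕ) ≠ q)
    (s : MvPolynomial J R) (z : H1 (levelChar (h.mul_right q) θ) A) :
    beta h θ A hxy (heckeHom (h.mul_right q) θ A pr s z) =
      (heckeHom h θ A pr s (beta h θ A hxy z).1, heckeHom h θ A pr s (beta h θ A hxy z).2) := by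
  have h1 : ∀ w, trace h (h.mul_right q) θ A (heckeHom (h.mul_right q) θ A pr s w) =
      heckeHom h θ A pr s (trace h (h.mul_right q) θ A w) := fun w ↦
    commAeval_comm _ _ _ _ _ (trace_heckeOp h θ pr hq hpr) s w
  have h2 : atkin h θ A hxy (heckeHom (h.mul_right q) θ A pr s z) =
      heckeHom (h.mul_right q) θ A pr s (atkin h θ A hxy z) :=
    commAeval_comm _ _ _ _ _ (atkin_heckeOp h θ hxy pr hq hpr) s z
  rw [beta_apply, beta_apply, h2, h1, h1]

end FermatAgent.RTLift.Old
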