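import Mathlib
import Fermat.Agent.RTLift.Modules.SamePrime
import Fermat.Agent.Ihara.Raising
import Fermat.Agent.ModCurve.Group.Homology

/-!
Integral parabolic characters: values of the trace and of the Atkin–Lehner operator in terms of
the representatives used for cohomology, and lifting of parabolic characters with arbitrary
coefficients in which `2` (and `3`, unless an auxiliary prime divides the level) is not a zero
divisor.
-/

set_option autoImplicit false

namespace FermatAgent.RTLift.Old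

open scoped MatrixGroups
open OnePoint CongruenceSubgroup ModularCurve.Period FermatAgent.RTLift.Modules

section Values

variable {M M' : ℕ} {k : Type*} [AddCommGroup k]

/-- The periods of a sum of translates of a symbol along a family permuted by right translation. -/
theorem sum_translate {ι : Type*} [Fintype ι] {φ : Ihara.Cusp × Ihara.Cusp → k}
    (h : Ihara.IsSymb (Ihara.G0 M' : Set Ihara.G2) φ) (g : ι → Ihara.G2) (γ : Ihara.G2)
    (m : ι → Gamma0 M') (σ : ι → ι) (hσ : Function.Bijective σ)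
    (hg : ∀ i, g i * γ = Ihara.slQ (m i) * g (σ i)) :
    ∑ i, φ (g i • ∞, g i • γ • ∞) = ∑ i, φ (∞, Ihara.slQ (m i) • ∞) := by
  have key : ∀ i, φ (g i • ∞, g i • γ • ∞) =
      φ (∞, Ihara.slQ (m i) • ∞) + (φ (∞, g (σ i) • ∞) - φ (∞, g i • ∞)) := by
    intro i
    rw [smul_smul (g i), hg i, mul_smul, h.add (g i • ∞) ∞,
      h.add ∞ (Ihara.slQ (m i) • ∞) (Ihara.slQ (m i) • (g (σ i) • ∞)),
      show φ (Ihara.slQ (m i) • ∞, Ihara.slQ (m i) • (g (σ i) • ∞)) =
        φ (∞, g (σ i) • ∞) from h.inv _ (Ihara.slQ_mem_G0 _) (∞, _), h.add.swap ∞ (g i • ∞)]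
    abel
  rw [Finset.sum_congr rfl fun i _ ↦ key i, Finset.sum_add_distrib, Finset.sum_sub_distrib,
    Fintype.sum_bijective σ hσ (fun i ↦ φ (∞, g (σ i) • ∞)) (fun i ↦ φ (∞, g i • ∞)) fun i ↦ rfl,
    sub_self, add_zero]

variable {q : ℕ} [NeZero q] [NeZero (M * q)] [Fintype (TrPts M (M * q))]

omit [NeZero q] in
theorem coe_trOp_apply (χ : Ihara.PH (M * q)) (γ : Gamma0 M) :
    (Ihara.trOp M q χ).1 (Additive.ofMul γ) =
      ∑ i : TrPts M (M * q), χ.1 (Additive.ofMul (⟨_, trace_move_mem γ i⟩ : Gamma0 (M * q))) := by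
  show Ihara.trSym M (M * q) (Ihara.symOf χ.1) (∞, Ihara.slQ γ • ∞) = _
  rw [Ihara.trSym_eq (fun i : TrPts M (M * q) ↦ (i.out)⁻¹) ⟨fun i j hij ↦ ?_, fun i ↦ ?_⟩
    χ.isSymb.inv]
  · refine (sum_translate χ.isSymb (fun i : TrPts M (M * q) ↦ Ihara.slQ ((i.out)⁻¹ : Gamma0 M))
      (Ihara.slQ γ) (fun i ↦ ⟨_, trace_move_mem γ i⟩) (fun i ↦ γ⁻¹ • i)
      (MulAction.bijective γ⁻¹) fun i ↦ ?_).trans ?_
    · rw [← map_mul, ← map_mul]
      congr 1
      simp [mul_assoc]
    · exact Finset.sum_congr rfl fun i _ ↦ DFunLike.congr_fun χ.periods (Additive.ofMul _)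
  · refine out_inv_mul_mem ?_
    have := QuotientGroup.rightRel_apply.mp (Quotient.exact hij.symm)
    simpa [Subgroup.mem_subgroupOf] using this
  · refine ⟨((i.out)⁻¹ : Gamma0 M), Ihara.trIdx_mk_eq ?_⟩
    have := QuotientGroup.eq.mp (QuotientGroup.out_eq'
      (((i.out)⁻¹ : Gamma0 M) : TrPts M (M * q)))
    simpa [Subgroup.mem_subgroupOf] using this

omit [NeZero (M * q)] [Fintype (TrPts M (M * q))] in
theorem coe_alOp_apply {x y : ℤ} (hxy : x * q - y * M = 1) (χ : Ihara.PH (M * q))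
    (γ : Gamma0 (M * q)) :
    (Ihara.alOp x y hxy χ).1 (Additive.ofMul γ) =
      χ.1 (Additive.ofMul (exists_alMove hxy γ).choose) := by
  show Ihara.corr (fun _ : Unit ↦ Ihara.alMat x y hxy) (Ihara.symOf χ.1) (∞, Ihara.slQ γ • ∞) = _
  refine (sum_translate χ.isSymb (fun _ : Unit ↦ Ihara.alMat x y hxy) (Ihara.slQ γ)
    (fun _ ↦ (exists_alMove hxy γ).choose) id Function.bijective_id fun _ ↦ ?_).trans ?_
  · have h := (exists_alMove hxy γ).choose_spec
    generalize (exists_alMove hxy γ).choose = δ at h ⊢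
    refine Ihara.g2_ext ?_ ?_ ?_ ?_ <;> rw [Ihara.mul_apply2, Ihara.mul_apply2] <;>
      simp only [Ihara.alMat, Ihara.val_mk2, Ihara.slQ_apply, Matrix.of_apply,
        Matrix.cons_val', Matrix.cons_val_zero, Matrix.cons_val_one, Matrix.cons_val_fin_one]
    · have := congrFun (congrFun h 0) 0
      simp [alMatZ, coeMat, Matrix.mul_apply, Fin.sum_univ_two] at this
      have e := congrArg (Int.cast : ℤ → ℚ) this
      push_cast at e ⊢
      linear_combination e
    · have := congrFun (congrFun h 0) 1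
      simp [alMatZ, coeMat, Matrix.mul_apply, Fin.sum_univ_two] at this
      have e := congrArg (Int.cast : ℤ → ℚ) this
      push_cast at e ⊢
      linear_combination e
    · have := congrFun (congrFun h 1) 0
      simp [alMatZ, coeMat, Matrix.mul_apply, Fin.sum_univ_two] at this
      have e := congrArg (Int.cast : ℤ → ℚ) this
      push_cast at e ⊢
      linear_combination e
    · have := congrFun (congrFun h 1) 1
      simp [alMatZ, coeMat, Matrix.mul_apply, Fin.sum_univ_two] at this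
      have e := congrArg (Int.cast : ℤ → ℚ) this
      push_cast at e ⊢
      linear_combination e
  · rw [Fintype.sum_unique]
    exact DFunLike.congr_fun χ.periods (Additive.ofMul _)

end Values

section Lift

variable {M : ℕ} {A : Type*} [AddCommGroup A]

/-- An element of trace `±1` cannot lie in `Γ₀(M)` when a prime `r ≡ 2 (mod 3)` divides `M`. -/
theorem trace_sq_ne_one {r : ℕ} (hr : r.Prime) (hr3 : r % 3 = 2) (hrM : r ∣ M) (γ : Gamma0 M) :
    ((γ : SL(2, ℤ)) : Matrix (Fin 2) (Fin 2) ℤ).trace ^ 2 ≠ 1 := by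
  intro h1
  have := Fact.mk hr
  set g := ((γ : SL(2, ℤ)) : Matrix (Fin 2) (Fin 2) ℤ) with hg
  have hdet := (γ : SL(2, ℤ)).2
  rw [Matrix.det_fin_two] at hdet
  rw [Matrix.trace_fin_two] at h1
  have h10 : ((g 1 0 : ℤ) : ZMod r) = 0 :=
    (ZMod.intCast_zmod_eq_zero_iff_dvd _ _).mpr ((Int.natCast_dvd_natCast.mpr hrM).trans
      ((ZMod.intCast_zmod_eq_zero_iff_dvd _ _).mp (Gamma0_mem.mp γ.2)))
  have e1 := congrArg (Int.cast : ℤ → ZMod r) h1
  have e2 := congrArg (Int.cast : ℤ → ZMod r) hdet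
  push_cast at e1 e2
  rw [← hg] at e2
  rw [h10, mul_zero, sub_zero] at e2
  set t : ZMod r := ((g 0 0 : ℤ) : ZMod r) + ((g 1 1 : ℤ) : ZMod r) with ht
  set a : ZMod r := t * ((g 0 0 : ℤ) : ZMod r) with ha
  have hq : a * (1 - a) = 1 := by
    rw [ha]
    linear_combination (-(((g 0 0 : ℤ) : ZMod r) * ((g 0 0 : ℤ) : ZMod r))) * e1 +
      e2 + ((g 0 0 : ℤ) : ZMod r) * ht
  have hcube : (-a) ^ 3 = 1 := by linear_combination (1 + a) * hq
  have hone : -a = 1 := by
    have hu : (-a) ≠ 0 := fun h0 ↦ by simp [h0] at hcube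
    have hord : orderOf (-a) ∣ Nat.gcd 3 (r - 1) :=
      Nat.dvd_gcd (orderOf_dvd_of_pow_eq_one hcube)
        (orderOf_dvd_of_pow_eq_one (ZMod.pow_card_sub_one_eq_one hu))
    have hg' : Nat.gcd 3 (r - 1) = 1 := by
      rw [← Nat.coprime_iff_gcd_eq_one, Nat.Prime.coprime_iff_not_dvd (by norm_num)]
      omega
    rw [hg', Nat.dvd_one] at hord
    exact orderOf_eq_one_iff.mp hord
  have h3 : ((3 : ℕ) : ZMod r) = 0 := by
    push_cast
    rw [show a = -1 by rw [← hone, neg_neg]] at hq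
    linear_combination -hq
  rw [ZMod.natCast_eq_zero_iff] at h3
  rw [(Nat.prime_dvd_prime_iff_eq hr Nat.prime_three).mp h3] at hr3
  omega

/-- Parabolic characters kill the elliptic elements. -/
theorem killsEP_of_parabolic (h2 : ∀ a : A, 2 • a = 0 → a = 0)
    (h3 : (∀ a : A, 3 • a = 0 → a = 0) ∨ ∃ r, r.Prime ∧ r % 3 = 2 ∧ r ∣ M)
    {φ : Additive (Gamma0 M) →+ A} (hφ : IsParabolicHom (Gamma0 M) φ) :
    ModCurveGroup.KillsEP (Gamma0 M) φ := by
  intro γ hγ
  rcases hγ.lt_or_eq with hlt | heq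
  swap
  · exact hφ γ heq
  rcases h3 with h3 | ⟨r, hr, hr3, hrM⟩
  · have h12 : γ ^ 12 = 1 := Subtype.ext (ModCurveGroup.pow_twelve_eq_one hlt)
    refine h3 _ (h2 _ (h2 _ ?_))
    rw [smul_smul, smul_smul, ← map_nsmul, ← ofMul_pow, show (2 * 2 * 3 : ℕ) = 12 by norm_num, h12]
    simp
  · have ht : ((γ : SL(2, ℤ)) : Matrix (Fin 2) (Fin 2) ℤ).trace = 0 := by
      set t := ((γ : SL(2, ℤ)) : Matrix (Fin 2) (Fin 2) ℤ).trace with ht
      have h1 : t ^ 2 ≠ 1 := trace_sq_ne_one hr hr3 hrM γ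
      have hb : -2 < t ∧ t < 2 := by constructor <;> nlinarith
      clear_value t
      obtain ⟨hb1, hb2⟩ := hb
      interval_cases t
      · exact absurd (by norm_num : (-1 : ℤ) ^ 2 = 1) h1
      · rfl
      · exact absurd (by norm_num : (1 : ℤ) ^ 2 = 1) h1
    have hsq : ((γ ^ 2 : Gamma0 M) : SL(2, ℤ)) = -1 := by
      have hdet := (γ : SL(2, ℤ)).2
      rw [Matrix.det_fin_two] at hdet
      rw [Matrix.trace_fin_two] at ht
      refine Subtype.ext ?_
      show _ = -(1 : Matrix (Fin 2) (Fin 2) ℤ)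
      rw [pow_two]
      ext i j
      fin_cases i <;> fin_cases j <;> simp [Matrix.mul_apply, Fin.sum_univ_two]
      · linear_combination ((γ : SL(2, ℤ)).1 0 0) * ht - hdet
      · linear_combination ((γ : SL(2, ℤ)).1 0 1) * ht
      · linear_combination ((γ : SL(2, ℤ)).1 1 0) * ht
      · linear_combination ((γ : SL(2, ℤ)).1 1 1) * ht - hdet
    have h4 : γ ^ 4 = 1 := Subtype.ext (by
      rw [show (4 : ℕ) = 2 * 2 from rfl, pow_mul, Subgroup.coe_pow, hsq]
      simp)
    refine h2 _ (h2 _ ?_)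
    rw [smul_smul, ← map_nsmul, ← ofMul_pow, show (2 * 2 : ℕ) = 4 by norm_num, h4]
    simp

/-- Characters killing elliptic and parabolic elements are combinations of integral parabolic
characters. -/
theorem exists_lift [NeZero M] {φ : Additive (Gamma0 M) →+ A}
    (hφ : ModCurveGroup.KillsEP (Gamma0 M) φ) :
    ∃ (c : Fin (2 * ModCurveGroup.genusX0 M) → A)
      (χ : Fin (2 * ModCurveGroup.genusX0 M) → Ihara.PH M),
      ∀ γ : Gamma0 M, φ (Additive.ofMul γ) = ∑ i, (χ i).1 (Additive.ofMul γ) • c i := by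
  classical
  let e := ModCurveGroup.parabolicHomsEquivPi M ℤ ℤ
  set c := ModCurveGroup.killsEPEquivPi M A ⟨φ, hφ⟩ with hc
  let χ : Fin (2 * ModCurveGroup.genusX0 M) → Ihara.PH M := fun i ↦ e.symm (Pi.single i 1)
  let ψ : Additive (Gamma0 M) →+ A :=
    AddMonoidHom.mk' (fun γ : Additive (Gamma0 M) ↦
      ∑ i : Fin (2 * ModCurveGroup.genusX0 M), ((χ i).1 γ : ℤ) • c i)
      fun a b ↦ by simp only [map_add, add_smul, Finset.sum_add_distrib]
  have hψ : ModCurveGroup.KillsEP (Gamma0 M) ψ := fun γ hγ ↦ by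
    show (∑ i, (χ i).1 (Additive.ofMul γ) • c i) = 0
    refine Finset.sum_eq_zero fun i _ ↦ ?_
    rw [(ModCurveGroup.killsEP_iff_isParabolicHom (Gamma0 M) (χ i).1).mpr (χ i).2 γ hγ, zero_smul]
  have heq : ModCurveGroup.killsEPEquivPi M A ⟨φ, hφ⟩ =
      ModCurveGroup.killsEPEquivPi M A ⟨ψ, hψ⟩ := by
    funext j
    obtain ⟨γ, hγ⟩ := ModCurveGroup.homProj_surjective (Gamma0 M) (ModCurveGroup.basisH1X0 M j)
    rw [ModCurveGroup.killsEPEquivPi_apply M ⟨ψ, hψ⟩ j hγ, ← hc]
    show c j = ∑ i, (χ i).1 γ • c i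
    have hval : ∀ i, (χ i).1 γ = (Pi.single i (1 : ℤ) : _ → ℤ) j := fun i ↦ by
      rw [← ModCurveGroup.parabolicHomsEquivPi_apply M ℤ ℤ (χ i) j hγ]
      exact congrFun (e.apply_symm_apply _) j
    simp only [hval]
    rw [Finset.sum_eq_single j (fun i _ hi ↦ by rw [Pi.single_eq_of_ne (Ne.symm hi), zero_smul])
      (by simp)]
    simp
  refine ⟨c, χ, fun γ ↦ ?_⟩
  exact DFunLike.congr_fun (congrArg Subtype.val ((ModCurveGroup.killsEPEquivPi M A).injective heq))
    (Additive.ofMul γ)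

end Lift

end FermatAgent.RTLift.Old
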