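import Mathlib
import Fermat.Agent.RTLift.Modules.HeckeModule
import Fermat.Agent.ModCurve.Group.Conjugacy
import Fermat.Agent.RTLift.Old.Normal

/-!
Cohomology with coefficients on which the character acts trivially: additive characters, with the
same Hecke operators. Coefficients `A` on which two characters are both trivial give the same
module, so a character congruent to one agrees with trivial coefficients modulo the congruence.
-/

set_option autoImplicit false

namespace FermatAgent.RTLift.Old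

open scoped MatrixGroups
open CongruenceSubgroup FermatAgent.RTLift.Modules

variable {Λ : Type*} [CommRing Λ] {Γ Γ' : Subgroup SL(2, ℤ)} {χ : Γ →* Λ} {χ' : Γ' →* Λ}
  {A : Type*} [AddCommGroup A] [Module Λ A]

/-- The character acts trivially on the coefficients. -/
def IsTrivialOn {G : Type*} [Monoid G] (χ : G →* Λ) (A : Type*) [AddCommGroup A] [Module Λ A] :
    Prop := ∀ (g : G) (a : A), χ g • a = a

theorem range_coboundary_eq_bot (hA : IsTrivialOn χ A) :
    LinearMap.range (coboundary χ A) = ⊥ := by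
  rw [LinearMap.range_eq_bot]
  exact LinearMap.ext fun a ↦ Subtype.ext (funext fun g ↦ by simp [hA g a])

/-- Crossed homomorphisms for a trivial action are homomorphisms. -/
def crossedEquiv (hA : IsTrivialOn χ A) : crossedHoms χ A ≃ₗ[Λ] (Additive Γ →+ A) where
  toFun f := AddMonoidHom.mk' (fun x ↦ (f : Γ → A) (Additive.toMul x)) fun x y ↦ by
    rw [toMul_add, crossed_mul, hA]
  invFun φ := ⟨fun g ↦ φ (Additive.ofMul g), fun g g' ↦ by
    simp only [ofMul_mul, map_add, hA g]⟩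
  left_inv f := rfl
  right_inv φ := rfl
  map_add' f g := rfl
  map_smul' c f := rfl

/-- Cohomology for a trivial action is the group of homomorphisms. -/
noncomputable def homEquiv (hA : IsTrivialOn χ A) : H1 χ A ≃ₗ[Λ] (Additive Γ →+ A) :=
  (Submodule.quotEquivOfEqBot _ (range_coboundary_eq_bot hA)).trans (crossedEquiv hA)

@[simp] theorem homEquiv_mk (hA : IsTrivialOn χ A) (f : crossedHoms χ A) (g : Γ) :
    homEquiv hA (Submodule.Quotient.mk f) (Additive.ofMul g) = (f : Γ → A) g := rfl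

theorem homEquiv_onH1 {ι : Type*} [Fintype ι] (D : CrossCorr χ χ' ι) (hA : IsTrivialOn χ A)
    (hA' : IsTrivialOn χ' A) (hw : ∀ (i : ι) (a : A), D.weight i • a = a) (x : H1 χ A) (g : Γ') :
    homEquiv hA' (D.onH1 A x) (Additive.ofMul g) =
      ∑ i, homEquiv hA x (Additive.ofMul (D.move g i)) := by
  induction x using Submodule.Quotient.induction_on with
  | H f => simp [CrossCorr.apply_apply, hw]

section Level

variable {M₀ M : ℕ} {θ : (ZMod M₀)ˣ →* Λ}

theorem isTrivialOn_levelChar (h : M₀ ∣ M) (hA : IsTrivialOn θ A) :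
    IsTrivialOn (levelChar h θ) A := fun _ a ↦ hA _ a

variable (h : M₀ ∣ M) (hA : IsTrivialOn θ A)

/-- Cohomology of a level with coefficients on which `θ` is trivial. -/
noncomputable def levelEquiv : H1 (levelChar h θ) A ≃ₗ[Λ] (Additive (Gamma0 M) →+ A) :=
  homEquiv (isTrivialOn_levelChar h hA)

theorem levelEquiv_heckeT {l : ℕ} (hl : l.Prime) (hlM : ¬ l ∣ M) (x : H1 (levelChar h θ) A) :
    levelEquiv h hA (heckeT h θ A hl hlM x) =
      Periods.heckeHomT Λ M hl hlM (levelEquiv h hA x) := by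
  have : NeZero l := ⟨hl.ne_zero⟩
  refine AddMonoidHom.ext fun g ↦ ?_
  exact homEquiv_onH1 (tCross h θ hl hlM) (isTrivialOn_levelChar h hA)
    (isTrivialOn_levelChar h hA) (fun i a ↦ hA _ a) x (Additive.toMul g)

theorem levelEquiv_heckeU {q : ℕ} [NeZero q] (hq : q ∣ M) (x : H1 (levelChar h θ) A) :
    levelEquiv h hA (heckeU h θ A hq x) = Periods.heckeHomU Λ M hq (levelEquiv h hA x) := by
  refine AddMonoidHom.ext fun g ↦ ?_
  exact homEquiv_onH1 (uCross h θ hq) (isTrivialOn_levelChar h hA)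
    (isTrivialOn_levelChar h hA) (fun i a ↦ hA _ a) x (Additive.toMul g)

variable {q : ℕ} [NeZero q]

omit [NeZero q] in
theorem levelEquiv_degI (x : H1 (levelChar h θ) A) :
    levelEquiv (h.mul_right q) hA (degI h (h.mul_right q) θ A (dvd_mul_right M q) x) =
      (levelEquiv h hA x).comp (MonoidHom.toAdditive (Ihara.degIncl M q)) := by
  refine AddMonoidHom.ext fun g ↦ ?_
  refine (homEquiv_onH1 (inclCross h (h.mul_right q) θ (dvd_mul_right M q))
    (isTrivialOn_levelChar h hA) (isTrivialOn_levelChar _ hA) (fun i a ↦ hA _ a) x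
    (Additive.toMul g)).trans ?_
  rw [Fintype.sum_unique]
  rfl

theorem levelEquiv_degD (hc : q.Coprime M₀) (x : H1 (levelChar h θ) A) :
    levelEquiv (h.mul_right q) hA (degD h (h.mul_right q) θ A hc dvd_rfl x) =
      (levelEquiv h hA x).comp (MonoidHom.toAdditive (Ihara.degConj M q)) := by
  refine AddMonoidHom.ext fun g ↦ ?_
  refine (homEquiv_onH1 (degCross h (h.mul_right q) θ hc dvd_rfl)
    (isTrivialOn_levelChar h hA) (isTrivialOn_levelChar _ hA) (fun i a ↦ hA _ a) x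
    (Additive.toMul g)).trans ?_
  rw [Fintype.sum_unique]
  rfl

end Level

section Parabolic

open ModularGroup ModularCurve.Period

variable {M : ℕ}

/-- For `l ≡ 1` modulo the level, `T_l - (l + 1)` takes values in parabolic homomorphisms. -/
theorem heckeHomT_sub_mem_parabolicHoms [NeZero M] (h2 : IsUnit (2 : Λ)) {l : ℕ} (hl : l.Prime)
    (hlM : ¬ l ∣ M) (hl1 : (M : ℤ) ∣ (l : ℤ) - 1) (φ : Additive (Gamma0 M) →+ A) :
    Periods.heckeHomT Λ M hl hlM φ - (l + 1) • φ ∈ parabolicHoms Λ (Gamma0 M) A := by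
  have : NeZero l := ⟨hl.ne_zero⟩
  intro γ hγ
  set F := Periods.heckeHomT Λ M hl hlM φ - (l + 1) • φ with hF
  -- sign
  have hneg : ∀ ψ : Additive (Gamma0 M) →+ A,
      ψ (Additive.ofMul ⟨-1, neg_one_mem_gamma0 M⟩) = 0 := fun ψ ↦ by
    refine h2.smul_eq_zero.mp ?_
    rw [two_smul, ← map_add, ← ofMul_mul,
      show (⟨-1, neg_one_mem_gamma0 M⟩ * ⟨-1, neg_one_mem_gamma0 M⟩ : Gamma0 M) = 1 from
        Subtype.ext (by simp), ofMul_one, map_zero]
  obtain ⟨δ, n, hn⟩ := ModCurveGroup.exists_conj_T_zpow hγ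
  obtain ⟨γ₀, hγ₀, hFγ⟩ : ∃ γ₀ : Gamma0 M, (γ₀ : SL(2, ℤ)) = δ * T ^ n * δ⁻¹ ∧
      F (Additive.ofMul γ) = F (Additive.ofMul γ₀) := by
    rcases hn with hn | hn
    · exact ⟨γ, by rw [← hn]; group, rfl⟩
    · refine ⟨⟨-1, neg_one_mem_gamma0 M⟩ * γ, ?_, ?_⟩
      · rw [Subgroup.coe_mul]
        show -1 * (γ : SL(2, ℤ)) = _
        rw [← neg_neg (T ^ n), ← hn]
        simp [mul_assoc]
      · rw [ofMul_mul, map_add, hneg, zero_add]
  rw [hFγ]
  set H : AddSubgroup ℤ :=
    { carrier := {c : ℤ | δ * T ^ c * δ⁻¹ ∈ Gamma0 M}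
      zero_mem' := by
        show δ * T ^ (0 : ℤ) * δ⁻¹ ∈ Gamma0 M
        rw [zpow_zero, mul_one, mul_inv_cancel]
        exact one_mem _
      add_mem' := fun {a b} ha hb ↦ by
        show δ * T ^ (a + b) * δ⁻¹ ∈ Gamma0 M
        rw [zpow_add, show δ * (T ^ a * T ^ b) * δ⁻¹ = δ * T ^ a * δ⁻¹ * (δ * T ^ b * δ⁻¹) by group]
        exact mul_mem ha hb
      neg_mem' := fun {a} ha ↦ by
        show δ * T ^ (-a) * δ⁻¹ ∈ Gamma0 M
        rw [zpow_neg, show δ * (T ^ a)⁻¹ * δ⁻¹ = (δ * T ^ a * δ⁻¹)⁻¹ by group]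
        exact inv_mem ha } with hH
  let ψ : H →+ A := AddMonoidHom.mk' (fun c ↦ φ (Additive.ofMul ⟨_, c.2⟩)) fun a b ↦ by
    rw [← map_add, ← ofMul_mul]
    congr 2
    refine Subtype.ext ?_
    show δ * T ^ ((a : ℤ) + b) * δ⁻¹ = δ * T ^ (a : ℤ) * δ⁻¹ * (δ * T ^ (b : ℤ) * δ⁻¹)
    rw [zpow_add]
    group
  have hnH : n ∈ H := by show δ * T ^ n * δ⁻¹ ∈ Gamma0 M; rw [← hγ₀]; exact γ₀.2
  have hMH : ∀ t : ℤ, (M : ℤ) * t ∈ H := fun t ↦ by
    show δ * T ^ ((M : ℤ) * t) * δ⁻¹ ∈ Gamma0 M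
    refine Gamma0_mem.mpr ((ZMod.intCast_zmod_eq_zero_iff_dvd _ _).mpr ?_)
    simp only [Matrix.SpecialLinearGroup.coe_mul, coe_T_zpow,
      Matrix.SpecialLinearGroup.coe_inv, Matrix.adjugate_fin_two, Matrix.mul_apply,
      Fin.sum_univ_two]
    refine ⟨-(δ.1 1 0 * δ.1 1 0 * t), ?_⟩
    simp
    ring
  -- representatives congruent to the identity
  obtain ⟨e, he⟩ := hl1
  let t' : Option (ZMod l) → Matrix (Fin 2) (Fin 2) ℤ
    | none => !![(l : ℤ), 0; 0, 1]
    | some j => !![1, (M : ℤ) * j.val; 0, (l : ℤ)]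
  let g : Option (ZMod l) → Matrix (Fin 2) (Fin 2) ℤ := fun i ↦
    (δ : Matrix (Fin 2) (Fin 2) ℤ) * t' i * ((δ⁻¹ : SL(2, ℤ)) : Matrix (Fin 2) (Fin 2) ℤ)
  have ht'det : ∀ i, (t' i).det = l := fun i ↦ by cases i <;> simp [t']
  have hgdet : ∀ i, (g i).det = l := fun i ↦ by
    simp only [g, Matrix.det_mul, ht'det, Matrix.SpecialLinearGroup.det_coe, one_mul, mul_one]
  have ht'10 : ∀ i, (t' i) 1 0 = 0 := fun i ↦ by cases i <;> simp [t']
  have hg10 : ∀ i, (M : ℤ) ∣ g i 1 0 := fun i ↦ by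
    have hform : g i 1 0 = δ.1 1 0 * δ.1 1 1 * (t' i 0 0 - t' i 1 1) -
        δ.1 1 0 * δ.1 1 0 * t' i 0 1 := by
      simp [g, ht'10, Matrix.mul_apply, Fin.sum_univ_two, Matrix.SpecialLinearGroup.coe_inv,
        Matrix.adjugate_fin_two]
      ring
    rw [hform]
    cases i with
    | none => exact ⟨δ.1 1 0 * δ.1 1 1 * e, by simp [t']; linear_combination (δ.1 1 0 * δ.1 1 1) * he⟩
    | some j =>
      exact ⟨-(δ.1 1 0 * δ.1 1 1 * e) - δ.1 1 0 * δ.1 1 0 * j.val, by
        simp [t', -ZMod.natCast_val]; linear_combination (-(δ.1 1 0 * δ.1 1 1)) * he⟩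
  have hnf := fun i ↦ exists_tRep_form (N := M) hl (A := g i 0 0) (B := g i 0 1) (C := g i 1 0)
    (D := g i 1 1) (by rw [← Matrix.det_fin_two (g i), hgdet]) (hg10 i) (Or.inl hlM)
  choose e' u hu _ using hnf
  have hu' : ∀ i, g i = coeMat (u i) * Periods.tRep l (e' i) := fun i ↦ by
    rw [← hu i]; exact Matrix.eta_fin_two (g i)
  -- the right action of `γ₀`
  let σ : Option (ZMod l) → Option (ZMod l)
    | none => none
    | some j => some (((M : ZMod l))⁻¹ * ((n : ZMod l) + (M : ZMod l) * j))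
  have hMl : (M : ZMod l) ≠ 0 := by rwa [Ne, ZMod.natCast_eq_zero_iff]
  have : Fact l.Prime := ⟨hl⟩
  have hσ : Function.Bijective σ := by
    rw [Fintype.bijective_iff_injective_and_card]
    refine ⟨fun i i' hii ↦ ?_, rfl⟩
    cases i <;> cases i' <;> simp [σ, hMl] at hii ⊢
    exact hii
  have hc : ∀ i, ∃ c ∈ H, (∀ s : SL(2, ℤ), s = δ * T ^ c * δ⁻¹ →
      g i * (γ₀ : SL(2, ℤ)).1 = s.1 * g (σ i)) ∧
      c = (match i with
        | none => (l : ℤ) * n
        | some j => ((n + M * j.val - M * ((σ (some j)).getD 0).val) / l : ℤ)) := fun i ↦ by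
    have step : ∀ c : ℤ, t' i * ((T ^ n : SL(2, ℤ)) : Matrix (Fin 2) (Fin 2) ℤ) =
        ((T ^ c : SL(2, ℤ)) : Matrix (Fin 2) (Fin 2) ℤ) * t' (σ i) → ∀ s : SL(2, ℤ),
        s = δ * T ^ c * δ⁻¹ → g i * (γ₀ : SL(2, ℤ)).1 = s.1 * g (σ i) := by
      intro c hc s hs
      have hi : ∀ X : Matrix (Fin 2) (Fin 2) ℤ,
          ((δ⁻¹ : SL(2, ℤ)) : Matrix (Fin 2) (Fin 2) ℤ) * ((δ : Matrix (Fin 2) (Fin 2) ℤ) * X) =
            X := fun X ↦ by
        rw [← mul_assoc, ← Matrix.SpecialLinearGroup.coe_mul, inv_mul_cancel,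
          Matrix.SpecialLinearGroup.coe_one, one_mul]
      rw [hγ₀, hs]
      simp only [g, Matrix.SpecialLinearGroup.coe_mul, mul_assoc, hi]
      rw [← mul_assoc (t' i), hc, mul_assoc]
    cases i with
    | none =>
      refine ⟨(l : ℤ) * n, ?_, step _ ?_, rfl⟩
      · rw [show (l : ℤ) * n = (l : ℤ) • n by simp]; exact H.zsmul_mem hnH _
      · simp only [t', σ, coe_T_zpow]
        ext a b
        fin_cases a <;> fin_cases b <;> simp [Matrix.mul_apply, Fin.sum_univ_two]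
    | some j =>
      set j' := ((M : ZMod l))⁻¹ * ((n : ZMod l) + (M : ZMod l) * j) with hj'
      obtain ⟨c, hc⟩ : (l : ℤ) ∣ n + M * j.val - M * j'.val := by
        rw [← ZMod.intCast_zmod_eq_zero_iff_dvd]
        simp [hj', ← mul_assoc, mul_inv_cancel₀ hMl]
      refine ⟨c, ?_, step _ ?_, ?_⟩
      · have hlc : (l : ℤ) * c ∈ H := by
          rw [← hc]
          exact sub_mem (add_mem hnH (hMH _)) (hMH _)
        have : c = (l : ℤ) * c - (M : ℤ) * (e * c) := by linear_combination (-c) * he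
        rw [this]
        exact sub_mem hlc (hMH _)
      · simp only [t', σ, ← hj', coe_T_zpow]
        ext a b
        fin_cases a <;> fin_cases b <;>
          simp [Matrix.mul_apply, Fin.sum_univ_two, -ZMod.natCast_val]
        linear_combination hc
      · simp only [σ, ← hj', Option.getD_some, hc]
        rw [Int.mul_ediv_cancel_left _ (Int.natCast_ne_zero.mpr hl.ne_zero)]
  choose c hcH hcg hcv using hc
  have he' : Function.Bijective e' := by
    rw [Fintype.bijective_iff_injective_and_card]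
    refine ⟨fun i i' hii ↦ ?_, rfl⟩
    have h1 : g i = coeMat (u i * (u i')⁻¹) * g i' := by
      rw [coeMat_mul, mul_assoc, hu' i', coeMat_inv_mul, ← hii, hu' i]
    set s : SL(2, ℤ) := δ⁻¹ * ((u i * (u i')⁻¹ : Gamma0 M) : SL(2, ℤ)) * δ with hs
    have h2 : t' i = (s : Matrix (Fin 2) (Fin 2) ℤ) * t' i' := by
      have h3 := congrArg (fun X ↦ ((δ⁻¹ : SL(2, ℤ)) : Matrix (Fin 2) (Fin 2) ℤ) * X *
        (δ : Matrix (Fin 2) (Fin 2) ℤ)) h1
      simp only [g, coeMat, ← mul_assoc, ← Matrix.SpecialLinearGroup.coe_mul, inv_mul_cancel,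
        Matrix.SpecialLinearGroup.coe_one, one_mul] at h3
      simp only [mul_assoc, ← Matrix.SpecialLinearGroup.coe_mul, inv_mul_cancel,
        Matrix.SpecialLinearGroup.coe_one, mul_one] at h3
      rw [h3]
      simp only [hs, Matrix.SpecialLinearGroup.coe_mul, mul_assoc]
    have hl0 : (0 : ℤ) < l := by exact_mod_cast hl.pos
    have hl1' : (l : ℤ) ≠ 1 := by exact_mod_cast hl.ne_one
    cases i with
    | none =>
      cases i' with
      | none => rfl
      | some j' => exact absurd (upper_eq_of_eq_mul hl0 one_pos hl0 s h2).1 hl1'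
    | some j =>
      cases i' with
      | none => exact absurd (upper_eq_of_eq_mul one_pos hl0 one_pos s h2).1.symm hl1'
      | some j' =>
        obtain ⟨-, -, hd⟩ := upper_eq_of_eq_mul one_pos one_pos hl0 s h2
        congr 1
        have := (ZMod.intCast_zmod_eq_zero_iff_dvd _ _).mpr hd
        simp [-ZMod.natCast_val, ← mul_sub, hMl] at this
        simpa [sub_eq_zero] using this
  -- evaluate the transfer
  have hmove : ∀ i, (Periods.tCorr M hl hlM).move γ₀ (e' i) =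
      (u i)⁻¹ * ⟨_, hcH i⟩ * u (σ i) := fun i ↦ by
    refine ((Periods.tCorr M hl hlM).move_unique (j := e' (σ i)) ?_).2
    show Periods.tRep l (e' i) * coeMat γ₀ = coeMat _ * Periods.tRep l (e' (σ i))
    rw [coeMat_mul, coeMat_mul, mul_assoc, ← hu' (σ i), mul_assoc,
      show coeMat (⟨_, hcH i⟩ : Gamma0 M) * g (σ i) = g i * coeMat γ₀ from
        (hcg i _ rfl).symm, hu' i, mul_assoc, coeMat_inv_mul]
  have hsum : (∑ i, c i : ℤ) = (l + 1) * n := by
    have hl0 : (l : ℤ) ≠ 0 := Int.natCast_ne_zero.mpr hl.ne_zero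
    refine mul_left_cancel₀ hl0 ?_
    rw [Finset.mul_sum, Fintype.sum_option, hcv none]
    have h1 : ∀ j : ZMod l, (l : ℤ) * c (some j) =
        n + M * j.val - M * ((σ (some j)).getD 0).val := fun j ↦ by
      rw [hcv (some j)]
      refine Int.mul_ediv_cancel' ?_
      rw [← ZMod.intCast_zmod_eq_zero_iff_dvd]
      simp [σ, ← mul_assoc, mul_inv_cancel₀ hMl]
    rw [Finset.sum_congr rfl fun j _ ↦ h1 j, Finset.sum_sub_distrib, Finset.sum_add_distrib]
    have h2 : ∑ j : ZMod l, (M : ℤ) * ((((σ (some j)).getD 0).val : ℕ) : ℤ) =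
        ∑ j : ZMod l, (M : ℤ) * ((j.val : ℕ) : ℤ) := by
      refine Fintype.sum_bijective (fun j ↦ (σ (some j)).getD 0) ?_ _ _ fun j ↦ rfl
      rw [Fintype.bijective_iff_injective_and_card]
      refine ⟨fun a b hab ↦ ?_, rfl⟩
      simpa [σ, hMl] using hab
    rw [h2, add_sub_cancel_right, Finset.sum_const, Finset.card_univ, ZMod.card, nsmul_eq_mul]
    ring
  show Periods.heckeHomT Λ M hl hlM φ (Additive.ofMul γ₀) - (l + 1) • φ (Additive.ofMul γ₀) = 0
  rw [show Periods.heckeHomT Λ M hl hlM φ (Additive.ofMul γ₀) =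
      ∑ i, φ (Additive.ofMul ((Periods.tCorr M hl hlM).move γ₀ i)) from rfl,
    ← Equiv.sum_comp (Equiv.ofBijective e' he')]
  simp only [Equiv.ofBijective_apply, hmove, ofMul_mul, ofMul_inv, map_add, map_neg,
    Finset.sum_add_distrib, Finset.sum_neg_distrib]
  rw [Fintype.sum_bijective σ hσ (fun i ↦ φ (Additive.ofMul (u (σ i))))
    (fun i ↦ φ (Additive.ofMul (u i))) fun i ↦ rfl]
  have hψ : ∀ i, φ (Additive.ofMul (⟨_, hcH i⟩ : Gamma0 M)) = ψ ⟨c i, hcH i⟩ := fun i ↦ rfl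
  simp only [hψ, ← map_sum]
  have h0 : φ (Additive.ofMul γ₀) = ψ ⟨n, hnH⟩ :=
    congrArg (fun x ↦ φ (Additive.ofMul x)) (Subtype.ext hγ₀)
  rw [show (∑ i, (⟨c i, hcH i⟩ : H)) = (l + 1) • (⟨n, hnH⟩ : H) from Subtype.ext (by
      rw [AddSubgroup.val_finsetSum, AddSubgroup.coe_nsmul, nsmul_eq_mul]
      push_cast
      exact hsum),
    map_nsmul, h0]
  abel

end Parabolic

end FermatAgent.RTLift.Old
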