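import Mathlib
import Fermat.Agent.RTLift.Old.Trivial
import Fermat.Agent.RTLift.Old.Equivariant
import Fermat.Agent.RTLift.Old.Integral

/-!
Coefficients in a finite field on which the character is trivial: the local part is parabolic, the
two degeneracy maps are injective on it (Ihara) and the two traces are surjective on it.
-/

set_option autoImplicit false

namespace FermatAgent.RTLift.Old

open scoped MatrixGroups
open CongruenceSubgroup FermatAgent.RTLift.Modules

variable {R : Type} [CommRing R] [IsLocalRing R] {J : Type} (pr : J → Nat.Primes)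
  (ξ : J → IsLocalRing.ResidueField R)

/-- The residual system is given by rational integers modulo `p` at a non-Eisenstein set of primes
among the `pr j`, none dividing `N`. -/
def BaseEigen (p : ℕ) [Fact p.Prime] (N : ℕ) : Prop :=
  ∃ (S : Set ℕ) (a : ℕ → ℤ), Ihara.NonEisenstein S (fun l ↦ (a l : ZMod p)) ∧
    ∀ l ∈ S, ¬ l ∣ N ∧ ∃ j, (pr j : ℕ) = l ∧ ξ j = (a l : IsLocalRing.ResidueField R)

variable {pr ξ} {p : ℕ} [Fact p.Prime]

theorem intCast_ne_of_ne_zmod {K : Type*} [Ring K] [CharP K p] {a b : ℤ}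
    (h : (a : ZMod p) ≠ (b : ZMod p)) : (a : K) ≠ (b : K) := fun e ↦
  h (ZMod.castHom_injective (n := p) (R := K) (by rwa [map_intCast, map_intCast]))

theorem nonEisenstein_cast {K : Type*} [Field K] [CharP K p] {S : Set ℕ} {a : ℕ → ℤ}
    (ha : Ihara.NonEisenstein S (fun l ↦ (a l : ZMod p))) :
    Ihara.NonEisenstein S (fun l ↦ (a l : K)) where
  prime := ha.prime
  sq_ne := by
    obtain ⟨l, hl, h⟩ := ha.sq_ne
    refine ⟨l, hl, ?_⟩
    have h' : ((a l ^ 2 : ℤ) : ZMod p) ≠ ((((l : ℤ) + 1) ^ 2 : ℤ) : ZMod p) := by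
      push_cast; exact h
    simpa using intCast_ne_of_ne_zmod (K := K) h'
  ne_mod M hM := by
    obtain ⟨l, hl, h1, h⟩ := ha.ne_mod M hM
    refine ⟨l, hl, h1, ?_⟩
    have h' : ((a l : ℤ) : ZMod p) ≠ (((l : ℤ) + 1 : ℤ) : ZMod p) := by
      push_cast; exact h
    simpa using intCast_ne_of_ne_zmod (K := K) h'

theorem BaseEigen.nonEis {N M₀ M : ℕ} [CharP (IsLocalRing.ResidueField R) p] [NeZero M]
    (hM₀ : M₀ ∣ M) (hMN : M ∣ N) (hb : BaseEigen pr ξ p N) : NonEis pr ξ M₀ M := by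
  obtain ⟨S, a, hS, h⟩ := hb
  obtain ⟨l, hl, hl1, hal⟩ :=
    (nonEisenstein_cast (K := IsLocalRing.ResidueField R) hS).ne_mod M (NeZero.pos M)
  obtain ⟨hlN, j, hj, hξj⟩ := h l hl
  refine ⟨j, by rw [hj]; exact fun hd ↦ hlN (hd.trans hMN), ?_, by rw [hξj, hj]; exact hal⟩
  rw [hj]
  obtain ⟨e, he⟩ := (Int.natCast_dvd_natCast.mpr hM₀).trans hl1
  have := congrArg (Int.cast : ℤ → ZMod M₀) he
  push_cast at this
  rw [ZMod.natCast_self, zero_mul, sub_eq_zero] at this
  exact this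

theorem X_sub_C_mem {j : J} {c : ℤ} (h : ξ j = (c : IsLocalRing.ResidueField R)) :
    MvPolynomial.X j - MvPolynomial.C (c : R) ∈ systemIdeal ξ := by
  rw [mem_systemIdeal, MvPolynomial.eval₂_sub, MvPolynomial.eval₂_X, MvPolynomial.eval₂_C,
    map_intCast, h, sub_self]

theorem X_sub_C_not_mem {j : J} {c : ℤ} (h : ξ j ≠ (c : IsLocalRing.ResidueField R)) :
    MvPolynomial.X j - MvPolynomial.C (c : R) ∉ systemIdeal ξ := by
  rw [mem_systemIdeal, MvPolynomial.eval₂_sub, MvPolynomial.eval₂_X, MvPolynomial.eval₂_C,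
    map_intCast, sub_eq_zero]
  exact h

variable [IsNoetherianRing R] [IsAdicComplete (IsLocalRing.maximalIdeal R) R]
  {Λ : Type} [CommRing Λ] [Algebra R Λ] {M₀ M q : ℕ} [NeZero M] [NeZero q] (h : M₀ ∣ M)
  (θ : (ZMod M₀)ˣ →* Λ) {K : Type} [Field K] [CharP K p] [Module Λ K] [Module R K]
  [IsScalarTower R Λ K] [CharP (IsLocalRing.ResidueField R) p]

omit [IsLocalRing R] [IsNoetherianRing R] [IsAdicComplete (IsLocalRing.maximalIdeal R) R]
  [CharP (IsLocalRing.ResidueField R) p] [CharP K p] [NeZero M] in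
theorem heckeHom_X_sub_C {j : J} (c : ℤ) (x : H1 (levelChar h θ) K) :
    heckeHom h θ K pr (MvPolynomial.X j - MvPolynomial.C (c : R)) x =
      heckeOp h θ K (pr j) x - c • x := by
  rw [map_sub, LinearMap.sub_apply, heckeHom_X, ← MvPolynomial.algebraMap_eq, AlgHom.commutes,
    Module.algebraMap_end_apply, Int.cast_smul_eq_zsmul]

omit [IsLocalRing R] [IsNoetherianRing R] [IsAdicComplete (IsLocalRing.maximalIdeal R) R]
  [CharP (IsLocalRing.ResidueField R) p] [CharP K p] [NeZero M] in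
/-- The value of `X j` on cohomology with trivial coefficients. -/
theorem levelEquiv_heckeOp (hθ : IsTrivialOn θ K) {l : Nat.Primes} (hl : ¬ (l : ℕ) ∣ M)
    (x : H1 (levelChar h θ) K) :
    levelEquiv h hθ (heckeOp h θ K l x) =
      Periods.heckeHomT K M l.2 hl (levelEquiv h hθ x) := by
  rw [heckeOp_of_not_dvd h θ K hl, levelEquiv_heckeT h hθ l.2 hl x]
  rfl

omit [IsNoetherianRing R] [IsAdicComplete (IsLocalRing.maximalIdeal R) R] [CharP K p] in
/-- The local part is parabolic. -/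
theorem isParabolicHom_of_mem_localH1 (hθ : IsTrivialOn θ K) (h2 : IsUnit (2 : Λ)) {N : ℕ}
    (hMN : M ∣ N) (hb : BaseEigen pr ξ p N) {x : H1 (levelChar h θ) K}
    (hx : x ∈ localH1 h θ K pr ξ) :
    levelEquiv h hθ x ∈ ModularCurve.Period.parabolicHoms K (Gamma0 M) K := by
  have h2K : IsUnit (2 : K) := isUnit_iff_ne_zero.mpr fun e ↦ one_ne_zero (α := K)
    (h2.smul_eq_zero.mp (show (2 : Λ) • (1 : K) = 0 by
      rw [two_smul, ← two_mul, mul_one, e]))
  obtain ⟨S, a, hS, hall⟩ := hb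
  obtain ⟨l, hl, hl1, hal⟩ :=
    (nonEisenstein_cast (K := IsLocalRing.ResidueField R) hS).ne_mod M (NeZero.pos M)
  obtain ⟨hlN, j, hj, hξj⟩ := hall l hl
  subst hj
  have hlM : ¬ (pr j : ℕ) ∣ M := fun hd ↦ hlN (hd.trans hMN)
  have hns : (MvPolynomial.X j - MvPolynomial.C (((pr j : ℕ) + 1 : ℤ) : R) :
      MvPolynomial J R) ∉ systemIdeal ξ :=
    X_sub_C_not_mem (by rw [hξj]; push_cast; exact hal)
  obtain ⟨z, hz⟩ := (mem_part_iff _ _).mp hx _ hns
  rw [← hz, heckeHom_X_sub_C, map_sub, map_zsmul, levelEquiv_heckeOp h θ hθ hlM]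
  have := heckeHomT_sub_mem_parabolicHoms (Λ := K) h2K (pr j).2 hlM hl1 (levelEquiv h hθ z)
  rwa [← Nat.cast_smul_eq_nsmul ℤ, Nat.cast_add, Nat.cast_one] at this

variable [Finite K] [NeZero (M * q)] {x y : ℤ} (hxy : x * q - y * M = 1)

omit [IsLocalRing R] [IsNoetherianRing R] [IsAdicComplete (IsLocalRing.maximalIdeal R) R]
  [Algebra R Λ] [CharP (IsLocalRing.ResidueField R) p] [Module R K] [IsScalarTower R Λ K]
  [CharP K p] [NeZero q] [NeZero (M * q)] in
theorem finite_h1_field (hχ : IsGoodChar (levelChar h θ)) : Finite (H1 (levelChar h θ) K) := by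
  have : Fintype (Pts (Gamma0 M)) := Fintype.ofFinite _
  have : Finite (crossedHoms (levelChar h θ) K) :=
    Finite.of_surjective (hχ.retract K) hχ.retract_surjective
  exact Finite.of_surjective _ (Submodule.mkQ_surjective _)

omit [IsLocalRing R] [IsNoetherianRing R] [IsAdicComplete (IsLocalRing.maximalIdeal R) R]
  [Finite K] [CharP K p] [CharP (IsLocalRing.ResidueField R) p] [NeZero M] [NeZero q]
  [NeZero (M * q)] in
theorem heckeHom_mem_part {m : Ideal (MvPolynomial J R)} (s : MvPolynomial J R)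
    {x : H1 (levelChar h θ) K} (hx : x ∈ part (heckeHom h θ K pr) m) :
    heckeHom h θ K pr s x ∈ part (heckeHom h θ K pr) m :=
  map_mem_part (heckeHom h θ K pr s) (fun t z ↦ by
    rw [← Module.End.mul_apply, ← map_mul, mul_comm, map_mul, Module.End.mul_apply]) hx

omit [NeZero (M * q)] in
/-- **Ihara's lemma** on the local part, residual coefficients. -/
theorem eq_zero_of_alpha_eq_zero (hθ : IsTrivialOn θ K) (hχ : IsGoodChar (levelChar h θ))
    (hq : q.Prime) (hqM : ¬ q ∣ M) (hpr : ∀ j, (pr j : ℕ) ≠ q)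
    (hb : BaseEigen pr ξ p (M * q)) {a b : H1 (levelChar h θ) K}
    (ha : a ∈ localH1 h θ K pr ξ) (hb' : b ∈ localH1 h θ K pr ξ)
    (h0 : alpha h θ K hxy (a, b) = 0) : a = 0 ∧ b = 0 := by
  classical
  have hfin := finite_h1_field h θ (K := K) hχ
  have : Module.Finite R K := Module.Finite.of_finite
  have := finite_h1 (R := R) (A := K) h θ hχ
  obtain ⟨s₀, hs₀⟩ := exists_isProjector (heckeHom (R := R) h θ K pr) (systemIdeal ξ)
  by_contra hne
  let V := H1 (levelChar h θ) K × H1 (levelChar h θ) K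
  let act : MvPolynomial J R → V → V := fun s w ↦
    (heckeHom h θ K pr s w.1, heckeHom h θ K pr s w.2)
  let W : Set V := {w | w.1 ∈ localH1 h θ K pr ξ ∧ w.2 ∈ localH1 h θ K pr ξ ∧
    alpha h θ K hxy w = 0 ∧ ¬ (w.1 = 0 ∧ w.2 = 0)}
  have hW : W.Nonempty := ⟨(a, b), ha, hb', h0, hne⟩
  obtain ⟨w, hw, hmin⟩ := Set.exists_min_image W
    (fun w ↦ (Set.range fun s ↦ act s w).ncard) (Set.toFinite _) hW
  obtain ⟨hw1, hw2, hw0, hwne⟩ := hw
  have hkill : ∀ s ∈ systemIdeal ξ, act s w = 0 := by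
    intro s hs
    by_contra hs0
    have hsW : act s w ∈ W := ⟨heckeHom_mem_part h θ s hw1, heckeHom_mem_part h θ s hw2, by
      show alpha h θ K hxy (_, _) = 0
      rw [alpha_heckeHom h θ hxy pr hq hpr]
      exact (congrArg _ hw0).trans (map_zero _),
      fun e ↦ hs0 (Prod.ext e.1 e.2)⟩
    have hsub : (Set.range fun t ↦ act t (act s w)) ⊆ Set.range fun t ↦ act t w := by
      rintro _ ⟨t, rfl⟩
      exact ⟨t * s, Prod.ext (by simp [act]) (by simp [act])⟩
    obtain ⟨t, ht⟩ : w ∈ Set.range fun t ↦ act t (act s w) := by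
      rw [Set.eq_of_subset_of_ncard_le hsub (hmin _ hsW) (Set.toFinite _)]
      exact ⟨1, Prod.ext (by simp [act]) (by simp [act])⟩
    have hns : 1 - t * s ∉ systemIdeal ξ := fun e ↦ by
      have h1 : (1 : MvPolynomial J R) ∈ systemIdeal ξ := by
        have := add_mem e (Ideal.mul_mem_left _ t hs)
        rwa [sub_add_cancel] at this
      exact (isMaximal_systemIdeal ξ).ne_top ((Ideal.eq_top_iff_one _).mpr h1)
    refine hwne ⟨hs₀.eq_zero_of_mem hw1 hns ?_, hs₀.eq_zero_of_mem hw2 hns ?_⟩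
    · have := congrArg Prod.fst ht
      simp only [act] at this
      simp [this]
    · have := congrArg Prod.snd ht
      simp only [act] at this
      simp [this]
  obtain ⟨S, c, hS, hall⟩ := hb
  have heig : ∀ v : H1 (levelChar h θ) K, (∀ s ∈ systemIdeal ξ, heckeHom h θ K pr s v = 0) →
      Ihara.IsEigenChar S (fun l ↦ (c l : K)) M (levelEquiv h hθ v) := by
    intro v hv l hl hlS hlM
    obtain ⟨-, j, hj, hξj⟩ := hall l hlS
    subst hj
    have := hv _ (X_sub_C_mem hξj)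
    rw [heckeHom_X_sub_C, sub_eq_zero] at this
    rw [← levelEquiv_heckeOp h θ hθ hlM, this, map_zsmul, Int.cast_smul_eq_zsmul]
  have hpar := fun v (hv : v ∈ localH1 h θ K pr ξ) ↦ isParabolicHom_of_mem_localH1 h θ hθ hχ.two
    (dvd_mul_right M q) ⟨S, c, hS, hall⟩ hv
  have hker : (levelEquiv h hθ w.1).comp (MonoidHom.toAdditive (Ihara.degIncl M q)) +
      (levelEquiv h hθ w.2).comp (MonoidHom.toAdditive (Ihara.degConj M q)) = 0 := by
    rw [← levelEquiv_degI h hθ, ← levelEquiv_degD h hθ (coprime_of_bezout hxy h), ← map_add,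
      ← alpha_apply h θ hxy, hw0, map_zero]
  obtain ⟨e1, e2⟩ := Ihara.ihara (nonEisenstein_cast (K := K) hS) hq hqM
    (fun l hl ↦ (hall l hl).1) (hpar _ hw1) (hpar _ hw2)
    (heig _ fun s hs ↦ congrArg Prod.fst (hkill s hs))
    (heig _ fun s hs ↦ congrArg Prod.snd (hkill s hs)) hker
  exact hwne ⟨(LinearEquiv.map_eq_zero_iff _).mp e1, (LinearEquiv.map_eq_zero_iff _).mp e2⟩

section Push

variable {N : ℕ} (hN : M₀ ∣ N) (hθ : IsTrivialOn θ K)

/-- An integral parabolic character times a constant. -/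
noncomputable def pushH1 (c : K) : Ihara.PH N →+ H1 (levelChar hN θ) K :=
  AddMonoidHom.mk'
    (fun χ ↦ (levelEquiv hN hθ).symm ((zmultiplesHom K c).comp χ.1))
    fun χ χ' ↦ by
      rw [← map_add]
      congr 1
      refine AddMonoidHom.ext fun g ↦ ?_
      simp [add_smul]

omit [IsNoetherianRing R] [IsAdicComplete (IsLocalRing.maximalIdeal R) R] [CharP K p]
  [Finite K] [Field K] in
theorem levelEquiv_pushH1 {K : Type} [Field K] [Module Λ K] (hθ : IsTrivialOn θ K) (c : K)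
    (χ : Ihara.PH N) :
    levelEquiv hN hθ (pushH1 θ hN hθ c χ) = (zmultiplesHom K c).comp χ.1 :=
  LinearEquiv.apply_symm_apply _ _

end Push

omit [NeZero M] [IsNoetherianRing R] [IsAdicComplete (IsLocalRing.maximalIdeal R) R] [IsLocalRing R]
  [Finite K] [CharP K p] [CharP (IsLocalRing.ResidueField R) p] in
theorem beta_pushH1 (hθ : IsTrivialOn θ K) (c : K) (χ : Ihara.PH (M * q)) :
    beta h θ K hxy (pushH1 θ (h.mul_right q) hθ c χ) =
      (pushH1 θ h hθ c (Ihara.betaOp x y hxy χ).1, pushH1 θ h hθ c (Ihara.betaOp x y hxy χ).2) := by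
  let : Fintype (TrPts M (M * q)) := Fintype.ofFinite _
  have htr : ∀ χ : Ihara.PH (M * q),
      trace h (h.mul_right q) θ K (pushH1 θ (h.mul_right q) hθ c χ) =
        pushH1 θ h hθ c (Ihara.trOp M q χ) := by
    intro χ
    refine (levelEquiv h hθ).injective (AddMonoidHom.ext fun g ↦ ?_)
    obtain ⟨γ, rfl⟩ : ∃ γ, Additive.ofMul γ = g := ⟨Additive.toMul g, rfl⟩
    rw [levelEquiv_pushH1, AddMonoidHom.comp_apply, coe_trOp_apply, map_sum]
    refine (homEquiv_onH1 (trCross h (h.mul_right q) θ) (isTrivialOn_levelChar _ hθ)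
      (isTrivialOn_levelChar h hθ) (fun i a ↦ hθ _ a) _ γ).trans
      (Finset.sum_congr rfl fun i _ ↦ ?_)
    exact DFunLike.congr_fun (levelEquiv_pushH1 θ (h.mul_right q) hθ c χ) _
  rw [beta_apply, htr]
  refine Prod.ext rfl ?_
  show trace h (h.mul_right q) θ K (atkin h θ K hxy _) = pushH1 θ h hθ c
    (Ihara.trOp M q (Ihara.alOp x y hxy χ))
  rw [← htr]
  congr 1
  refine (levelEquiv (h.mul_right q) hθ).injective (AddMonoidHom.ext fun g ↦ ?_)
  obtain ⟨γ, rfl⟩ : ∃ γ, Additive.ofMul γ = g := ⟨Additive.toMul g, rfl⟩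
  rw [levelEquiv_pushH1, AddMonoidHom.comp_apply, coe_alOp_apply hxy]
  refine (homEquiv_onH1 (alCross θ h hxy (h.mul_right q)) (isTrivialOn_levelChar _ hθ)
    (isTrivialOn_levelChar _ hθ) (fun i a ↦ hθ _ a) _ γ).trans ?_
  rw [Fintype.sum_unique]
  exact DFunLike.congr_fun (levelEquiv_pushH1 θ (h.mul_right q) hθ c χ) _

set_option maxHeartbeats 2000000 in
/-- **Surjectivity of the two traces** on the local part, residual coefficients. -/
theorem exists_beta_eq (hθ : IsTrivialOn θ K) (hχ : IsGoodChar (levelChar h θ))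
    (hχ' : IsGoodChar (levelChar (h.mul_right q) θ))
    (h3 : IsUnit (3 : Λ) ∨ ∃ r, r.Prime ∧ r % 3 = 2 ∧ r ∣ M)
    (hq : q.Prime) (hqM : ¬ q ∣ M) (hpr : ∀ j, (pr j : ℕ) ≠ q)
    (hb : BaseEigen pr ξ p (M * q)) {a b : H1 (levelChar h θ) K}
    (ha : a ∈ localH1 h θ K pr ξ) (hb' : b ∈ localH1 h θ K pr ξ) :
    ∃ z ∈ localH1 (h.mul_right q) θ K pr ξ, beta h θ K hxy z = (a, b) := by
  classical
  have : Module.Finite R K := Module.Finite.of_finite
  have := finite_h1 (R := R) (A := K) h θ hχ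
  have := finite_h1 (R := R) (A := K) (h.mul_right q) θ hχ'
  obtain ⟨s₀, hs₀⟩ := exists_isProjector (heckeHom (R := R) h θ K pr) (systemIdeal ξ)
  obtain ⟨s₁, hs₁⟩ :=
    exists_isProjector (heckeHom (R := R) (h.mul_right q) θ K pr) (systemIdeal ξ)
  have hp2 : p ≠ 2 := by
    rintro rfl
    refine one_ne_zero (α := K) (hχ.two.smul_eq_zero.mp ?_)
    rw [two_smul, ← two_mul, mul_one]
    exact_mod_cast CharP.cast_eq_zero K 2
  obtain ⟨S, c, hS, hall⟩ := hb
  have hall' := hall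
  choose hlN jl hjl hξl using hall'
  have hE : Ihara.EigenData M q p S c := ⟨hS.prime, fun l hl ↦ (hall l hl).1, hS⟩
  obtain ⟨r, hr1, hr⟩ := hE.exists_coker hp2 hq hqM hxy
  let ev : MvPolynomial S ℤ →+* MvPolynomial J R :=
    MvPolynomial.eval₂Hom (Int.castRingHom _) fun l : S ↦ MvPolynomial.X (jl l.1 l.2)
  have hev : ∀ t, MvPolynomial.eval₂ (IsLocalRing.residue R) ξ (ev t) =
      ZMod.castHom (dvd_refl p) (IsLocalRing.ResidueField R)
        (MvPolynomial.aeval (fun l : S ↦ (c l : ZMod p)) t) := by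
    intro t
    induction t using MvPolynomial.induction_on with
    | C n =>
      rw [show (MvPolynomial.C n : MvPolynomial S ℤ) = (n : MvPolynomial S ℤ) from
        eq_intCast MvPolynomial.C n, map_intCast, map_intCast, map_intCast,
        ← MvPolynomial.coe_eval₂Hom, map_intCast]
    | add t t' ht ht' => simp only [map_add, MvPolynomial.eval₂_add, ht, ht']
    | mul_X t l ht =>
      simp only [map_mul, MvPolynomial.eval₂_mul, ht]
      simp [ev, hξl l.1 l.2]
  have hevr : ev r ∉ systemIdeal ξ := by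
    rw [mem_systemIdeal, hev, hr1, map_one]
    exact one_ne_zero
  have hpush : ∀ t (k : K) (χ : Ihara.PH M),
      heckeHom h θ K pr (ev t) (pushH1 θ h hθ k χ) = pushH1 θ h hθ k (hE.actN t χ) := by
    intro t k χ
    induction t using MvPolynomial.induction_on generalizing χ with
    | C n =>
      rw [show (MvPolynomial.C n : MvPolynomial S ℤ) = (n : MvPolynomial S ℤ) from
        eq_intCast MvPolynomial.C n, map_intCast, map_intCast, map_intCast,
        Module.End.intCast_apply, Module.End.intCast_apply, map_zsmul]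
    | add t t' ht ht' => simp only [map_add, LinearMap.add_apply, ht, ht']
    | mul_X t l ht =>
      rw [map_mul, map_mul, map_mul, Module.End.mul_apply, Module.End.mul_apply, hE.actN_X]
      rw [show ev (MvPolynomial.X l) = MvPolynomial.X (jl l.1 l.2) by simp [ev], heckeHom_X,
        ← ht]
      congr 1
      have hlM : ¬ (pr (jl l.1 l.2) : ℕ) ∣ M := by rw [hjl]; exact hE.not_dvd_left l
      refine (levelEquiv h hθ).injective ?_
      rw [levelEquiv_heckeOp h θ hθ hlM, levelEquiv_pushH1, levelEquiv_pushH1]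
      refine AddMonoidHom.ext fun g ↦ ?_
      have key : ∀ (l' : ℕ) (hl' : l'.Prime) (hlM' : ¬ l' ∣ M), l' = (l : ℕ) →
          Periods.heckeHomT K M hl' hlM' ((zmultiplesHom K k).comp χ.1) g =
            (zmultiplesHom K k).comp
              (Ihara.tOp M (hE.prime l l.2) (hE.not_dvd_left l) χ).1 g := by
        rintro l' hl' hlM' rfl
        exact DFunLike.congr_fun
          (Periods.heckeHomT_map (R := ℤ) M hl' hlM' (zmultiplesHom K k) χ.1) g
      exact key _ _ _ (hjl _ _)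
  obtain ⟨t, ht⟩ := hs₀.factor (s₁ * ev r) fun e ↦
    ((isMaximal_systemIdeal ξ).isPrime.mem_or_mem e).elim hs₁.not_mem hevr
  -- one side at a time
  have key : ∀ (v : H1 (levelChar h θ) K) (side : Ihara.PH M → Ihara.PH M × Ihara.PH M),
      v ∈ localH1 h θ K pr ξ →
      ∃ (n : ℕ) (k : Fin n → K) (χ : Fin n → Ihara.PH M) (z : Fin n → Ihara.PH (M * q)),
        heckeHom h θ K pr (ev r) (heckeHom h θ K pr t v) =
          ∑ i, pushH1 θ h hθ (k i) (hE.actN r (χ i)) ∧
        ∀ i, Ihara.betaOp x y hxy (z i) = (hE.actN r (side (χ i)).1, hE.actN r (side (χ i)).2) := by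
    intro v side hv
    have h2A : ∀ a : K, 2 • a = 0 → a = 0 := fun a e ↦ hχ.two.smul_eq_zero.mp
      (by rw [two_smul, ← two_nsmul]; exact e)
    have h3A : (∀ a : K, 3 • a = 0 → a = 0) ∨ ∃ r, r.Prime ∧ r % 3 = 2 ∧ r ∣ M :=
      h3.imp (fun h3 a e ↦ h3.smul_eq_zero.mp (by
        rw [show (3 : Λ) = ((3 : ℕ) : Λ) by norm_num, Nat.cast_smul_eq_nsmul]; exact e)) id
    obtain ⟨k, χ, hk⟩ := exists_lift (killsEP_of_parabolic h2A h3A
      (isParabolicHom_of_mem_localH1 h θ hθ hχ.two (dvd_mul_right M q) ⟨S, c, hS, hall⟩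
        (heckeHom_mem_part h θ t hv)))
    choose z hz using fun i ↦ hr (side (χ i))
    refine ⟨_, k, χ, z, ?_, hz⟩
    simp only [← hpush, ← map_sum]
    congr 1
    refine (levelEquiv h hθ).injective (AddMonoidHom.ext fun g ↦ ?_)
    obtain ⟨γ, rfl⟩ : ∃ γ, Additive.ofMul γ = g := ⟨Additive.toMul g, rfl⟩
    rw [map_sum, AddMonoidHom.finsetSum_apply, hk γ]
    refine Finset.sum_congr rfl fun i _ ↦ ?_
    rw [levelEquiv_pushH1]
    rfl
  obtain ⟨n, k, χ, z, hkz, hz⟩ := key a (fun χ ↦ (χ, 0)) ha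
  obtain ⟨n', k', χ', z', hkz', hz'⟩ := key b (fun χ ↦ (0, χ)) hb'
  refine ⟨heckeHom (h.mul_right q) θ K pr s₁
    ((∑ i, pushH1 θ (h.mul_right q) hθ (k i) (z i)) +
      ∑ i, pushH1 θ (h.mul_right q) hθ (k' i) (z' i)), hs₁.apply_mem _, ?_⟩
  rw [beta_heckeHom h θ hxy pr hq hpr]
  simp only [map_add, map_sum, beta_pushH1 h θ hxy hθ, hz, hz', map_zero, Prod.fst_add,
    Prod.snd_add, Prod.fst_sum, Prod.snd_sum, Finset.sum_const_zero, add_zero, zero_add]
  simp only [← map_sum, ← hkz, ← hkz']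
  refine Prod.ext ?_ ?_
  · show heckeHom h θ K pr s₁ _ = a
    rw [← Module.End.mul_apply, ← Module.End.mul_apply, ← map_mul, ← map_mul, ht]
    exact hs₀.apply_of_mem ha
  · show heckeHom h θ K pr s₁ _ = b
    rw [← Module.End.mul_apply, ← Module.End.mul_apply, ← map_mul, ← map_mul, ht]
    exact hs₀.apply_of_mem hb'

end FermatAgent.RTLift.Old
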