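import Mathlib

/-!
Maps of finite modules over a local ring controlled by their reductions: injective modulo the
maximal ideal gives split injective, surjective modulo the maximal ideal gives split surjective.
-/

set_option autoImplicit false

namespace FermatAgent.RTLift.Old

variable {Λ : Type*} [CommRing Λ] [IsLocalRing Λ] {P P' : Type*} [AddCommGroup P] [Module Λ P]
  [AddCommGroup P'] [Module Λ P'] [Module.Finite Λ P]

/-- A map into a projective module, injective modulo the maximal ideal, has a left inverse. -/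
theorem exists_leftInverse_of_mod [Module.Projective Λ P'] (f : P →ₗ[Λ] P')
    (hf : ∀ x, f x ∈ (IsLocalRing.maximalIdeal Λ • ⊤ : Submodule Λ P') →
      x ∈ (IsLocalRing.maximalIdeal Λ • ⊤ : Submodule Λ P)) :
    ∃ g : P' →ₗ[Λ] P, g.comp f = LinearMap.id := by
  set m := IsLocalRing.maximalIdeal Λ with hm
  have hle : (m • ⊤ : Submodule Λ P) ≤ (m • ⊤ : Submodule Λ P').comap f := by
    rw [← Submodule.map_le_iff_le_comap, Submodule.map_smul'']
    exact Submodule.smul_mono le_rfl le_top
  let fbar₀ := Submodule.mapQ (m • ⊤ : Submodule Λ P) (m • ⊤ : Submodule Λ P') f hle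
  have hs : Function.Surjective (algebraMap Λ (Λ ⧸ m)) := Ideal.Quotient.mk_surjective
  let := Ideal.Quotient.field m
  let fbar : (P ⧸ (m • ⊤ : Submodule Λ P)) →ₗ[Λ ⧸ m] P' ⧸ (m • ⊤ : Submodule Λ P') :=
    fbar₀.extendScalarsOfSurjective hs
  have hinj : LinearMap.ker fbar = ⊥ := by
    refine LinearMap.ker_eq_bot'.mpr fun x hx ↦ ?_
    obtain ⟨x, rfl⟩ := Submodule.Quotient.mk_surjective _ x
    exact (Submodule.Quotient.mk_eq_zero _).mpr (hf x ((Submodule.Quotient.mk_eq_zero _).mp hx))
  obtain ⟨gbar, hg⟩ := fbar.exists_leftInverse_of_injective hinj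
  obtain ⟨g, hgl⟩ := Module.projective_lifting_property (Submodule.mkQ (m • ⊤ : Submodule Λ P))
    ((gbar.restrictScalars Λ).comp (Submodule.mkQ (m • ⊤ : Submodule Λ P')))
    (Submodule.mkQ_surjective _)
  have hsurj : Function.Surjective (g.comp f) := by
    rw [← LinearMap.range_eq_top, eq_top_iff]
    refine Submodule.le_of_le_smul_of_le_jacobson_bot Module.Finite.fg_top
      (IsLocalRing.maximalIdeal_le_jacobson _) fun x _ ↦ ?_
    have h1 : Submodule.Quotient.mk (p := (m • ⊤ : Submodule Λ P)) (g (f x)) =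
        Submodule.Quotient.mk x :=
      (LinearMap.congr_fun hgl (f x)).trans
        (LinearMap.congr_fun hg (Submodule.Quotient.mk x))
    rw [← sub_sub_cancel (g (f x)) x]
    exact sub_mem (Submodule.mem_sup_left (LinearMap.mem_range_self (g.comp f) x))
      (Submodule.mem_sup_right ((Submodule.Quotient.eq _).mp h1))
  let e := LinearEquiv.ofBijective (g.comp f)
    ⟨OrzechProperty.injective_of_surjective_endomorphism _ hsurj, hsurj⟩
  refine ⟨e.symm.toLinearMap.comp g, LinearMap.ext fun x ↦ ?_⟩
  exact e.symm_apply_apply x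

variable [Module.Projective Λ P]

/-- A map onto a finite projective module, surjective modulo the maximal ideal, has a right
inverse. -/
theorem exists_rightInverse_of_mod (f : P' →ₗ[Λ] P)
    (hf : ∀ x, ∃ y, x - f y ∈ (IsLocalRing.maximalIdeal Λ • ⊤ : Submodule Λ P)) :
    ∃ g : P →ₗ[Λ] P', f.comp g = LinearMap.id := by
  have hsurj : Function.Surjective f := by
    rw [← LinearMap.range_eq_top, eq_top_iff]
    refine Submodule.le_of_le_smul_of_le_jacobson_bot Module.Finite.fg_top
      (IsLocalRing.maximalIdeal_le_jacobson _) fun x _ ↦ ?_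
    obtain ⟨y, hy⟩ := hf x
    rw [← add_sub_cancel (f y) x]
    exact Submodule.add_mem_sup (LinearMap.mem_range_self f y) hy
  exact Module.projective_lifting_property f LinearMap.id hsurj

omit [IsLocalRing Λ] in
/-- Membership in `I • ⊤` of a product, componentwise. -/
theorem mem_smul_top_prod {Q Q' : Type*} [AddCommGroup Q] [Module Λ Q] [AddCommGroup Q']
    [Module Λ Q'] (I : Ideal Λ) {a : Q} {b : Q'} (ha : a ∈ (I • ⊤ : Submodule Λ Q))
    (hb : b ∈ (I • ⊤ : Submodule Λ Q')) : (a, b) ∈ (I • ⊤ : Submodule Λ (Q × Q')) := by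
  have h1 := Submodule.mem_map_of_mem (f := LinearMap.inl Λ Q Q') ha
  have h2 := Submodule.mem_map_of_mem (f := LinearMap.inr Λ Q Q') hb
  rw [Submodule.map_smul''] at h1 h2
  have := add_mem (Submodule.smul_mono (le_refl I) le_top h1)
    (Submodule.smul_mono (le_refl I) le_top h2)
  simpa using this

end FermatAgent.RTLift.Old
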