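import Mathlib
import Fermat.Agent.RTLift.Old.Residual
import Fermat.Agent.RTLift.Old.Split

/-!
Over a local ring of coefficients with residually trivial character: on the non-Eisenstein local
parts the sum of the two degeneracy maps has a left inverse and the pair of traces a right inverse.
-/

set_option autoImplicit false

namespace FermatAgent.RTLift.Old

open scoped MatrixGroups
open CongruenceSubgroup FermatAgent.RTLift.Modules

variable {R : Type} [CommRing R] [IsLocalRing R] {Λ : Type} [CommRing Λ] [Algebra R Λ]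
  {J : Type} {pr : J → Nat.Primes} {ξ : J → IsLocalRing.ResidueField R}
  {M₀ M q : ℕ} [NeZero M] [NeZero q] [NeZero (M * q)] (h : M₀ ∣ M) (θ : (ZMod M₀)ˣ →* Λ)
  {x y : ℤ} (hxy : x * q - y * M = 1) (hq : q.Prime) (hpr : ∀ j, (pr j : ℕ) ≠ q)

section Maps

variable {A : Type} [AddCommGroup A] [Module Λ A] [Module R A] [IsScalarTower R Λ A]
include hq hpr

omit [NeZero M] [NeZero (M * q)] in
theorem alpha_mem_localH1 {a b : H1 (levelChar h θ) A} (ha : a ∈ localH1 h θ A pr ξ)
    (hb : b ∈ localH1 h θ A pr ξ) :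
    alpha h θ A hxy (a, b) ∈ localH1 (h.mul_right q) θ A pr ξ := by
  rw [alpha_apply]
  exact add_mem
    (map_mem_part _ (commAeval_comm _ _ _ _ _ (degI_heckeOp h θ pr hq hpr)) ha)
    (map_mem_part _ (commAeval_comm _ _ _ _ _ (degD_heckeOp h θ pr hq hpr _)) hb)

omit [NeZero M] [NeZero q] in
theorem trace_mem_localH1 {z : H1 (levelChar (h.mul_right q) θ) A}
    (hz : z ∈ localH1 (h.mul_right q) θ A pr ξ) :
    trace h (h.mul_right q) θ A z ∈ localH1 h θ A pr ξ :=
  map_mem_part _ (commAeval_comm _ _ _ _ _ (trace_heckeOp h θ pr hq hpr)) hz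

omit [NeZero M] [NeZero (M * q)] in
theorem atkin_mem_localH1 {z : H1 (levelChar (h.mul_right q) θ) A}
    (hz : z ∈ localH1 (h.mul_right q) θ A pr ξ) :
    atkin h θ A hxy z ∈ localH1 (h.mul_right q) θ A pr ξ :=
  map_mem_part _ (commAeval_comm _ _ _ _ _ (atkin_heckeOp h θ hxy pr hq hpr)) hz

variable (A ξ)

/-- The two degeneracy maps on local parts. -/
noncomputable def alphaLoc :
    localH1 h θ A pr ξ × localH1 h θ A pr ξ →ₗ[Λ] localH1 (h.mul_right q) θ A pr ξ :=
  ((alpha h θ A hxy).comp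
    ((localH1 h θ A pr ξ).subtype.prodMap (localH1 h θ A pr ξ).subtype)).codRestrict _
    fun v ↦ alpha_mem_localH1 h θ hxy hq hpr v.1.2 v.2.2

/-- The two traces on local parts. -/
noncomputable def betaLoc :
    localH1 (h.mul_right q) θ A pr ξ →ₗ[Λ] localH1 h θ A pr ξ × localH1 h θ A pr ξ :=
  (((trace h (h.mul_right q) θ A).comp (localH1 (h.mul_right q) θ A pr ξ).subtype).codRestrict _
      fun z ↦ trace_mem_localH1 h θ hq hpr z.2).prod
    (((trace h (h.mul_right q) θ A).comp ((atkin h θ A hxy).comp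
      (localH1 (h.mul_right q) θ A pr ξ).subtype)).codRestrict _
      fun z ↦ trace_mem_localH1 h θ hq hpr (atkin_mem_localH1 h θ hxy hq hpr z.2))

variable {A ξ}

omit [NeZero M] [NeZero (M * q)] in
theorem coe_alphaLoc (v : localH1 h θ A pr ξ × localH1 h θ A pr ξ) :
    (alphaLoc ξ h θ hxy hq hpr A v : H1 (levelChar (h.mul_right q) θ) A) =
      alpha h θ A hxy ((v.1 : H1 (levelChar h θ) A), (v.2 : H1 (levelChar h θ) A)) := rfl

omit [NeZero M] in
theorem coe_betaLoc (z : localH1 (h.mul_right q) θ A pr ξ) :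
    (((betaLoc ξ h θ hxy hq hpr A z).1 : H1 (levelChar h θ) A),
      ((betaLoc ξ h θ hxy hq hpr A z).2 : H1 (levelChar h θ) A)) =
        beta h θ A hxy (z : H1 (levelChar (h.mul_right q) θ) A) := rfl

end Maps

section Change

variable {A B : Type} [AddCommGroup A] [Module Λ A] [AddCommGroup B] [Module Λ B] (u : A →ₗ[Λ] B)

omit [NeZero M] [NeZero (M * q)] in
theorem h1Map_alpha (a b : H1 (levelChar h θ) A) :
    h1Map u (alpha h θ A hxy (a, b)) = alpha h θ B hxy (h1Map u a, h1Map u b) := by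
  rw [alpha_apply, alpha_apply, map_add]
  simp only [degI, degD, CrossCorr.onH1_h1Map]

omit [NeZero M] [NeZero q] in
theorem h1Map_trace (z : H1 (levelChar (h.mul_right q) θ) A) :
    h1Map u (trace h (h.mul_right q) θ A z) = trace h (h.mul_right q) θ B (h1Map u z) := by
  simp only [trace, CrossCorr.onH1_h1Map]

omit [NeZero M] [NeZero (M * q)] in
theorem h1Map_atkin (z : H1 (levelChar (h.mul_right q) θ) A) :
    h1Map u (atkin h θ A hxy z) = atkin h θ B hxy (h1Map u z) := by
  simp only [atkin, CrossCorr.onH1_h1Map]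

/-- A map of coefficients killing `I • A` kills `I`-combinations. -/
theorem h1Map_eq_zero_of_mem_smul {G : Type} [Group G] {χ : G →* Λ} (I : Ideal Λ)
    (hu : LinearMap.ker u = I • ⊤) {P : Submodule Λ (H1 χ A)} {z : H1 χ A} (hz : z ∈ I • P) :
    h1Map u z = 0 := by
  refine Submodule.smul_induction_on hz (fun c hc z _ ↦ ?_) fun z w hz hw ↦ by
    rw [map_add, hz, hw, add_zero]
  induction z using Submodule.Quotient.induction_on with
  | H f =>
    rw [map_smul, h1Map_mk, ← Submodule.Quotient.mk_smul, Submodule.Quotient.mk_eq_zero]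
    convert Submodule.zero_mem _
    refine Subtype.ext (funext fun γ ↦ ?_)
    show c • u ((f : G → A) γ) = 0
    rw [← map_smul, ← LinearMap.mem_ker, hu]
    exact Submodule.smul_mem_smul hc Submodule.mem_top

end Change

section Local

variable [IsLocalRing Λ] {p : ℕ} [Fact p.Prime] [CharP (IsLocalRing.ResidueField Λ) p]
  [CharP (IsLocalRing.ResidueField R) p] [Finite (IsLocalRing.ResidueField Λ)]
  [IsNoetherianRing R] [IsAdicComplete (IsLocalRing.maximalIdeal R) R] [Module.Finite R Λ]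

/-- The reduction of the coefficients. -/
noncomputable def redCoeff (Λ : Type) [CommRing Λ] [IsLocalRing Λ] :
    Λ →ₗ[Λ] IsLocalRing.ResidueField Λ :=
  Algebra.linearMap Λ (IsLocalRing.ResidueField Λ)

omit [CommRing R] [IsLocalRing R] in
theorem redCoeff_surjective (Λ : Type) [CommRing Λ] [IsLocalRing Λ] :
    Function.Surjective (redCoeff Λ) := IsLocalRing.residue_surjective

omit [CommRing R] [IsLocalRing R] in
theorem ker_redCoeff (Λ : Type) [CommRing Λ] [IsLocalRing Λ] :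
    LinearMap.ker (redCoeff Λ) = IsLocalRing.maximalIdeal Λ • (⊤ : Submodule Λ Λ) := by
  rw [Ideal.smul_eq_mul, Ideal.mul_top]
  ext a
  exact IsLocalRing.residue_eq_zero_iff a

variable {θ}

omit [Algebra R Λ] [CharP (IsLocalRing.ResidueField Λ) p] [Finite (IsLocalRing.ResidueField Λ)]
  [Module.Finite R Λ] in
theorem isTrivialOn_residueField (hθ : ∀ u, θ u - 1 ∈ IsLocalRing.maximalIdeal Λ) :
    IsTrivialOn θ (IsLocalRing.ResidueField Λ) := fun u a ↦ by
  have h1 : IsLocalRing.residue Λ (θ u) = 1 := by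
    rw [← sub_eq_zero, ← map_one (IsLocalRing.residue Λ), ← map_sub]
    exact (IsLocalRing.residue_eq_zero_iff _).mpr (hθ u)
  rw [Algebra.smul_def]
  show IsLocalRing.residue Λ (θ u) * a = a
  rw [h1, one_mul]

variable (hθ1 : θ (-1) = 1) (hθ : ∀ u, θ u - 1 ∈ IsLocalRing.maximalIdeal Λ)
  (h2 : IsUnit (2 : Λ)) (h3 : IsUnit (3 : Λ) ∨ ∃ r, r.Prime ∧ r % 3 = 2 ∧ r ∣ M)
  (hqM : ¬ q ∣ M) (hb : BaseEigen pr ξ p (M * q))

omit [NeZero q] [NeZero (M * q)] [Finite (IsLocalRing.ResidueField Λ)]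
  [CharP (IsLocalRing.ResidueField Λ) p] [IsLocalRing Λ] in
include hθ1 h2 h3 hb in
theorem finite_projective_localH1 :
    Module.Finite Λ (localH1 h θ Λ pr ξ) ∧ Module.Projective Λ (localH1 h θ Λ pr ξ) := by
  have hχ := isGoodChar_levelChar h hθ1 h2 h3
  have := finite_h1 (R := R) (A := Λ) h θ hχ
  have := isNoetherian_of_isNoetherianRing_of_finite R (H1 (levelChar h θ) Λ)
  have : Module.Finite R (localH1 h θ Λ pr ξ) :=
    Module.Finite.of_injective ((localH1 h θ Λ pr ξ).subtype.restrictScalars R)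
      Subtype.val_injective
  exact ⟨Module.Finite.of_restrictScalars_finite R Λ _,
    projective_localH1 h θ pr ξ hχ (hb.nonEis h (dvd_mul_right M q))⟩

omit [NeZero q] [NeZero M] [Finite (IsLocalRing.ResidueField Λ)]
  [CharP (IsLocalRing.ResidueField Λ) p] [IsLocalRing Λ] in
include hθ1 h2 h3 hb in
theorem finite_projective_localH1_mul :
    Module.Finite Λ (localH1 (h.mul_right q) θ Λ pr ξ) ∧
      Module.Projective Λ (localH1 (h.mul_right q) θ Λ pr ξ) := by
  have hχ := isGoodChar_levelChar (h.mul_right q) hθ1 h2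
    (h3.imp id fun ⟨r, hr, h1, h4⟩ ↦ ⟨r, hr, h1, h4.mul_right q⟩)
  have := finite_h1 (R := R) (A := Λ) (h.mul_right q) θ hχ
  have := isNoetherian_of_isNoetherianRing_of_finite R (H1 (levelChar (h.mul_right q) θ) Λ)
  have : Module.Finite R (localH1 (h.mul_right q) θ Λ pr ξ) :=
    Module.Finite.of_injective ((localH1 (h.mul_right q) θ Λ pr ξ).subtype.restrictScalars R)
      Subtype.val_injective
  exact ⟨Module.Finite.of_restrictScalars_finite R Λ _,
    projective_localH1 (h.mul_right q) θ pr ξ hχ (hb.nonEis (h.mul_right q) dvd_rfl)⟩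

include hθ1 hθ h2 h3 hqM hb in
set_option maxHeartbeats 1000000 in
/-- **Ihara's lemma** over `Λ`: the two degeneracy maps on local parts have a left inverse. -/
theorem exists_leftInverse_alphaLoc :
    ∃ g : localH1 (h.mul_right q) θ Λ pr ξ →ₗ[Λ] localH1 h θ Λ pr ξ × localH1 h θ Λ pr ξ,
      g.comp (alphaLoc ξ h θ hxy hq hpr Λ) = LinearMap.id := by
  obtain ⟨hf, hp⟩ := finite_projective_localH1 h hθ1 h2 h3 hb
  obtain ⟨hf', hp'⟩ := finite_projective_localH1_mul h hθ1 h2 h3 hb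
  have hχ := isGoodChar_levelChar h hθ1 h2 h3
  refine exists_leftInverse_of_mod _ fun v hv ↦ ?_
  set u := redCoeff Λ
  have hbc := localH1_baseChange h θ pr ξ hχ (IsLocalRing.maximalIdeal Λ) u
    (redCoeff_surjective Λ) (ker_redCoeff Λ)
  have hzero := h1Map_eq_zero_of_mem_smul u (IsLocalRing.maximalIdeal Λ) (ker_redCoeff Λ)
    ((Submodule.mem_smul_top_iff _ _ _).mp hv)
  rw [coe_alphaLoc, h1Map_alpha] at hzero
  obtain ⟨e1, e2⟩ := eq_zero_of_alpha_eq_zero h θ hxy (isTrivialOn_residueField hθ) hχ hq hqM hpr hb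
    (hbc.1 ▸ Submodule.mem_map_of_mem v.1.2) (hbc.1 ▸ Submodule.mem_map_of_mem v.2.2)
    hzero
  exact mem_smul_top_prod _
    ((Submodule.mem_smul_top_iff _ _ _).mpr (hbc.2 _ v.1.2 e1))
    ((Submodule.mem_smul_top_iff _ _ _).mpr (hbc.2 _ v.2.2 e2))

include hθ1 hθ h2 h3 hqM hb in
set_option maxHeartbeats 1000000 in
/-- Over `Λ` the two traces on local parts have a right inverse. -/
theorem exists_rightInverse_betaLoc :
    ∃ g : localH1 h θ Λ pr ξ × localH1 h θ Λ pr ξ →ₗ[Λ] localH1 (h.mul_right q) θ Λ pr ξ,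
      (betaLoc ξ h θ hxy hq hpr Λ).comp g = LinearMap.id := by
  obtain ⟨hf, hp⟩ := finite_projective_localH1 h hθ1 h2 h3 hb
  have hχ := isGoodChar_levelChar h hθ1 h2 h3
  have hχ' := isGoodChar_levelChar (h.mul_right q) hθ1 h2
    (h3.imp id fun ⟨r, hr, h1, h4⟩ ↦ ⟨r, hr, h1, h4.mul_right q⟩)
  refine exists_rightInverse_of_mod _ fun v ↦ ?_
  set u := redCoeff Λ
  have hbc := localH1_baseChange h θ pr ξ hχ (IsLocalRing.maximalIdeal Λ) u
    (redCoeff_surjective Λ) (ker_redCoeff Λ)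
  have hbc' := localH1_baseChange (h.mul_right q) θ pr ξ hχ' (IsLocalRing.maximalIdeal Λ) u
    (redCoeff_surjective Λ) (ker_redCoeff Λ)
  obtain ⟨z, hz, hzv⟩ := exists_beta_eq h θ hxy (isTrivialOn_residueField hθ) hχ hχ' h3 hq hqM hpr
    hb (hbc.1 ▸ Submodule.mem_map_of_mem v.1.2) (hbc.1 ▸ Submodule.mem_map_of_mem v.2.2)
  rw [← hbc'.1] at hz
  obtain ⟨w, hw, rfl⟩ := hz
  have e1 : h1Map u (trace h (h.mul_right q) θ Λ w) = h1Map u (v.1 : H1 (levelChar h θ) Λ) :=
    (h1Map_trace h θ u w).trans (congrArg Prod.fst hzv)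
  have e2 : h1Map u (trace h (h.mul_right q) θ Λ (atkin h θ Λ hxy w)) =
      h1Map u (v.2 : H1 (levelChar h θ) Λ) := by
    rw [h1Map_trace, h1Map_atkin]
    exact congrArg Prod.snd hzv
  refine ⟨⟨w, hw⟩, mem_smul_top_prod _
    ((Submodule.mem_smul_top_iff _ _ _).mpr (hbc.2 _ (Submodule.coe_mem _) ?_))
    ((Submodule.mem_smul_top_iff _ _ _).mpr (hbc.2 _ (Submodule.coe_mem _) ?_))⟩
  · refine (map_sub (h1Map u) _ _).trans (sub_eq_zero.mpr e1.symm)
  · refine (map_sub (h1Map u) _ _).trans (sub_eq_zero.mpr e2.symm)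

end Local

end FermatAgent.RTLift.Old
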