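import Mathlib
import Fermat.Agent.RTLift.Old.Trivial
import Fermat.Agent.RTLift.Old.Equivariant

/-!
An auxiliary prime `q` with distinct residual roots `a`, `b`, finite coefficients with trivial
character: the part at level `M` is the part at level `M q` where `U_q ≡ a`.
-/

set_option autoImplicit false

namespace FermatAgent.RTLift.Old

open scoped MatrixGroups
open CongruenceSubgroup FermatAgent.RTLift.Modules

variable {R : Type} [CommRing R] [IsLocalRing R] {Λ : Type} [CommRing Λ] [Algebra R Λ]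
  {J : Type} {pr : J → Nat.Primes} {j₀ : J} {M₀ M q : ℕ} [NeZero q]

/-- Residual data at an auxiliary prime: `ξ` at level `M`, `ξ'` at level `M q`. -/
structure RootData (pr : J → Nat.Primes) (j₀ : J) (q : ℕ) (ξ ξ' : J → IsLocalRing.ResidueField R)
    (b : IsLocalRing.ResidueField R) : Prop where
  pr_eq : (pr j₀ : ℕ) = q
  pr_ne : ∀ j, j ≠ j₀ → (pr j : ℕ) ≠ q
  eq_of_ne : ∀ j, j ≠ j₀ → ξ' j = ξ j
  sum_eq : ξ j₀ = ξ' j₀ + b
  prod_eq : ξ' j₀ * b = q
  ne_zero : (q : IsLocalRing.ResidueField R) ≠ 0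
  sq_ne_one : ξ' j₀ ^ 2 ≠ 1
  ne : ξ' j₀ ≠ b
  not_eisenstein : ξ j₀ ^ 2 ≠ ((q : IsLocalRing.ResidueField R) + 1) ^ 2

variable {ξ ξ' : J → IsLocalRing.ResidueField R} {b : IsLocalRing.ResidueField R}

omit [NeZero q] in
theorem RootData.left_ne_zero (hd : RootData pr j₀ q ξ ξ' b) : ξ' j₀ ≠ 0 := fun e ↦
  hd.ne_zero (by rw [← hd.prod_eq, e, zero_mul])

variable (h : M₀ ∣ M) (θ : (ZMod M₀)ˣ →* Λ) {A : Type} [AddCommGroup A] [Module Λ A] [Module R A]
  [IsScalarTower R Λ A]

omit [IsLocalRing R] [Module R A] [IsScalarTower R Λ A] [Algebra R Λ] [NeZero q] in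
theorem heckeOp_lower (hq : q.Prime) (hqM : ¬ q ∣ M) (hj₀ : (pr j₀ : ℕ) = q)
    (x : H1 (levelChar h θ) A) :
    heckeOp h θ A (pr j₀) x = heckeT h θ A hq hqM x := by
  subst hj₀
  rw [heckeOp_of_not_dvd h θ A hqM]

omit [IsLocalRing R] [Module R A] [IsScalarTower R Λ A] [Algebra R Λ] in
theorem heckeOp_upper (hj₀ : (pr j₀ : ℕ) = q) (z : H1 (levelChar (h.mul_right q) θ) A) :
    heckeOp (h.mul_right q) θ A (pr j₀) z =
      heckeU (h.mul_right q) θ A (dvd_mul_left q M) z := by
  subst hj₀
  rw [heckeOp_of_dvd (h.mul_right _) θ A (dvd_mul_left (pr j₀ : ℕ) M)]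

section Apply

variable (pr : J → Nat.Primes) {N : ℕ} (hN : M₀ ∣ N)

omit [IsLocalRing R] [NeZero q] in
theorem heckeHom_mul_apply (s t : MvPolynomial J R) (v : H1 (levelChar hN θ) A) :
    heckeHom hN θ A pr (s * t) v = heckeHom hN θ A pr s (heckeHom hN θ A pr t v) := by
  rw [map_mul, Module.End.mul_apply]

omit [IsLocalRing R] [NeZero q] in
theorem heckeHom_comm_apply (s t : MvPolynomial J R) (v : H1 (levelChar hN θ) A) :
    heckeHom hN θ A pr s (heckeHom hN θ A pr t v) =
      heckeHom hN θ A pr t (heckeHom hN θ A pr s v) := by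
  rw [← heckeHom_mul_apply, mul_comm, heckeHom_mul_apply]

omit [IsLocalRing R] [NeZero q] in
theorem heckeHom_C_apply (c : R) (v : H1 (levelChar hN θ) A) :
    heckeHom hN θ A pr (MvPolynomial.C c : MvPolynomial J R) v = c • v := by
  rw [← MvPolynomial.algebraMap_eq, AlgHom.commutes, Module.algebraMap_end_apply]

omit [IsLocalRing R] [NeZero q] in
theorem heckeHom_natCast_apply (n : ℕ) (v : H1 (levelChar hN θ) A) :
    heckeHom hN θ A pr (n : MvPolynomial J R) v = n • v := by
  rw [map_natCast, Module.End.natCast_apply]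

omit [IsLocalRing R] [NeZero q] in
theorem heckeHom_succ_apply (n : ℕ) (v : H1 (levelChar hN θ) A) :
    heckeHom hN θ A pr ((n : MvPolynomial J R) + 1) v = (n + 1) • v := by
  rw [map_add, map_one, LinearMap.add_apply, heckeHom_natCast_apply, Module.End.one_apply, add_smul,
    one_smul]

omit [IsLocalRing R] [NeZero q] in
theorem heckeHom_add_apply (s t : MvPolynomial J R) (v : H1 (levelChar hN θ) A) :
    heckeHom hN θ A pr (s + t) v = heckeHom hN θ A pr s v + heckeHom hN θ A pr t v := by
  rw [map_add, LinearMap.add_apply]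

omit [IsLocalRing R] [NeZero q] in
theorem heckeHom_sub_apply (s t : MvPolynomial J R) (v : H1 (levelChar hN θ) A) :
    heckeHom hN θ A pr (s - t) v = heckeHom hN θ A pr s v - heckeHom hN θ A pr t v := by
  rw [map_sub, LinearMap.sub_apply]

end Apply

omit [IsLocalRing R] [NeZero q] in
theorem heckeHom_mem (pr : J → Nat.Primes) {N : ℕ} (hN : M₀ ∣ N)
    {m : Ideal (MvPolynomial J R)} (s : MvPolynomial J R)
    {x : H1 (levelChar hN θ) A} (hx : x ∈ part (heckeHom hN θ A pr) m) :
    heckeHom hN θ A pr s x ∈ part (heckeHom hN θ A pr) m :=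
  map_mem_part (heckeHom hN θ A pr s) (fun t z ↦ by
    rw [← Module.End.mul_apply, ← map_mul, mul_comm, map_mul, Module.End.mul_apply]) hx

omit [IsLocalRing R] [NeZero q] in
/-- An element of the maximal ideal is nilpotent on a finite part. -/
theorem exists_pow_apply_eq_zero (pr : J → Nat.Primes) {N : ℕ} (hN : M₀ ∣ N)
    [Finite (H1 (levelChar hN θ) A)] {m : Ideal (MvPolynomial J R)} (hm : m ≠ ⊤) {s₀ : MvPolynomial J R}
    (hs₀ : IsProjector (heckeHom hN θ A pr) m s₀) {s : MvPolynomial J R} (hs : s ∈ m) :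
    ∃ n, ∀ x ∈ part (heckeHom hN θ A pr) m, heckeHom hN θ A pr (s ^ n) x = 0 := by
  obtain ⟨i, k, hik, he⟩ := Finite.exists_ne_map_eq_of_infinite
    (fun n : ℕ ↦ (heckeHom hN θ A pr (s ^ n) : H1 (levelChar hN θ) A → H1 (levelChar hN θ) A))
  wlog hlt : i < k generalizing i k
  · exact this k i hik.symm he.symm (lt_of_le_of_ne (not_lt.mp hlt) hik.symm)
  obtain ⟨d, rfl⟩ := Nat.exists_eq_add_of_lt hlt
  refine ⟨i, fun x hx ↦ hs₀.eq_zero_of_mem (heckeHom_mem θ pr hN _ hx)
    (s := 1 - s ^ (d + 1)) (fun h1 ↦ hm ((Ideal.eq_top_iff_one _).mpr ?_)) ?_⟩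
  · have := add_mem h1 (Ideal.pow_mem_of_mem m hs (d + 1) (Nat.succ_pos _))
    rwa [sub_add_cancel] at this
  · rw [map_sub, map_one, LinearMap.sub_apply, Module.End.one_apply, ← Module.End.mul_apply,
      ← map_mul, ← pow_add, sub_eq_zero, show d + 1 + i = i + d + 1 by ring]
    exact congrFun he x

variable {x y : ℤ} (hxy : x * q - y * M = 1) (hq : q.Prime) (hqM : ¬ q ∣ M)

omit [IsLocalRing R] [NeZero q] in
theorem degI_heckeHom_X {j : J} (hne : (pr j : ℕ) ≠ q) (hq : q.Prime)
    (v : H1 (levelChar h θ) A) :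
    degI h (h.mul_right q) θ A (dvd_mul_right M q)
        (heckeHom h θ A pr (MvPolynomial.X j : MvPolynomial J R) v) =
      heckeHom (h.mul_right q) θ A pr (MvPolynomial.X j : MvPolynomial J R)
        (degI h (h.mul_right q) θ A (dvd_mul_right M q) v) := by
  rw [heckeHom_X, heckeHom_X]
  exact degI_heckeOp h θ (fun _ : Unit ↦ pr j) hq (fun _ ↦ hne) () v

omit [IsLocalRing R] in
theorem beta_heckeHom_X [NeZero (M * q)] {j : J} (hne : (pr j : ℕ) ≠ q) (hq : q.Prime)
    (z : H1 (levelChar (h.mul_right q) θ) A) :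
    beta h θ A hxy (heckeHom (h.mul_right q) θ A pr (MvPolynomial.X j : MvPolynomial J R) z) =
      (heckeHom h θ A pr (MvPolynomial.X j : MvPolynomial J R) (beta h θ A hxy z).1,
        heckeHom h θ A pr (MvPolynomial.X j : MvPolynomial J R) (beta h θ A hxy z).2) := by
  rw [heckeHom_X, beta_apply, beta_apply, atkin_heckeOp h θ hxy (fun _ : Unit ↦ pr j) hq (fun _ ↦ hne) (),
    trace_heckeOp h θ (fun _ : Unit ↦ pr j) hq (fun _ ↦ hne) (),
    trace_heckeOp h θ (fun _ : Unit ↦ pr j) hq (fun _ ↦ hne) (), heckeHom_X]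

variable (hA : IsTrivialOn θ A)

omit [IsLocalRing R] [Module R A] [IsScalarTower R Λ A] [Algebra R Λ] [NeZero q] in
include hA in
theorem alScalar_smul (a : H1 (levelChar h θ) A) : alScalar h θ hxy • a = a := by
  induction a using Submodule.Quotient.induction_on with
  | H f =>
    rw [← Submodule.Quotient.mk_smul]
    exact congrArg _ (Subtype.ext (funext fun γ ↦ hA _ _))

omit [IsLocalRing R] [Module R A] [IsScalarTower R Λ A] [Algebra R Λ] [NeZero q] in
include hA in
theorem alScalar_smul_mul (a : H1 (levelChar (h.mul_right q) θ) A) :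
    alScalar h θ hxy • a = a := by
  induction a using Submodule.Quotient.induction_on with
  | H f =>
    rw [← Submodule.Quotient.mk_smul]
    exact congrArg _ (Subtype.ext (funext fun γ ↦ hA _ _))

omit [IsLocalRing R] [Module R A] [IsScalarTower R Λ A] [Algebra R Λ] in
include hxy hA in
theorem heckeU_degD_trivial (hq : q.Prime) (hqM : ¬ q ∣ M) (a : H1 (levelChar h θ) A) :
    heckeU (h.mul_right q) θ A (dvd_mul_left q M)
        (degD h (h.mul_right q) θ A (coprime_of_bezout hxy h) dvd_rfl a) =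
      q • degI h (h.mul_right q) θ A (dvd_mul_right M q) a := by
  rw [heckeU_degD h θ hq hqM]
  rw [mul_smul, show θ (ZMod.unitOfCoprime q (coprime_cond hq hqM h))⁻¹ • degI h (h.mul_right q) θ A
    (dvd_mul_right M q) a = degI h (h.mul_right q) θ A (dvd_mul_right M q) a from
      alScalar_smul_mul h θ hxy hA _, Nat.cast_smul_eq_nsmul]

omit [IsLocalRing R] [Module R A] [IsScalarTower R Λ A] [Algebra R Λ] in
include hA in
/-- `U_q` through the two traces. -/
theorem beta_heckeU [NeZero (M * q)] (hq : q.Prime) (hqM : ¬ q ∣ M)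
    (z : H1 (levelChar (h.mul_right q) θ) A) :
    beta h θ A hxy (heckeU (h.mul_right q) θ A (dvd_mul_left q M) z) =
      (q • (beta h θ A hxy z).2, heckeT h θ A hq hqM (beta h θ A hxy z).2 - (beta h θ A hxy z).1) := by
  have h1 := degI_trace h θ hxy hq hqM (atkin h θ A hxy z)
  rw [alScalar_smul_mul h θ hxy hA, alScalar_smul_mul h θ hxy hA, atkin_atkin,
    alScalar_smul_mul h θ hxy hA] at h1
  rw [eq_sub_of_add_eq' h1.symm, beta_apply, beta_apply, map_sub, map_sub, map_sub,
    trace_degI h θ hq hqM, atkin_degI, atkin_atkin, trace_degD h θ hq hqM,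
    alScalar_smul_mul h θ hxy hA, add_smul, one_smul, add_sub_cancel_right]

omit [IsLocalRing R] [Module R A] [IsScalarTower R Λ A] [Algebra R Λ] in
include hA in
/-- On the kernel of the traces `U_q² = 1`. -/
theorem heckeU_heckeU_of_beta_eq_zero [NeZero (M * q)] (hq : q.Prime) (hqM : ¬ q ∣ M)
    {z : H1 (levelChar (h.mul_right q) θ) A} (hz : beta h θ A hxy z = 0) :
    heckeU (h.mul_right q) θ A (dvd_mul_left q M) (heckeU (h.mul_right q) θ A (dvd_mul_left q M) z) =
      z := by
  have h1 := degI_trace h θ hxy hq hqM (atkin h θ A hxy z)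
  have h2 := degI_trace h θ hxy hq hqM z
  rw [show trace h (h.mul_right q) θ A z = 0 from congrArg Prod.fst hz, map_zero, smul_zero,
    alScalar_smul_mul h θ hxy hA] at h2
  rw [show trace h (h.mul_right q) θ A (atkin h θ A hxy z) = 0 from congrArg Prod.snd hz, map_zero,
    smul_zero, atkin_atkin, alScalar_smul_mul h θ hxy hA, alScalar_smul_mul h θ hxy hA] at h1
  rw [eq_neg_of_add_eq_zero_right h1.symm, map_neg, eq_neg_of_add_eq_zero_right h2.symm, neg_neg]

omit [IsLocalRing R] [Module R A] [IsScalarTower R Λ A] [Algebra R Λ] in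
include hxy in
theorem heckeU_degI (hq : q.Prime) (hqM : ¬ q ∣ M) (a : H1 (levelChar h θ) A) :
    heckeU (h.mul_right q) θ A (dvd_mul_left q M)
        (degI h (h.mul_right q) θ A (dvd_mul_right M q) a) =
      degI h (h.mul_right q) θ A (dvd_mul_right M q) (heckeT h θ A hq hqM a) -
        degD h (h.mul_right q) θ A (coprime_of_bezout hxy h) dvd_rfl a := by
  rw [degI_heckeT_self h θ hq hqM, add_sub_cancel_right]

theorem eval₂_natCast_residue (η : J → IsLocalRing.ResidueField R) (n : ℕ) :
    MvPolynomial.eval₂ (IsLocalRing.residue R) η (n : MvPolynomial J R) =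
      (n : IsLocalRing.ResidueField R) := by
  rw [← MvPolynomial.coe_eval₂Hom, map_natCast]

omit [IsLocalRing R] [Module R A] [IsScalarTower R Λ A] [Algebra R Λ] in
include hA in
/-- `T_q` on the two traces of `U_q z`. -/
theorem heckeT_beta_heckeU [NeZero (M * q)] (hq : q.Prime) (hqM : ¬ q ∣ M)
    (z : H1 (levelChar (h.mul_right q) θ) A) :
    heckeT h θ A hq hqM
        (beta h θ A hxy (heckeU (h.mul_right q) θ A (dvd_mul_left q M) z)).1 =
      (beta h θ A hxy (heckeU (h.mul_right q) θ A (dvd_mul_left q M)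
        (heckeU (h.mul_right q) θ A (dvd_mul_left q M) z) + q • z)).1 ∧
    heckeT h θ A hq hqM
        (beta h θ A hxy (heckeU (h.mul_right q) θ A (dvd_mul_left q M) z)).2 =
      (beta h θ A hxy (heckeU (h.mul_right q) θ A (dvd_mul_left q M)
        (heckeU (h.mul_right q) θ A (dvd_mul_left q M) z) + q • z)).2 := by
  simp only [map_add, map_nsmul, beta_heckeU h θ hxy hA hq hqM, Prod.fst_add, Prod.snd_add,
    Prod.smul_fst, Prod.smul_snd]
  constructor
  · rw [← smul_add, sub_add_cancel]
  · rw [sub_add_cancel]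

section Main

variable [Finite A] [NeZero M] [NeZero (M * q)] {s₁ : MvPolynomial J R}

omit [NeZero q] [NeZero (M * q)] [Module R A] [IsScalarTower R Λ A] [IsLocalRing R] [Algebra R Λ] in
theorem finite_h1_of_finite (hχ : IsGoodChar (levelChar h θ)) : Finite (H1 (levelChar h θ) A) := by
  have : Fintype (Pts (Gamma0 M)) := Fintype.ofFinite _
  have : Finite (crossedHoms (levelChar h θ) A) :=
    Finite.of_surjective (hχ.retract A) hχ.retract_surjective
  exact Finite.of_surjective _ (Submodule.mkQ_surjective _)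

variable (hd : RootData pr j₀ q ξ ξ' b)
  {s₀ : MvPolynomial J R} (hs₀ : IsProjector (heckeHom h θ A pr) (systemIdeal ξ) s₀)
  (hs₁ : IsProjector (heckeHom (h.mul_right q) θ A pr) (systemIdeal ξ') s₁)

/-- The element `(q + 1)² - T_q²`. -/
noncomputable def detElem (R : Type) [CommRing R] (q : ℕ) (j₀ : J) : MvPolynomial J R :=
  ((q : MvPolynomial J R) + 1) ^ 2 - MvPolynomial.X j₀ ^ 2

omit [Finite A] [NeZero M] [NeZero q] [NeZero (M * q)] in
include hd in
theorem detElem_not_mem : detElem R q j₀ ∉ systemIdeal ξ := by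
  rw [mem_systemIdeal, ← MvPolynomial.coe_eval₂Hom, detElem, map_sub, map_pow, map_pow, map_add,
    map_natCast, map_one, MvPolynomial.eval₂Hom_X', sub_eq_zero]
  exact hd.not_eisenstein.symm

omit [Finite A] [NeZero M] in
include hd hs₀ hA hq hqM in
/-- The sum of the degeneracy maps is injective on the part at level `M`. -/
theorem eq_zero_of_alpha {u v : H1 (levelChar h θ) A} (hu : u ∈ localH1 h θ A pr ξ)
    (hv : v ∈ localH1 h θ A pr ξ) (h0 : alpha h θ A hxy (u, v) = 0) : u = 0 ∧ v = 0 := by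
  have e := congrArg (beta h θ A hxy) h0
  rw [beta_alpha h θ hxy hq hqM, map_zero, alScalar_smul h θ hxy hA, Prod.mk_eq_zero,
    ← heckeOp_lower h θ hq hqM hd.pr_eq, ← heckeOp_lower h θ hq hqM hd.pr_eq] at e
  obtain ⟨e1, e2⟩ := e
  set T := heckeOp h θ A (pr j₀)
  have hdet : ∀ w, heckeHom h θ A pr (detElem R q j₀) w = (q + 1) • (q + 1) • w - T (T w) := by
    intro w
    rw [detElem, pow_two, pow_two, heckeHom_sub_apply, heckeHom_mul_apply, heckeHom_mul_apply,
      heckeHom_succ_apply, heckeHom_succ_apply, heckeHom_X]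
  refine ⟨hs₀.eq_zero_of_mem hu (detElem_not_mem hd) ?_,
    hs₀.eq_zero_of_mem hv (detElem_not_mem hd) ?_⟩
  · rw [hdet]
    calc (q + 1) • (q + 1) • u - T (T u)
        = (q + 1) • ((q + 1) • u + T v) - T (T u + (q + 1) • v) := by
          rw [smul_add, map_add, map_nsmul]; abel
      _ = 0 := by rw [e1, e2, smul_zero, map_zero, sub_zero]
  · rw [hdet]
    calc (q + 1) • (q + 1) • v - T (T v)
        = (q + 1) • (T u + (q + 1) • v) - T ((q + 1) • u + T v) := by
          rw [smul_add, map_add, map_nsmul]; abel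
      _ = 0 := by rw [e1, e2, smul_zero, map_zero, sub_zero]

omit [Finite A] [NeZero M] in
include hd hs₀ hs₁ hA hxy hq hqM in
/-- The projected first degeneracy map is injective. -/
theorem eq_zero_of_projected {u : H1 (levelChar h θ) A} (hu : u ∈ localH1 h θ A pr ξ)
    (h0 : heckeHom (h.mul_right q) θ A pr s₁ (degI h (h.mul_right q) θ A (dvd_mul_right M q) u) = 0) :
    u = 0 := by
  have hc := coprime_of_bezout hxy h
  set I := degI h (h.mul_right q) θ A (dvd_mul_right M q)
  set D := degD h (h.mul_right q) θ A hc dvd_rfl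
  have key : ∀ s : MvPolynomial J R, ∃ P r : MvPolynomial J R,
      (∀ v, heckeHom (h.mul_right q) θ A pr s (I v) =
        I (heckeHom h θ A pr (P + r * MvPolynomial.X j₀) v) - D (heckeHom h θ A pr r v)) ∧
      MvPolynomial.eval₂ (IsLocalRing.residue R) ξ' s =
        MvPolynomial.eval₂ (IsLocalRing.residue R) ξ P +
          ξ' j₀ * MvPolynomial.eval₂ (IsLocalRing.residue R) ξ r := by
    intro s
    induction s using MvPolynomial.induction_on with
    | C c =>
      refine ⟨MvPolynomial.C c, 0, fun v ↦ ?_, by simp⟩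
      rw [zero_mul, add_zero, map_zero (heckeHom h θ A pr), LinearMap.zero_apply, map_zero, sub_zero,
        ← MvPolynomial.algebraMap_eq, AlgHom.commutes, AlgHom.commutes, Module.algebraMap_end_apply,
        Module.algebraMap_end_apply, LinearMap.map_smul_of_tower]
    | add s t hs ht =>
      obtain ⟨P, r, hPr, he⟩ := hs
      obtain ⟨P', r', hPr', he'⟩ := ht
      refine ⟨P + P', r + r', fun v ↦ ?_, ?_⟩
      · rw [show P + P' + (r + r') * MvPolynomial.X j₀ =
          (P + r * MvPolynomial.X j₀) + (P' + r' * MvPolynomial.X j₀) by ring]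
        simp only [map_add, LinearMap.add_apply] at hPr hPr' ⊢
        rw [hPr, hPr']
        abel
      · simp only [MvPolynomial.eval₂_add, he, he']
        ring
    | mul_X s j hs =>
      obtain ⟨P, r, hPr, he⟩ := hs
      rcases eq_or_ne j j₀ with rfl | hj
      · refine ⟨-((q : MvPolynomial J R) * r), P + r * MvPolynomial.X j, fun v ↦ ?_, ?_⟩
        · set w := P + r * MvPolynomial.X j with hw
          have e1 : -((q : MvPolynomial J R) * r) + w * MvPolynomial.X j =
              MvPolynomial.X j * w - (q : MvPolynomial J R) * r := by ring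
          rw [e1, heckeHom_sub_apply θ pr h, heckeHom_mul_apply θ pr h,
            heckeHom_mul_apply θ pr h, heckeHom_natCast_apply θ pr h, mul_comm s,
            heckeHom_mul_apply θ pr (h.mul_right q), hPr, map_sub, heckeHom_X, heckeHom_X,
            heckeOp_upper h θ hd.pr_eq, heckeOp_upper h θ hd.pr_eq,
            heckeU_degD_trivial h θ hxy hA hq hqM, map_sub I, map_nsmul I,
            heckeOp_lower h θ hq hqM hd.pr_eq,
            heckeU_degI h θ hxy hq hqM]
          abel
        · simp only [MvPolynomial.eval₂_add, MvPolynomial.eval₂_mul, MvPolynomial.eval₂_X,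
            MvPolynomial.eval₂_neg, he]
          rw [eval₂_natCast_residue, hd.sum_eq, ← hd.prod_eq]
          ring
      · refine ⟨P * MvPolynomial.X j, r * MvPolynomial.X j, fun v ↦ ?_, ?_⟩
        · have e1 : P * MvPolynomial.X j + r * MvPolynomial.X j * MvPolynomial.X j₀ =
              (P + r * MvPolynomial.X j₀) * MvPolynomial.X j := by ring
          rw [e1, heckeHom_mul_apply θ pr (h.mul_right q), heckeHom_mul_apply θ pr h,
            heckeHom_mul_apply θ pr h, ← degI_heckeHom_X h θ (hd.pr_ne j hj) hq, hPr]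
        · simp only [MvPolynomial.eval₂_mul, MvPolynomial.eval₂_X, he, hd.eq_of_ne j hj]
          ring
  obtain ⟨P, r, hPr, he⟩ := key s₁
  rw [hPr] at h0
  have h1 := eq_zero_of_alpha h θ hxy hq hqM hA hd hs₀
    (heckeHom_mem θ pr h (P + r * MvPolynomial.X j₀) hu)
    (neg_mem (heckeHom_mem θ pr h r hu))
    (by rw [alpha_apply, map_neg, ← sub_eq_add_neg]; exact h0)
  rw [neg_eq_zero] at h1
  by_cases hr : r ∈ systemIdeal ξ
  · refine hs₀.eq_zero_of_mem hu (s := P) (fun hP ↦ hs₁.not_mem ?_) ?_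
    · rw [mem_systemIdeal] at hP hr ⊢
      rw [he, hP, hr, mul_zero, add_zero]
    · have e := h1.1
      rwa [heckeHom_add_apply θ pr h, mul_comm r, heckeHom_mul_apply θ pr h, h1.2, map_zero,
        add_zero] at e
  · exact hs₀.eq_zero_of_mem hu hr h1.2

-- `hs₁` is not needed by the proof; it stays so that the call sites share one argument list.
set_option linter.unusedSectionVars false in
omit [Finite A] [NeZero M] in
include hd hs₁ hA hq hqM in
/-- The traces carry the part at level `M q` into the part at level `M`. -/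
theorem beta_mem_of_mem {z : H1 (levelChar (h.mul_right q) θ) A}
    (hz : z ∈ localH1 (h.mul_right q) θ A pr ξ') :
    (beta h θ A hxy z).1 ∈ localH1 h θ A pr ξ ∧ (beta h θ A hxy z).2 ∈ localH1 h θ A pr ξ := by
  have hU : ∀ z, heckeHom h θ A pr (MvPolynomial.X j₀ : MvPolynomial J R)
      (beta h θ A hxy (heckeHom (h.mul_right q) θ A pr (MvPolynomial.X j₀ : MvPolynomial J R) z)).1 =
        (beta h θ A hxy (heckeHom (h.mul_right q) θ A pr
          ((MvPolynomial.X j₀ : MvPolynomial J R) ^ 2 + (q : MvPolynomial J R)) z)).1 ∧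
      heckeHom h θ A pr (MvPolynomial.X j₀ : MvPolynomial J R)
      (beta h θ A hxy (heckeHom (h.mul_right q) θ A pr (MvPolynomial.X j₀ : MvPolynomial J R) z)).2 =
        (beta h θ A hxy (heckeHom (h.mul_right q) θ A pr
          ((MvPolynomial.X j₀ : MvPolynomial J R) ^ 2 + (q : MvPolynomial J R)) z)).2 := by
    intro z
    rw [pow_two, heckeHom_add_apply θ pr (h.mul_right q), heckeHom_mul_apply θ pr (h.mul_right q),
      heckeHom_natCast_apply θ pr (h.mul_right q), heckeHom_X, heckeHom_X,
      heckeOp_upper h θ hd.pr_eq, heckeOp_upper h θ hd.pr_eq, heckeOp_lower h θ hq hqM hd.pr_eq,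
      heckeOp_lower h θ hq hqM hd.pr_eq]
    exact heckeT_beta_heckeU h θ hxy hA hq hqM z
  have key : ∀ s : MvPolynomial J R, ∃ (n : ℕ) (s' : MvPolynomial J R),
      (∀ z, beta h θ A hxy (heckeHom (h.mul_right q) θ A pr s' z) =
        (heckeHom h θ A pr s (beta h θ A hxy
          (heckeHom (h.mul_right q) θ A pr ((MvPolynomial.X j₀ : MvPolynomial J R) ^ n) z)).1,
         heckeHom h θ A pr s (beta h θ A hxy
          (heckeHom (h.mul_right q) θ A pr ((MvPolynomial.X j₀ : MvPolynomial J R) ^ n) z)).2)) ∧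
      MvPolynomial.eval₂ (IsLocalRing.residue R) ξ' s' =
        ξ' j₀ ^ n * MvPolynomial.eval₂ (IsLocalRing.residue R) ξ s := by
    intro s
    induction s using MvPolynomial.induction_on with
    | C c =>
      refine ⟨0, MvPolynomial.C c, fun z ↦ ?_, by simp⟩
      rw [← MvPolynomial.algebraMap_eq, AlgHom.commutes, AlgHom.commutes, pow_zero, map_one,
        Module.End.one_apply]
      simp only [Module.algebraMap_end_apply]
      exact (LinearMap.map_smul_of_tower _ c z).trans rfl
    | add s t hs ht =>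
      obtain ⟨n, s', hs', he⟩ := hs
      obtain ⟨k, t', ht', he'⟩ := ht
      refine ⟨n + k, s' * MvPolynomial.X j₀ ^ k + t' * MvPolynomial.X j₀ ^ n, fun z ↦ ?_, ?_⟩
      · rw [heckeHom_add_apply θ pr (h.mul_right q), map_add, heckeHom_mul_apply θ pr (h.mul_right q),
          heckeHom_mul_apply θ pr (h.mul_right q), hs', ht']
        simp only [← heckeHom_mul_apply, ← pow_add, add_comm k n, heckeHom_add_apply, Prod.mk_add_mk]
      · simp only [MvPolynomial.eval₂_add, MvPolynomial.eval₂_mul, MvPolynomial.eval₂_pow,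
          MvPolynomial.eval₂_X, he, he']
        ring
    | mul_X s j hs =>
      obtain ⟨n, s', hs', he⟩ := hs
      rcases eq_or_ne j j₀ with rfl | hj
      · refine ⟨n + 1, s' * (MvPolynomial.X j ^ 2 + (q : MvPolynomial J R)), fun z ↦ ?_, ?_⟩
        · rw [heckeHom_mul_apply θ pr (h.mul_right q) s', hs', heckeHom_mul_apply θ pr h s,
            heckeHom_mul_apply θ pr h s, pow_succ' (MvPolynomial.X j : MvPolynomial J R) n,
            heckeHom_mul_apply θ pr (h.mul_right q) (MvPolynomial.X j), (hU _).1, (hU _).2,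
            heckeHom_comm_apply θ pr (h.mul_right q) (MvPolynomial.X j ^ n)]
        · simp only [MvPolynomial.eval₂_mul, MvPolynomial.eval₂_add, MvPolynomial.eval₂_pow,
            MvPolynomial.eval₂_X, he]
          rw [eval₂_natCast_residue, hd.sum_eq, ← hd.prod_eq]
          ring
      · refine ⟨n, s' * MvPolynomial.X j, fun z ↦ ?_, ?_⟩
        · have e := beta_heckeHom_X (R := R) (A := A) h θ hxy (hd.pr_ne j hj) hq
            (heckeHom (h.mul_right q) θ A pr ((MvPolynomial.X j₀ : MvPolynomial J R) ^ n) z)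
          rw [heckeHom_mul_apply θ pr (h.mul_right q), hs', heckeHom_mul_apply θ pr h s,
            heckeHom_mul_apply θ pr h s, heckeHom_comm_apply θ pr (h.mul_right q) (MvPolynomial.X j₀ ^ n)]
          simp only [e]
        · simp only [MvPolynomial.eval₂_mul, MvPolynomial.eval₂_X, he, hd.eq_of_ne j hj]
          ring
  have hrange : ∀ s ∉ systemIdeal ξ, ∃ v, (beta h θ A hxy z).1 = heckeHom h θ A pr s v ∧
      ∃ v', (beta h θ A hxy z).2 = heckeHom h θ A pr s v' := by
    intro s hs
    obtain ⟨n, s', hs', he⟩ := key s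
    have hns : s' ∉ systemIdeal ξ' := by
      rw [mem_systemIdeal, he]
      exact mul_ne_zero (pow_ne_zero _ hd.left_ne_zero) hs
    obtain ⟨w, hw⟩ := (mem_part_iff _ _).mp hz s' hns
    have e := (congrArg (beta h θ A hxy) hw).symm.trans (hs' w)
    exact ⟨_, congrArg Prod.fst e, _, congrArg Prod.snd e⟩
  exact ⟨(mem_part_iff _ _).mpr fun s hs ↦ ⟨_, (hrange s hs).choose_spec.1.symm⟩,
    (mem_part_iff _ _).mpr fun s hs ↦ ⟨_, (hrange s hs).choose_spec.2.choose_spec.symm⟩⟩

end Main

end FermatAgent.RTLift.Old
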