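import Mathlib
import Fermat.Agent.RTLift.Old.TWResidual

/-!
Surjectivity of the projected first degeneracy map at an auxiliary prime, residual coefficients:
the part at level `M q` is spanned by the image and its translate by `U_q`, and a nilpotent
operator preserving the image moves the latter into the former.
-/

set_option autoImplicit false

namespace FermatAgent.RTLift.Old

open scoped MatrixGroups
open CongruenceSubgroup FermatAgent.RTLift.Modules

variable {R : Type} [CommRing R] [IsLocalRing R] {Λ : Type} [CommRing Λ] [Algebra R Λ]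
  {J : Type} {pr : J → Nat.Primes} {j₀ : J} {M₀ M q : ℕ} [NeZero q] [NeZero (M * q)]
  {ξ ξ' : J → IsLocalRing.ResidueField R} {b : IsLocalRing.ResidueField R}
  (h : M₀ ∣ M) (θ : (ZMod M₀)ˣ →* Λ) {A : Type} [AddCommGroup A] [Module Λ A] [Module R A]
  [IsScalarTower R Λ A] {x y : ℤ} (hxy : x * q - y * M = 1) (hq : q.Prime) (hqM : ¬ q ∣ M)
  (hA : IsTrivialOn θ A) (hd : RootData pr j₀ q ξ ξ' b)

include hd hA hq hqM in
/-- The kernel of the traces is stable under the Hecke symbols at level `M q`. -/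
theorem beta_heckeHom_eq_zero (s : MvPolynomial J R)
    (k : H1 (levelChar (h.mul_right q) θ) A) (hk : beta h θ A hxy k = 0) :
    beta h θ A hxy (heckeHom (h.mul_right q) θ A pr s k) = 0 := by
  induction s using MvPolynomial.induction_on generalizing k with
  | C c => rw [heckeHom_C_apply θ pr (h.mul_right q), LinearMap.map_smul_of_tower, hk, smul_zero]
  | add s t hs ht =>
    rw [heckeHom_add_apply θ pr (h.mul_right q), map_add, hs k hk, ht k hk, add_zero]
  | mul_X s j hs =>
    rw [heckeHom_mul_apply θ pr (h.mul_right q)]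
    refine hs _ ?_
    rcases eq_or_ne j j₀ with rfl | hj
    · rw [heckeHom_X, heckeOp_upper h θ hd.pr_eq, beta_heckeU h θ hxy hA hq hqM, hk]
      simp
    · have e := beta_heckeHom_X (R := R) (A := A) h θ hxy (hd.pr_ne j hj) hq k
      refine e.trans ?_
      rw [hk]
      simp

variable {s₀ : MvPolynomial J R} (hs₀ : IsProjector (heckeHom h θ A pr) (systemIdeal ξ) s₀)
  {s₁ : MvPolynomial J R}
  (hs₁ : IsProjector (heckeHom (h.mul_right q) θ A pr) (systemIdeal ξ') s₁)

include hd hs₀ hA hq hqM in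
/-- The composite of the traces with the degeneracy maps is onto the part at level `M`. -/
theorem exists_beta_alpha_eq {c e : H1 (levelChar h θ) A} (hc : c ∈ localH1 h θ A pr ξ)
    (he : e ∈ localH1 h θ A pr ξ) :
    ∃ u ∈ localH1 h θ A pr ξ, ∃ v ∈ localH1 h θ A pr ξ,
      beta h θ A hxy (alpha h θ A hxy (u, v)) = (c, e) := by
  obtain ⟨t, ht⟩ := hs₀.factor _ (detElem_not_mem hd)
  set P : MvPolynomial J R := t * ((q : MvPolynomial J R) + 1)
  set Q : MvPolynomial J R := t * MvPolynomial.X j₀
  refine ⟨heckeHom h θ A pr P c - heckeHom h θ A pr Q e,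
    sub_mem (heckeHom_mem θ pr h _ hc) (heckeHom_mem θ pr h _ he),
    heckeHom h θ A pr P e - heckeHom h θ A pr Q c,
    sub_mem (heckeHom_mem θ pr h _ he) (heckeHom_mem θ pr h _ hc), ?_⟩
  rw [beta_alpha h θ hxy hq hqM, alScalar_smul h θ hxy hA]
  simp only [← heckeOp_lower h θ hq hqM hd.pr_eq, ← heckeHom_X h θ A pr j₀ (R := R),
    ← heckeHom_succ_apply (R := R) θ pr h q, map_sub, ← heckeHom_mul_apply θ pr h]
  have key : ∀ v ∈ localH1 h θ A pr ξ,
      heckeHom h θ A pr (((q : MvPolynomial J R) + 1) * P) v -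
        heckeHom h θ A pr (MvPolynomial.X j₀ * Q) v = v := fun v hv ↦ by
    rw [← heckeHom_sub_apply θ pr h,
      show ((q : MvPolynomial J R) + 1) * P - MvPolynomial.X j₀ * Q = detElem R q j₀ * t by
        simp only [P, Q, detElem]; ring, ht]
    exact hs₀.apply_of_mem hv
  have comm : ((q : MvPolynomial J R) + 1) * Q = MvPolynomial.X j₀ * P := by
    simp only [P, Q]; ring
  rw [comm]
  refine Prod.ext ?_ ?_
  · refine Eq.trans ?_ (key c hc)
    abel
  · refine Eq.trans ?_ (key e he)
    abel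

-- Hypotheses not needed by the proof stay so that the call sites share one argument list.
set_option linter.unusedSectionVars false in
include hd hs₁ hA hxy hq hqM in
omit [NeZero (M * q)] in
/-- `U_q` on a projected image of the first degeneracy map. -/
theorem heckeHom_X_projected (v : H1 (levelChar h θ) A) :
    heckeHom (h.mul_right q) θ A pr (MvPolynomial.X j₀ : MvPolynomial J R)
        (heckeHom (h.mul_right q) θ A pr s₁ (degI h (h.mul_right q) θ A (dvd_mul_right M q) v)) =
      heckeHom (h.mul_right q) θ A pr s₁ (degI h (h.mul_right q) θ A (dvd_mul_right M q)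
          (heckeHom h θ A pr (MvPolynomial.X j₀ : MvPolynomial J R) v)) -
        heckeHom (h.mul_right q) θ A pr s₁
          (degD h (h.mul_right q) θ A (coprime_of_bezout hxy h) dvd_rfl v) := by
  rw [heckeHom_comm_apply θ pr (h.mul_right q), heckeHom_X, heckeHom_X,
    heckeOp_upper h θ hd.pr_eq, heckeOp_lower h θ hq hqM hd.pr_eq,
    heckeU_degI h θ hxy hq hqM, map_sub]

-- Hypotheses not needed by the proof stay so that the call sites share one argument list.
set_option linter.unusedSectionVars false in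
include hd hs₁ hA hxy hq hqM in
omit [NeZero (M * q)] in
/-- `U_q` on a projected image of the second degeneracy map. -/
theorem heckeHom_X_projected_degD (v : H1 (levelChar h θ) A) :
    heckeHom (h.mul_right q) θ A pr (MvPolynomial.X j₀ : MvPolynomial J R)
        (heckeHom (h.mul_right q) θ A pr s₁
          (degD h (h.mul_right q) θ A (coprime_of_bezout hxy h) dvd_rfl v)) =
      q • heckeHom (h.mul_right q) θ A pr s₁ (degI h (h.mul_right q) θ A (dvd_mul_right M q) v) := by
  rw [heckeHom_comm_apply θ pr (h.mul_right q), heckeHom_X,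
    heckeOp_upper h θ hd.pr_eq, heckeU_degD_trivial h θ hxy hA hq hqM, map_nsmul]

include hd hs₀ hs₁ hA hxy hq hqM in
/-- The part at level `M q` is the projected image plus its translate by `U_q`. -/
theorem exists_decomp {w : H1 (levelChar (h.mul_right q) θ) A}
    (hw : w ∈ localH1 (h.mul_right q) θ A pr ξ') :
    ∃ u ∈ localH1 h θ A pr ξ, ∃ v ∈ localH1 h θ A pr ξ,
      w = heckeHom (h.mul_right q) θ A pr s₁ (degI h (h.mul_right q) θ A (dvd_mul_right M q) u) +
        heckeHom (h.mul_right q) θ A pr (MvPolynomial.X j₀ : MvPolynomial J R)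
          (heckeHom (h.mul_right q) θ A pr s₁
            (degI h (h.mul_right q) θ A (dvd_mul_right M q) v)) := by
  obtain ⟨h1, h2⟩ := beta_mem_of_mem h θ hxy hq hqM hA hd hs₁ hw
  obtain ⟨a, ha, c, hc, hac⟩ := exists_beta_alpha_eq h θ hxy hq hqM hA hd hs₀ h1 h2
  set k := heckeHom (h.mul_right q) θ A pr s₁ (w - alpha h θ A hxy (a, c)) with hk
  have hk0 : beta h θ A hxy k = 0 :=
    beta_heckeHom_eq_zero h θ hxy hq hqM hA hd s₁ _ (by rw [map_sub, hac, sub_self])
  have hkz : k = 0 := by
    refine hs₁.eq_zero_of_mem (hs₁.apply_mem _) (s := MvPolynomial.X j₀ ^ 2 - 1) ?_ ?_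
    · rw [mem_systemIdeal, MvPolynomial.eval₂_sub, MvPolynomial.eval₂_pow, MvPolynomial.eval₂_X,
        MvPolynomial.eval₂_one, sub_eq_zero]
      exact hd.sq_ne_one
    · rw [heckeHom_sub_apply θ pr (h.mul_right q), pow_two,
        heckeHom_mul_apply θ pr (h.mul_right q), map_one, Module.End.one_apply, heckeHom_X,
        heckeOp_upper h θ hd.pr_eq, heckeOp_upper h θ hd.pr_eq,
        heckeU_heckeU_of_beta_eq_zero h θ hxy hA hq hqM hk0, sub_self]
  rw [hk, map_sub, hs₁.apply_of_mem hw, sub_eq_zero, alpha_apply, map_add] at hkz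
  refine ⟨a + heckeHom h θ A pr (MvPolynomial.X j₀ : MvPolynomial J R) c,
    add_mem ha (heckeHom_mem θ pr h _ hc), -c, neg_mem hc, ?_⟩
  rw [hkz]
  simp only [map_add, map_neg, heckeHom_X_projected h θ hxy hq hqM hA hd hs₁]
  abel

set_option maxHeartbeats 1000000 in
include hd hs₁ hA hxy hq hqM in
omit [NeZero (M * q)] in
/-- `U_q + q U_q⁻¹` is `T_q` on the projected image. -/
theorem shifted_projected {tU : MvPolynomial J R}
    (htU : ∀ w ∈ localH1 (h.mul_right q) θ A pr ξ', heckeHom (h.mul_right q) θ A pr tU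
      (heckeHom (h.mul_right q) θ A pr (MvPolynomial.X j₀ : MvPolynomial J R) w) = w)
    (v : H1 (levelChar h θ) A) :
    heckeHom (h.mul_right q) θ A pr (MvPolynomial.X j₀ + (q : MvPolynomial J R) * tU)
        (heckeHom (h.mul_right q) θ A pr s₁ (degI h (h.mul_right q) θ A (dvd_mul_right M q) v)) =
      heckeHom (h.mul_right q) θ A pr s₁ (degI h (h.mul_right q) θ A (dvd_mul_right M q)
        (heckeHom h θ A pr (MvPolynomial.X j₀ : MvPolynomial J R) v)) := by
  rw [heckeHom_add_apply θ pr (h.mul_right q), heckeHom_mul_apply θ pr (h.mul_right q),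
    heckeHom_natCast_apply θ pr (h.mul_right q), ← map_nsmul,
    ← heckeHom_X_projected_degD h θ hxy hq hqM hA hd hs₁,
    htU _ (hs₁.apply_mem _), heckeHom_X_projected h θ hxy hq hqM hA hd hs₁, sub_add_cancel]

variable [Finite A]

set_option maxHeartbeats 1600000 in
include hd hs₀ hs₁ hA hxy hq hqM in
/-- The projected first degeneracy map is surjective. -/
theorem exists_projected_eq (hχ' : IsGoodChar (levelChar (h.mul_right q) θ))
    {z : H1 (levelChar (h.mul_right q) θ) A} (hz : z ∈ localH1 (h.mul_right q) θ A pr ξ') :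
    ∃ u ∈ localH1 h θ A pr ξ, heckeHom (h.mul_right q) θ A pr s₁
      (degI h (h.mul_right q) θ A (dvd_mul_right M q) u) = z := by
  have hfin := finite_h1_of_finite (h.mul_right q) θ (A := A) hχ'
  set I := degI h (h.mul_right q) θ A (dvd_mul_right M q)
  set π := heckeHom (h.mul_right q) θ A pr s₁
  obtain ⟨tU, htU⟩ := hs₁.factor (MvPolynomial.X j₀) (by
    rw [mem_systemIdeal, MvPolynomial.eval₂_X]; exact hd.left_ne_zero)
  have htUid : ∀ w ∈ localH1 (h.mul_right q) θ A pr ξ', heckeHom (h.mul_right q) θ A pr tU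
      (heckeHom (h.mul_right q) θ A pr (MvPolynomial.X j₀ : MvPolynomial J R) w) = w := fun w hw ↦ by
    rw [← heckeHom_mul_apply θ pr (h.mul_right q), mul_comm tU (MvPolynomial.X j₀), htU]
    exact hs₁.apply_of_mem hw
  by_cases hte : MvPolynomial.eval₂ (IsLocalRing.residue R) ξ' (MvPolynomial.X j₀ * tU - 1) = 0
  swap
  · refine ⟨0, zero_mem _, ?_⟩
    rw [map_zero, map_zero]
    refine (hs₁.eq_zero_of_mem hz
      (show MvPolynomial.X j₀ * tU - 1 ∉ systemIdeal ξ' from hte) ?_).symm
    rw [heckeHom_sub_apply θ pr (h.mul_right q), map_one, Module.End.one_apply, htU,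
      hs₁.apply_of_mem hz, sub_self]
  rw [MvPolynomial.eval₂_sub, MvPolynomial.eval₂_mul, MvPolynomial.eval₂_X, MvPolynomial.eval₂_one,
    sub_eq_zero] at hte
  obtain ⟨c, hcA⟩ := IsLocalRing.residue_surjective (ξ' j₀)
  set D' : MvPolynomial J R :=
    MvPolynomial.C c * (MvPolynomial.X j₀ + (q : MvPolynomial J R) * tU) - MvPolynomial.C (c * c) -
      (q : MvPolynomial J R) with hD'
  have hD'mem : D' ∈ systemIdeal ξ' := by
    rw [mem_systemIdeal, hD', MvPolynomial.eval₂_sub, MvPolynomial.eval₂_sub, MvPolynomial.eval₂_mul,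
      MvPolynomial.eval₂_add, MvPolynomial.eval₂_mul, MvPolynomial.eval₂_C, MvPolynomial.eval₂_C,
      MvPolynomial.eval₂_X, eval₂_natCast_residue, map_mul, hcA]
    linear_combination (q : IsLocalRing.ResidueField R) * hte
  obtain ⟨n, hn⟩ := exists_pow_apply_eq_zero θ pr (h.mul_right q)
    (isMaximal_systemIdeal ξ').ne_top hs₁ hD'mem
  have hns : MvPolynomial.C c - (q : MvPolynomial J R) * tU ∉ systemIdeal ξ' := by
    rw [mem_systemIdeal, MvPolynomial.eval₂_sub, MvPolynomial.eval₂_mul,
      MvPolynomial.eval₂_C, hcA, eval₂_natCast_residue, ← hd.prod_eq, sub_eq_zero,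
      mul_comm (ξ' j₀), mul_assoc, hte, mul_one]
    exact hd.ne
  obtain ⟨ti, hti⟩ := hs₁.factor _ hns
  set N : Submodule R (H1 (levelChar (h.mul_right q) θ) A) :=
    ((localH1 h θ A pr ξ).restrictScalars R).map ((π.comp I).restrictScalars R) with hN
  have hNmem : ∀ u ∈ localH1 h θ A pr ξ, π (I u) ∈ N := fun u hu ↦
    Submodule.mem_map_of_mem (f := (π.comp I).restrictScalars R) hu
  have hDN : ∀ w ∈ N, heckeHom (h.mul_right q) θ A pr D' w ∈ N := by
    rintro _ ⟨u, hu, rfl⟩
    show heckeHom (h.mul_right q) θ A pr D' (π (I u)) ∈ N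
    rw [hD', heckeHom_sub_apply θ pr (h.mul_right q), heckeHom_sub_apply θ pr (h.mul_right q),
      heckeHom_mul_apply θ pr (h.mul_right q), shifted_projected h θ hxy hq hqM hA hd hs₁ htUid,
      heckeHom_C_apply θ pr (h.mul_right q), heckeHom_C_apply θ pr (h.mul_right q),
      heckeHom_natCast_apply θ pr (h.mul_right q)]
    exact sub_mem (sub_mem (N.smul_mem c (hNmem _ (heckeHom_mem θ pr h _ hu)))
      (N.smul_mem (c * c) (hNmem u hu))) (N.smul_of_tower_mem q (hNmem u hu))
  have hstep : ∀ w ∈ localH1 (h.mul_right q) θ A pr ξ', ∃ e ∈ N,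
      ∃ w' ∈ localH1 (h.mul_right q) θ A pr ξ', w = e + heckeHom (h.mul_right q) θ A pr D' w' := by
    intro w hw
    obtain ⟨u, hu, v, hv, rfl⟩ := exists_decomp h θ hxy hq hqM hA hd hs₀ hs₁ hw
    refine ⟨π (I u) + c • π (I v), add_mem (hNmem u hu) (N.smul_mem c (hNmem v hv)),
      heckeHom (h.mul_right q) θ A pr ti (π (I v)),
      heckeHom_mem θ pr (h.mul_right q) _ (hs₁.apply_mem _), ?_⟩
    have hmem := hs₁.apply_mem (I v)
    have e1 : heckeHom (h.mul_right q) θ A pr (D' * ti) (π (I v)) =
        heckeHom (h.mul_right q) θ A pr ((MvPolynomial.X j₀ - MvPolynomial.C c) *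
          ((MvPolynomial.C c - (q : MvPolynomial J R) * tU) * ti)) (π (I v)) := by
      rw [← sub_eq_zero, ← heckeHom_sub_apply θ pr (h.mul_right q),
        show D' * ti - (MvPolynomial.X j₀ - MvPolynomial.C c) *
            ((MvPolynomial.C c - (q : MvPolynomial J R) * tU) * ti) =
          ((q : MvPolynomial J R) * ti) * (MvPolynomial.X j₀ * tU - 1) by
            rw [hD', map_mul]; ring,
        heckeHom_mul_apply θ pr (h.mul_right q), heckeHom_sub_apply θ pr (h.mul_right q), map_one,
        Module.End.one_apply, htU, hs₁.apply_of_mem hmem, sub_self, map_zero]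
    rw [← heckeHom_mul_apply θ pr (h.mul_right q) D', e1, heckeHom_mul_apply θ pr (h.mul_right q),
      hti, hs₁.apply_of_mem hmem, heckeHom_sub_apply θ pr (h.mul_right q),
      heckeHom_C_apply θ pr (h.mul_right q)]
    abel
  have hiter : ∀ i, ∀ w ∈ localH1 (h.mul_right q) θ A pr ξ', ∃ e ∈ N,
      ∃ w' ∈ localH1 (h.mul_right q) θ A pr ξ',
        w = e + heckeHom (h.mul_right q) θ A pr (D' ^ i) w' := by
    intro i
    induction i with
    | zero => exact fun w hw ↦ ⟨0, zero_mem _, w, hw, by simp⟩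
    | succ i ih =>
      intro w hw
      obtain ⟨e, he, w', hw', rfl⟩ := hstep w hw
      obtain ⟨e', he', w'', hw'', rfl⟩ := ih w' hw'
      refine ⟨e + heckeHom (h.mul_right q) θ A pr D' e', add_mem he (hDN _ he'), w'', hw'', ?_⟩
      rw [map_add, pow_succ', heckeHom_mul_apply θ pr (h.mul_right q), add_assoc]
  obtain ⟨e, he, w', hw', hzw⟩ := hiter n z hz
  rw [hn w' hw', add_zero] at hzw
  obtain ⟨u, hu, rfl⟩ := he
  exact ⟨u, hu, hzw.symm⟩

end FermatAgent.RTLift.Old
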