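import Mathlib
import Fermat.Agent.RTLift.Old.Lift
import Fermat.Agent.RTLift.Old.TWSurjective

/-!
An auxiliary prime `q` with distinct residual roots `a`, `b`, local coefficients with residually
trivial character: the local part at level `M` is isomorphic to the local part at level `M q`
where `U_q ≡ a`, compatibly with the Hecke operators away from `q` and with `T_q = U_q + w q / U_q`.
-/

set_option autoImplicit false

namespace FermatAgent.RTLift.Old

open scoped MatrixGroups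
open CongruenceSubgroup FermatAgent.RTLift.Modules

variable {R : Type} [CommRing R] [IsLocalRing R] {Λ : Type} [CommRing Λ] [Algebra R Λ]
  {J : Type} {pr : J → Nat.Primes} {j₀ : J} {M₀ M q : ℕ}
  {ξ ξ' : J → IsLocalRing.ResidueField R} {b : IsLocalRing.ResidueField R}

omit [IsLocalRing R] in
/-- Projectors push forward along surjective equivariant maps. -/
theorem isProjector_of_surjective {H H' : Type} [AddCommGroup H] [Module Λ H] [Module R H]
    [IsScalarTower R Λ H] [AddCommGroup H'] [Module Λ H'] [Module R H'] [IsScalarTower R Λ H']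
    {𝕋 : Type} [CommRing 𝕋] [Algebra R 𝕋] {ρ : 𝕋 →ₐ[R] Module.End Λ H}
    {ρ' : 𝕋 →ₐ[R] Module.End Λ H'} {m : Ideal 𝕋} {s₀ : 𝕋} (hs : IsProjector ρ m s₀)
    (f : H →ₗ[Λ] H') (hf : ∀ s x, f (ρ s x) = ρ' s (f x)) (hsurj : Function.Surjective f) :
    IsProjector ρ' m s₀ where
  not_mem := hs.not_mem
  idem := LinearMap.ext fun y ↦ by
    obtain ⟨x, rfl⟩ := hsurj y
    rw [Module.End.mul_apply, ← hf, ← hf, hs.apply_idem, hf]
  factor s hsm := by
    obtain ⟨t, ht⟩ := hs.factor s hsm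
    refine ⟨t, LinearMap.ext fun y ↦ ?_⟩
    obtain ⟨x, rfl⟩ := hsurj y
    rw [← hf, ← hf, ht]

variable (h : M₀ ∣ M) {θ : (ZMod M₀)ˣ →* Λ}

section Finite

variable [IsNoetherianRing R] [IsAdicComplete (IsLocalRing.maximalIdeal R) R] [Module.Finite R Λ]

/-- The non-Eisenstein local part is finite projective. -/
theorem finite_projective_of_nonEis [NeZero M] (hχ : IsGoodChar (levelChar h θ))
    (hne : NonEis pr ξ M₀ M) :
    Module.Finite Λ (localH1 h θ Λ pr ξ) ∧ Module.Projective Λ (localH1 h θ Λ pr ξ) := by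
  have := finite_h1 (R := R) (A := Λ) h θ hχ
  have := isNoetherian_of_isNoetherianRing_of_finite R (H1 (levelChar h θ) Λ)
  have : Module.Finite R (localH1 h θ Λ pr ξ) :=
    Module.Finite.of_injective ((localH1 h θ Λ pr ξ).subtype.restrictScalars R)
      Subtype.val_injective
  exact ⟨Module.Finite.of_restrictScalars_finite R Λ _, projective_localH1 h θ pr ξ hχ hne⟩

variable [IsLocalRing Λ] [NeZero M] [NeZero q]
  [NeZero (M * q)] {x y : ℤ}

set_option maxHeartbeats 2000000 in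
/-- **The auxiliary prime**: the local part at level `M` is the local part at level `M q` at
`U_q ≡ a`. -/
theorem exists_oldEquiv [Finite (IsLocalRing.ResidueField Λ)] (hxy : x * q - y * M = 1) (hq : q.Prime) (hqM : ¬ q ∣ M)
    (hd : RootData pr j₀ q ξ ξ' b)
    (hθ1 : θ (-1) = 1) (hθ : ∀ u, θ u - 1 ∈ IsLocalRing.maximalIdeal Λ) (h2 : IsUnit (2 : Λ))
    (h3 : IsUnit (3 : Λ) ∨ ∃ r, r.Prime ∧ r % 3 = 2 ∧ r ∣ M)
    (hne : NonEis pr ξ M₀ M) (hne' : NonEis pr ξ' M₀ (M * q)) :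
    ∃ e : localH1 h θ Λ pr ξ ≃ₗ[Λ] localH1 (h.mul_right q) θ Λ pr ξ',
      (∀ j, j ≠ j₀ → ∀ u v : localH1 h θ Λ pr ξ,
        (v : H1 (levelChar h θ) Λ) = heckeOp h θ Λ (pr j) u →
        (e v : H1 (levelChar (h.mul_right q) θ) Λ) = heckeOp (h.mul_right q) θ Λ (pr j) (e u)) ∧
      ∀ u v : localH1 h θ Λ pr ξ, (v : H1 (levelChar h θ) Λ) = heckeT h θ Λ hq hqM u →
        heckeU (h.mul_right q) θ Λ (dvd_mul_left q M) (e v) =
          heckeU (h.mul_right q) θ Λ (dvd_mul_left q M)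
              (heckeU (h.mul_right q) θ Λ (dvd_mul_left q M) (e u)) +
            ((q : Λ) * alScalar h θ hxy) • (e u : H1 (levelChar (h.mul_right q) θ) Λ) := by
  have hχ := isGoodChar_levelChar h hθ1 h2 h3
  have hχ' := isGoodChar_levelChar (h.mul_right q) hθ1 h2
    (h3.imp id fun ⟨r, hr, h1, h4⟩ ↦ ⟨r, hr, h1, h4.mul_right q⟩)
  obtain ⟨hfP, hpP⟩ := finite_projective_of_nonEis h hχ hne
  obtain ⟨hfW, hpW⟩ := finite_projective_of_nonEis (h.mul_right q) hχ' hne'
  have := finite_h1 (R := R) (A := Λ) h θ hχ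
  have := finite_h1 (R := R) (A := Λ) (h.mul_right q) θ hχ'
  obtain ⟨s₀, hs₀⟩ := exists_isProjector (heckeHom (R := R) h θ Λ pr) (systemIdeal ξ)
  obtain ⟨s₁, hs₁⟩ :=
    exists_isProjector (heckeHom (R := R) (h.mul_right q) θ Λ pr) (systemIdeal ξ')
  set I := degI h (h.mul_right q) θ Λ (dvd_mul_right M q) with hI
  set π := heckeHom (h.mul_right q) θ Λ pr s₁ with hπ
  let f : localH1 h θ Λ pr ξ →ₗ[Λ] localH1 (h.mul_right q) θ Λ pr ξ' :=
    ((π.comp I).comp (localH1 h θ Λ pr ξ).subtype).codRestrict _ fun u ↦ hs₁.apply_mem _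
  -- reduction
  set red := redCoeff Λ
  have hA := isTrivialOn_residueField (θ := θ) hθ
  have hbc := localH1_baseChange h θ pr ξ hχ (IsLocalRing.maximalIdeal Λ) red
    (redCoeff_surjective Λ) (ker_redCoeff Λ)
  have hbc' := localH1_baseChange (h.mul_right q) θ pr ξ' hχ' (IsLocalRing.maximalIdeal Λ) red
    (redCoeff_surjective Λ) (ker_redCoeff Λ)
  have hK₀ := isProjector_of_surjective hs₀ (h1Map red) (h1Map_heckeHom h θ pr red)
    (hχ.h1Map_surjective red (redCoeff_surjective Λ))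
  have hK₁ := isProjector_of_surjective hs₁ (h1Map red) (h1Map_heckeHom (h.mul_right q) θ pr red)
    (hχ'.h1Map_surjective red (redCoeff_surjective Λ))
  have hfred : ∀ u : localH1 h θ Λ pr ξ,
      h1Map red (f u : H1 (levelChar (h.mul_right q) θ) Λ) =
        heckeHom (h.mul_right q) θ (IsLocalRing.ResidueField Λ) pr s₁
          (degI h (h.mul_right q) θ (IsLocalRing.ResidueField Λ) (dvd_mul_right M q) (h1Map red (u : H1 (levelChar h θ) Λ))) := by
    intro u
    show h1Map red (π (I u)) = _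
    rw [hπ, h1Map_heckeHom (h.mul_right q) θ pr red, hI]
    simp only [degI, CrossCorr.onH1_h1Map]
  have hinj : ∃ g : localH1 (h.mul_right q) θ Λ pr ξ' →ₗ[Λ] localH1 h θ Λ pr ξ,
      g.comp f = LinearMap.id := exists_leftInverse_of_mod f fun u hu ↦ by
    refine (Submodule.mem_smul_top_iff _ _ _).mpr (hbc.2 _ u.2 ?_)
    refine eq_zero_of_projected h θ hxy hq hqM hA hd hK₀ hK₁
      (hbc.1 ▸ Submodule.mem_map_of_mem u.2) ((hfred u).symm.trans ?_)
    exact h1Map_eq_zero_of_mem_smul red _ (ker_redCoeff Λ) ((Submodule.mem_smul_top_iff _ _ _).mp hu)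
  have hsur : ∃ g, f.comp g = LinearMap.id := exists_rightInverse_of_mod f fun z ↦ by
    obtain ⟨ū, hū, heq⟩ := exists_projected_eq h θ hxy hq hqM hA hd hK₀ hK₁ hχ'
      (hbc'.1 ▸ Submodule.mem_map_of_mem z.2)
    rw [← hbc.1] at hū
    obtain ⟨u, hu, rfl⟩ := hū
    refine ⟨⟨u, hu⟩, (Submodule.mem_smul_top_iff _ _ _).mpr (hbc'.2 _ (Submodule.coe_mem _) ?_)⟩
    rw [Submodule.coe_sub, map_sub, hfred, sub_eq_zero]
    exact heq.symm
  obtain ⟨g, hg⟩ := hinj
  obtain ⟨g', hg'⟩ := hsur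
  let e := LinearEquiv.ofBijective f
    ⟨Function.LeftInverse.injective (g := g) fun u ↦ LinearMap.congr_fun hg u,
      Function.RightInverse.surjective (g := g') fun u ↦ LinearMap.congr_fun hg' u⟩
  refine ⟨e, fun j hj u v hv ↦ ?_, fun u v hv ↦ ?_⟩
  · show π (I v) = heckeOp (h.mul_right q) θ Λ (pr j) (π (I u))
    rw [hv, ← heckeHom_X h θ Λ pr j (R := R), hI,
      degI_heckeHom_X h θ (hd.pr_ne j hj) hq, hπ,
      heckeHom_comm_apply θ pr (h.mul_right q) s₁, heckeHom_X]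
  · have hUπ : ∀ w, heckeU (h.mul_right q) θ Λ (dvd_mul_left q M) (π w) =
        π (heckeU (h.mul_right q) θ Λ (dvd_mul_left q M) w) := fun w ↦ by
      rw [← heckeOp_upper h θ hd.pr_eq, ← heckeOp_upper h θ hd.pr_eq,
        ← heckeHom_X (h.mul_right q) θ Λ pr j₀ (R := R), hπ,
        heckeHom_comm_apply θ pr (h.mul_right q) s₁]
    show heckeU _ θ Λ _ (π (I v)) = heckeU _ θ Λ _ (heckeU _ θ Λ _ (π (I u))) +
      ((q : Λ) * alScalar h θ hxy) • π (I u)
    rw [hUπ (I u), heckeU_degI h θ hxy hq hqM, map_sub, map_sub, hUπ (degD h _ θ Λ _ _ _),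
      heckeU_degD h θ hq hqM, map_smul, ← hv]
    exact (sub_add_cancel _ _).symm

end Finite

end FermatAgent.RTLift.Old
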